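import Mathlib
import Fermat.Agent.S17.H.Defs
import Fermat.Agent.Lib.RR.Weil
import Fermat.Agent.S17.Pts.Eval

set_option autoImplicit false

/-!
# S17, package H: the embedded curve — shared definitions and the local Props

`F` is a function field over `ℚ̄` (`h : Fermat.Agent.RR.IsRRField Qbar F`), `P₀` the base point,
`e` the degree of the embedding, `φ : Fin (r+1) → F` a basis of `L(e P₀)`.

Everything here is a DEFINITION or a `Prop`; proofs live in the owners' files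
(see NOTES/blueprint-S17.md).  Points of the curve are places `P : Place Qbar F`.
-/

noncomputable section

open AlgebraicCurve

namespace Fermat.Agent.S17

variable {F : Type*} [Field F] [Algebra Qbar F]

/-! ### values, coordinates -/

/-- The value `f(P) ∈ ℚ̄` of a function at a place (`0` if `f` has a pole at `P`).
This is `Fermat.Agent.S17.Pts.ev` (seat PTS, helper19: `ev_add`, `ev_mul`, `ev_eq_iff`, ...). -/
abbrev val (P : Place Qbar F) (f : F) : Qbar := Pts.ev P f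

/-- the space of sections `V_j = L(j e P₀)` -/
def secSpace (P₀ : Place Qbar F) (e j : ℕ) : Submodule Qbar F :=
  riemannRochSpace (Finsupp.single P₀ ((j * e : ℕ) : ℤ))

/-- `φ` is an embedding basis: a basis of `L(e P₀)` with `φ 0 = 1`. -/
structure IsEmbBasis (P₀ : Place Qbar F) (e : ℕ) {r : ℕ} (φ : Fin (r + 1) → F) : Prop where
  linearIndependent : LinearIndependent Qbar φ
  span_eq : Submodule.span Qbar (Set.range φ) = secSpace P₀ e 1
  zero_eq_one : φ 0 = 1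

/-- an index `a₀` with `ord_P (φ a₀)` minimal -/
def pivot {r : ℕ} (φ : Fin (r + 1) → F) (P : Place Qbar F) : Fin (r + 1) :=
  (Finset.exists_min_image Finset.univ (fun a => P.ord (φ a)) Finset.univ_nonempty).choose

theorem pivot_le {r : ℕ} (φ : Fin (r + 1) → F) (P : Place Qbar F) (a : Fin (r + 1)) :
    P.ord (φ (pivot φ P)) ≤ P.ord (φ a) :=
  (Finset.exists_min_image Finset.univ (fun a => P.ord (φ a)) Finset.univ_nonempty).choose_spec.2
    a (Finset.mem_univ a)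

/-- projective coordinates of the point `P`: `(φ_a / φ_{a₀})(P)`. -/
def coord {r : ℕ} (φ : Fin (r + 1) → F) (P : Place Qbar F) : Fin (r + 1) → Qbar :=
  fun a => val P (φ a / φ (pivot φ P))

/-! ### local quantities at a place `v` of `ℚ` -/

variable (𝔸 : AbsSys) (v : 𝔸.ι)

/-- sup-norm of the `2 × 2` minors of two vectors -/
def wnorm {r : ℕ} (x y : Fin (r + 1) → Qbar) : ℝ :=
  Finset.univ.sup' Finset.univ_nonempty fun p : Fin (r + 1) × Fin (r + 1) =>
    𝔸.abv v (x p.1 * y p.2 - x p.2 * y p.1)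

/-- chordal distance `δ_v(P,Q)` -/
def chord {r : ℕ} (φ : Fin (r + 1) → F) (P Q : Place Qbar F) : ℝ :=
  wnorm 𝔸 v (coord φ P) (coord φ Q) / (vnorm 𝔸 v (coord φ P) * vnorm 𝔸 v (coord φ Q))

/-- local diagonal height `g_v(P,Q) = - log δ_v(P,Q)` -/
def gloc {r : ℕ} (φ : Fin (r + 1) → F) (P Q : Place Qbar F) : ℝ :=
  - Real.log (chord 𝔸 v φ P Q)

/-- local height of `P` relative to `e P₀`: `log ‖(φ_a(P))_a‖_v` (used for `P ≠ P₀`). -/
def lamloc {r : ℕ} (φ : Fin (r + 1) → F) (P : Place Qbar F) : ℝ :=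
  Real.log (vnorm 𝔸 v fun a => val P (φ a))

/-- normalised size at `P` of the leading term of a section `f ∈ V_j` which vanishes to order `m`
at `P` (as a section), with respect to the uniformizer `π`:
`|(f / (φ_{a₀}^j π^m))(P)|_v / ‖coord P‖_v^j`.  For `m = 0` (then `π` is irrelevant) this is the
size `|f|_v(P)` of the section `f` at `P`. -/
def secSize {r : ℕ} (φ : Fin (r + 1) → F) (j : ℕ) (P : Place Qbar F) (π : F) (m : ℕ) (f : F) : ℝ :=
  𝔸.abv v (val P (f / (φ (pivot φ P) ^ j * π ^ m))) / vnorm 𝔸 v (coord φ P) ^ j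

/-- length of the tangent vector `d/dπ` at `P` in the projective metric:
`max_{a,b} |((c_b φ_a - c_a φ_b)/(φ_{a₀} π))(P)|_v / ‖c‖_v^2`, `c = coord P`. -/
def theta {r : ℕ} (φ : Fin (r + 1) → F) (P : Place Qbar F) (π : F) : ℝ :=
  (Finset.univ.sup' Finset.univ_nonempty fun p : Fin (r + 1) × Fin (r + 1) =>
    𝔸.abv v (val P ((algebraMap Qbar F (coord φ P p.2) * φ p.1
      - algebraMap Qbar F (coord φ P p.1) * φ p.2) / (φ (pivot φ P) * π))))
    / vnorm 𝔸 v (coord φ P) ^ 2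

/-- coefficient norm of `f` with respect to a basis `b` of a subspace `V`
(`f = Σ c_i b_i`, norm `max |c_i|_v`; junk for `f ∉ V`). -/
def cnorm {V : Submodule Qbar F} {d : ℕ} (b : Module.Basis (Fin (d + 1)) Qbar V) (f : F) : ℝ :=
  open Classical in
  if hf : f ∈ V then vnorm 𝔸 v (fun i => b.repr ⟨f, hf⟩ i) else 0

/-! ### zero divisors of sections -/

variable {𝔸}

/-- the zero divisor `Z_f = div f + j e P₀` of a section `f ∈ V_j` -/
def zdiv (h : Fermat.Agent.RR.IsRRField Qbar F) (P₀ : Place Qbar F) (e j : ℕ) (f : F) :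
    Divisor Qbar F :=
  Fermat.Agent.RR.divOf h f + Finsupp.single P₀ ((j * e : ℕ) : ℤ)

variable (𝔸)

/-- `Σ_{c ≠ P} Z(c) g_v(P,c)` for a divisor `Z` -/
def gsum {r : ℕ} (φ : Fin (r + 1) → F) (P : Place Qbar F) (Z : Divisor Qbar F) : ℝ :=
  open Classical in
  ∑ c ∈ Z.support.filter (fun c => c ≠ P), (Z c : ℝ) * gloc 𝔸 v φ P c

/-! ### the local Props (seats L4 – L7 of the blueprint) -/

/-- **L6+L7 (LC): the local decomposition theorem** ("Gauss lemma on the curve", with leading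
coefficients).  For `f ∈ V_j`, `f ≠ 0`, every place `P`, `m = Z_f(P)`, `π` a uniformizer at `P`:
`log |lead. coeff.| = log ‖f‖_v + m log θ_v(P;π) - Σ_{c ≠ P} Z_f(c) g_v(P,c) + O_v(1)`. -/
def LocalDecomp (h : Fermat.Agent.RR.IsRRField Qbar F) (P₀ : Place Qbar F) (e : ℕ) {r : ℕ}
    (φ : Fin (r + 1) → F) (j : ℕ) {d : ℕ}
    (b : Module.Basis (Fin (d + 1)) Qbar (secSpace P₀ e j)) : Prop :=
  ∃ γ : MConst 𝔸, ∀ (v : 𝔸.ι) (f : F), f ∈ secSpace P₀ e j → f ≠ 0 →
    ∀ (P : Place Qbar F) (π : F), P.ord π = 1 → ∀ m : ℕ, (m : ℤ) = zdiv h P₀ e j f P →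
      |Real.log (secSize 𝔸 v φ j P π m f) - Real.log (cnorm 𝔸 v b f)
          - m * Real.log (theta 𝔸 v φ P π) + gsum 𝔸 v φ P (zdiv h P₀ e j f)| ≤ γ v

/-- the `≥` half of `LocalDecomp` (seat L6) -/
def LocalDecompGe (h : Fermat.Agent.RR.IsRRField Qbar F) (P₀ : Place Qbar F) (e : ℕ) {r : ℕ}
    (φ : Fin (r + 1) → F) (j : ℕ) {d : ℕ}
    (b : Module.Basis (Fin (d + 1)) Qbar (secSpace P₀ e j)) : Prop :=
  ∃ γ : MConst 𝔸, ∀ (v : 𝔸.ι) (f : F), f ∈ secSpace P₀ e j → f ≠ 0 →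
    ∀ (P : Place Qbar F) (π : F), P.ord π = 1 → ∀ m : ℕ, (m : ℤ) = zdiv h P₀ e j f P →
      Real.log (cnorm 𝔸 v b f) + m * Real.log (theta 𝔸 v φ P π)
          - gsum 𝔸 v φ P (zdiv h P₀ e j f) - γ v ≤ Real.log (secSize 𝔸 v φ j P π m f)

/-- the `≤` half of `LocalDecomp` (seat L7) -/
def LocalDecompLe (h : Fermat.Agent.RR.IsRRField Qbar F) (P₀ : Place Qbar F) (e : ℕ) {r : ℕ}
    (φ : Fin (r + 1) → F) (j : ℕ) {d : ℕ}
    (b : Module.Basis (Fin (d + 1)) Qbar (secSpace P₀ e j)) : Prop :=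
  ∃ γ : MConst 𝔸, ∀ (v : 𝔸.ι) (f : F), f ∈ secSpace P₀ e j → f ≠ 0 →
    ∀ (P : Place Qbar F) (π : F), P.ord π = 1 → ∀ m : ℕ, (m : ℤ) = zdiv h P₀ e j f P →
      Real.log (secSize 𝔸 v φ j P π m f) ≤ Real.log (cnorm 𝔸 v b f)
          + m * Real.log (theta 𝔸 v φ P π) - gsum 𝔸 v φ P (zdiv h P₀ e j f) + γ v

/-- **L5 (GAUSS)**: the coefficient norm is multiplicative up to `M`-constants. -/
def GaussNorm (P₀ : Place Qbar F) (e i j : ℕ) {d₁ d₂ d₃ : ℕ}
    (b₁ : Module.Basis (Fin (d₁ + 1)) Qbar (secSpace P₀ e i))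
    (b₂ : Module.Basis (Fin (d₂ + 1)) Qbar (secSpace P₀ e j))
    (b₃ : Module.Basis (Fin (d₃ + 1)) Qbar (secSpace P₀ e (i + j))) : Prop :=
  ∃ γ : MConst 𝔸, ∀ (v : 𝔸.ι) (f f' : F), f ∈ secSpace P₀ e i → f ≠ 0 →
    f' ∈ secSpace P₀ e j → f' ≠ 0 →
      |Real.log (cnorm 𝔸 v b₃ (f * f')) - Real.log (cnorm 𝔸 v b₁ f)
        - Real.log (cnorm 𝔸 v b₂ f')| ≤ γ v

/-- **L4 (WF1)**: two families of functions with the same polar divisor (both without base
points) have comparable sup-norms at every point.  `s` is any function with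
`ord_P s = min_i ord_P (u i)`. -/
def WeilCompare {n n' : ℕ} (u : Fin (n + 1) → F) (w : Fin (n' + 1) → F) : Prop :=
  ∃ γ : MConst 𝔸, ∀ (v : 𝔸.ι) (P : Place Qbar F) (s : F),
    (∀ i, P.ord s ≤ P.ord (u i)) → (∃ i, P.ord s = P.ord (u i)) →
      |Real.log (vnorm 𝔸 v fun i => val P (u i / s))
        - Real.log (vnorm 𝔸 v fun i => val P (w i / s))| ≤ γ v

/-- hypothesis of `WeilCompare`: nonzero functions, same polar divisor -/
def SamePolar {n n' : ℕ} (u : Fin (n + 1) → F) (w : Fin (n' + 1) → F) : Prop :=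
  (∀ i, u i ≠ 0) ∧ (∀ i, w i ≠ 0) ∧ ∀ P : Place Qbar F,
    (∀ i, ∃ i', P.ord (w i') ≤ P.ord (u i)) ∧ (∀ i', ∃ i, P.ord (u i) ≤ P.ord (w i'))

end Fermat.Agent.S17
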