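import Mathlib
import Fermat.Agent.S17.H.Curve
import Fermat.Agent.Lib.RR.Hurwitz.LocalTrace

set_option autoImplicit false
set_option linter.unusedSectionVars false
set_option linter.style.haveILetI false

/-!
# S17, package H, seat L2 (CLOSED): the image of the curve in `ℙ^n` is Zariski closed

`F` a function field over `ℚ̄` (`h : IsRRField ℚ̄ F`), `z : σ → F` a family of functions.

* `Closed.PlacesExhaust K F` : the (DVR) statement "every valuation subring `O ≠ ⊤` of `F`
  containing the constants is the valuation ring of a place" (proved in `ClosedDVR.lean`).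
* `Closed.exists_congAt` : a point `c` killed by all polynomial relations of a family `f` is the
  value vector of `f` at some place.
* `Closed.closed_image_of_placesExhaust` (L2): a nonzero vector `y : σ → K` killed by all
  homogeneous relations of `z` is proportional to the coordinate vector `(val_P (z i / z i₀))_i`
  of a place `P` (for `K = ℚ̄`, `σ = Fin (n + 1)` this is `WF1.ClosedImage z`).
-/

noncomputable section

open AlgebraicCurve MvPolynomial IntermediateField IsDedekindDomain

namespace Fermat.Agent.S17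

namespace Closed

/-! ### homogeneous polynomials: scaling and homogenisation -/

section Hom

variable {K : Type*} [Field K] {σ : Type*}

/-- scaling of the value of a homogeneous polynomial (any index type, any `K`-algebra) -/
theorem aeval_scale_of_isHomogeneous {R : Type*} [CommRing R] [Algebra K R]
    {G : MvPolynomial σ K} {e : ℕ} (hG : G.IsHomogeneous e) (a : R) (w : σ → R) :
    aeval (fun i => a * w i) G = a ^ e * aeval w G := by
  rw [aeval_def, aeval_def, eval₂_eq, eval₂_eq, Finset.mul_sum]
  refine Finset.sum_congr rfl fun m hm => ?_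
  have hdeg : ∑ i ∈ m.support, m i = e := (hG.degree_eq_sum_deg_support hm).symm
  have h2 : ∏ i ∈ m.support, (a * w i) ^ m i = a ^ e * ∏ i ∈ m.support, w i ^ m i := by
    simp only [mul_pow]
    rw [Finset.prod_mul_distrib, Finset.prod_pow_eq_pow_sum, hdeg]
  rw [h2]
  ring

/-- the homogenisation of `q` with respect to the variable `i₀` (of degree `totalDegree q`) -/
def homog (i₀ : σ) (q : MvPolynomial σ K) : MvPolynomial σ K :=
  ∑ k ∈ Finset.range (q.totalDegree + 1),
    X i₀ ^ (q.totalDegree - k) * homogeneousComponent k q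

theorem homog_isHomogeneous (i₀ : σ) (q : MvPolynomial σ K) :
    (homog i₀ q).IsHomogeneous q.totalDegree := by
  refine IsHomogeneous.sum _ _ _ fun k hk => ?_
  have hk' : k ≤ q.totalDegree := Nat.lt_succ_iff.mp (Finset.mem_range.mp hk)
  have h1 : (X i₀ ^ (q.totalDegree - k) : MvPolynomial σ K).IsHomogeneous
      (1 * (q.totalDegree - k)) := (isHomogeneous_X K i₀).pow _
  have h2 := h1.mul (homogeneousComponent_isHomogeneous k q)
  have h3 : 1 * (q.totalDegree - k) + k = q.totalDegree := by omega
  rwa [h3] at h2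

/-- value of the homogenisation at a point `a • w` with `w i₀ = 1` -/
theorem aeval_homog {R : Type*} [CommRing R] [Algebra K R] (i₀ : σ) (q : MvPolynomial σ K)
    (a : R) (w : σ → R) (hw : w i₀ = 1) :
    aeval (fun i => a * w i) (homog i₀ q) = a ^ q.totalDegree * aeval w q := by
  have hq : aeval w q = ∑ k ∈ Finset.range (q.totalDegree + 1),
      aeval w (homogeneousComponent k q) := by
    conv_lhs => rw [← sum_homogeneousComponent q]
    rw [map_sum]
  rw [hq, Finset.mul_sum, homog, map_sum]
  refine Finset.sum_congr rfl fun k hk => ?_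
  have hk' : k ≤ q.totalDegree := Nat.lt_succ_iff.mp (Finset.mem_range.mp hk)
  rw [map_mul, map_pow, aeval_X, hw, mul_one,
    aeval_scale_of_isHomogeneous (homogeneousComponent_isHomogeneous k q), ← mul_assoc,
    ← pow_add, Nat.sub_add_cancel hk']

end Hom

/-! ### the valuation ring centred at a point of the closure -/

section Main

variable {K F : Type*} [Field K] [Field F] [Algebra K F] {σ : Type*}

/-- the statement of the (DVR) lemma: valuation subrings `≠ ⊤` containing the constants are the
valuation rings of the places. -/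
def PlacesExhaust (K F : Type*) [Field K] [Field F] [Algebra K F] : Prop :=
  ∀ O : ValuationSubring F, O ≠ ⊤ → (∀ c : K, algebraMap K F c ∈ O) →
    ∃ P : Place K F, P.toValuationSubring = O

theorem congAt_of_mem_nonunits (P : Place K F) {f : F} {c : K}
    (hx : f - algebraMap K F c ∈ P.toValuationSubring.nonunits) : Pts.CongAt P f c := by
  obtain ⟨hmem, hmax⟩ := ValuationSubring.mem_nonunits_iff_exists_mem_maximalIdeal.1 hx
  by_cases h0 : f - algebraMap K F c = 0
  · exact Or.inl (sub_eq_zero.1 h0)
  · refine Or.inr ?_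
    have hne : (⟨f - algebraMap K F c, hmem⟩ : P.toValuationSubring) ≠ 0 := fun h =>
      h0 (congrArg Subtype.val h)
    exact (Fermat.Agent.S24Res.mem_maximalIdeal_iff_ord_pos P hne).1 hmax

/-- A point `c` killed by all relations of the family `f` is the value of `f` at a place. -/
theorem exists_congAt (h : Fermat.Agent.RR.IsRRField K F) (hDVR : PlacesExhaust K F)
    (f : σ → F) (c : σ → K)
    (hker : ∀ q : MvPolynomial σ K, aeval f q = 0 → eval c q = 0) :
    ∃ P : Place K F, ∀ i, Pts.CongAt P (f i) (c i) := by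
  classical
  let φ : MvPolynomial σ K →+* F := (aeval f : MvPolynomial σ K →ₐ[K] F).toRingHom
  have hφ : ∀ q, φ q = aeval f q := fun _ => rfl
  let A : Subring F := φ.range
  let ρ : MvPolynomial σ K →+* A := φ.rangeRestrict
  have hρ : Function.Surjective ρ := φ.rangeRestrict_surjective
  have hρc : ∀ q, ((ρ q : A) : F) = aeval f q := fun _ => rfl
  let I : Ideal A := Ideal.map ρ (RingHom.ker (eval c))
  have hI : I ≠ ⊤ := by
    intro htop
    have h1 : (1 : A) ∈ I := by rw [htop]; exact Submodule.mem_top
    obtain ⟨q, hq, hq1⟩ := (Ideal.mem_map_iff_of_surjective ρ hρ).1 h1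
    have h2 : aeval f (q - 1) = 0 := by
      rw [map_sub, map_one, ← hρc q, hq1]
      simp
    have h3 := hker _ h2
    rw [map_sub, map_one, RingHom.mem_ker.1 hq] at h3
    simp at h3
  obtain ⟨O, hAO, hIO⟩ := Ideal.image_subset_nonunits_valuationSubring I hI
  have hK : ∀ k : K, algebraMap K F k ∈ O := fun k =>
    hAO ⟨C k, by rw [hφ, aeval_C]⟩
  have hmem : ∀ i, f i - algebraMap K F (c i) ∈ O.nonunits := fun i => by
    refine hIO ⟨ρ (X i - C (c i)), Ideal.mem_map_of_mem ρ ?_, ?_⟩
    · rw [RingHom.mem_ker, map_sub, eval_X, eval_C, sub_self]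
    · show ((ρ (X i - C (c i)) : A) : F) = _
      rw [hρc, map_sub, aeval_X, aeval_C]
  by_cases hO : O = ⊤
  · obtain ⟨P⟩ := Fermat.Agent.RR.nonempty_place h
    refine ⟨P, fun i => Or.inl ?_⟩
    have h1 := hmem i
    rw [ValuationSubring.mem_nonunits_iff_or] at h1
    rcases h1 with h1 | h1
    · exact sub_eq_zero.1 h1
    · exact absurd (hO ▸ ValuationSubring.mem_top _) h1
  · obtain ⟨P, hP⟩ := hDVR O hO hK
    refine ⟨P, fun i => congAt_of_mem_nonunits P ?_⟩
    rw [hP]
    exact hmem i

/-- **L2 (CLOSED)**, modulo the (DVR) lemma: a nonzero vector killed by all homogeneous relations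
of the family `z` is proportional to the coordinate vector of a place. -/
theorem closed_image_of_placesExhaust (h : Fermat.Agent.RR.IsRRField K F)
    (hDVR : PlacesExhaust K F) (z : σ → F) (y : σ → K) (hy : y ≠ 0)
    (hrel : ∀ G : MvPolynomial σ K, (∃ e, G.IsHomogeneous e) → aeval z G = 0 →
      eval y G = 0) :
    ∃ (P : Place K F) (i₀ : σ) (c : K), z i₀ ≠ 0 ∧
      (∀ i, 0 ≤ P.ord (z i / z i₀)) ∧ ∀ i, y i = c * Pts.ev P (z i / z i₀) := by
  obtain ⟨i₀, hi₀⟩ : ∃ i₀, y i₀ ≠ 0 := by
    by_contra hcon
    exact hy (funext fun i => not_not.1 fun hi => hcon ⟨i, hi⟩)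
  have hz0 : z i₀ ≠ 0 := by
    intro h0
    apply hi₀
    have := hrel (X i₀) ⟨1, isHomogeneous_X K i₀⟩ (by rw [aeval_X, h0])
    rwa [eval_X] at this
  set f : σ → F := fun i => z i / z i₀ with hf
  set c : σ → K := fun i => y i / y i₀ with hc
  have hzf : (fun i => z i₀ * f i) = z := funext fun i => mul_div_cancel₀ _ hz0
  have hyc : (fun i => y i₀ * c i) = y := funext fun i => mul_div_cancel₀ _ hi₀
  have hker : ∀ q : MvPolynomial σ K, aeval f q = 0 → eval c q = 0 := by
    intro q hq
    have h1 : aeval z (homog i₀ q) = 0 := by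
      have h2 := aeval_homog i₀ q (z i₀) f (div_self hz0)
      rw [hzf] at h2
      rw [h2, hq, mul_zero]
    have h3 := hrel _ ⟨_, homog_isHomogeneous i₀ q⟩ h1
    have h4 := aeval_homog (R := K) i₀ q (y i₀) c (div_self hi₀)
    rw [hyc, aeval_eq_eval, aeval_eq_eval, h3] at h4
    exact (mul_eq_zero.1 h4.symm).resolve_left (pow_ne_zero _ hi₀)
  obtain ⟨P, hP⟩ := exists_congAt h hDVR f c hker
  refine ⟨P, i₀, y i₀, hz0, fun i => (hP i).ord_nonneg, fun i => ?_⟩
  rw [Pts.ev_eq_of_congAt (hP i)]
  exact (mul_div_cancel₀ _ hi₀).symm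

end Main

end Closed

end Fermat.Agent.S17
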