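import Mathlib
import Fermat.Agent.Lib.RR.Hurwitz.LocalTrace
import Fermat.Agent.Lib.RR.Defs

set_option autoImplicit false
set_option linter.unusedSectionVars false
set_option linter.style.haveILetI false

/-!
# S17/H, seat L2 (CLOSED), sub-piece DVR: every valuation ring of a function field is a place

`exists_place_eq`: `F` a function field over `K` (`IsRRField K F`, characteristic `0`), `O` a
valuation subring of `F` containing the constants, `O ≠ ⊤`.  Then `O` is the valuation ring of a
place of `F / K`.

Proof: `x` transcendental with `F / K(x)` finite; `t = x` or `x⁻¹` lies in `O`; the integral closure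
`B` of `K[t]` in `F` is a Dedekind domain contained in `O` (valuation rings are integrally closed);
`P = 𝔪_O ∩ B` is a nonzero prime and `B_P ⊆ O`, hence `B_P = O` as `O ≠ ⊤`.
-/

noncomputable section

open IntermediateField AlgebraicCurve IsDedekindDomain
open scoped IntermediateField.algebraAdjoinAdjoin

namespace Fermat.Agent.S17.Closed

variable {K F : Type*} [Field K] [Field F] [Algebra K F]

/-- valuation rings are integrally closed: the integral closure of a subring contained in `O` is
contained in `O`. -/
theorem mem_of_isIntegral_valuationSubring {R : Type*} [CommRing R] [Algebra R F]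
    (O : ValuationSubring F) (hR : ∀ r : R, algebraMap R F r ∈ O) {f : F}
    (hf : IsIntegral R f) : f ∈ O := by
  have hint : IsIntegral O f := by
    obtain ⟨p, hp, hpf⟩ := hf
    let φ : R →+* O := (algebraMap R F).codRestrict O.toSubring hR
    refine ⟨p.map φ, hp.map φ, ?_⟩
    rw [Polynomial.eval₂_map]
    have hcomp : (algebraMap O F).comp φ = algebraMap R F := by
      ext r; rfl
    rw [hcomp]
    exact hpf
  obtain ⟨y, hy⟩ := (IsIntegrallyClosed.isIntegral_iff (R := O) (K := F)).mp hint
  rw [← hy]
  exact y.2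

section Dedekind

variable {B : Type*} [CommRing B] [IsDedekindDomain B] [Algebra B F] [IsFractionRing B F]
variable [Algebra K B] [IsScalarTower K B F]

/-- a valuation subring `O ≠ ⊤` containing the Dedekind domain `B` (with fraction field `F`) is
the valuation ring of the place attached to a height one prime of `B`. -/
theorem exists_heightOneSpectrum_eq (O : ValuationSubring F) (hO : O ≠ ⊤)
    (hB : ∀ b : B, algebraMap B F b ∈ O) :
    ∃ P : HeightOneSpectrum B,
      (Place.ofHeightOneSpectrum (K := K) (F := F) P).toValuationSubring = O := by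
  classical
  let φ : B →+* O := (algebraMap B F).codRestrict O.toSubring hB
  have hφ : ∀ b : B, ((φ b : O) : F) = algebraMap B F b := fun _ => rfl
  let P₀ : Ideal B := Ideal.comap φ (IsLocalRing.maximalIdeal O)
  have hprime : P₀.IsPrime := Ideal.comap_isPrime φ _
  -- elements outside `P₀` are units of `O`
  have hunit : ∀ s : B, s ∉ P₀ → (algebraMap B F s)⁻¹ ∈ O := by
    intro s hs
    have hsu : IsUnit (φ s) := by
      by_contra hns
      exact hs ((IsLocalRing.mem_maximalIdeal _).mpr hns)
    obtain ⟨u, hu⟩ := hsu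
    have h1 : ((u⁻¹ : Oˣ) : O) * φ s = 1 := by
      rw [← hu]; exact u.inv_mul
    have h2 : (((u⁻¹ : Oˣ) : O) : F) * algebraMap B F s = 1 := by
      have := congrArg (Subtype.val) h1
      simpa [hφ] using this
    have h3 : (algebraMap B F s)⁻¹ = (((u⁻¹ : Oˣ) : O) : F) :=
      (eq_inv_of_mul_eq_one_left h2).symm
    rw [h3]
    exact Subtype.property _
  have hne : P₀ ≠ ⊥ := by
    intro hbot
    apply hO
    refine SetLike.ext fun x => ⟨fun _ => ValuationSubring.mem_top x, fun _ => ?_⟩
    obtain ⟨⟨n, d, hd⟩, hx⟩ := IsLocalization.surj (nonZeroDivisors B) x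
    have hd0 : d ≠ 0 := nonZeroDivisors.ne_zero hd
    have hdP : d ∉ P₀ := by
      rw [hbot, Ideal.mem_bot]; exact hd0
    have hdF : algebraMap B F d ≠ 0 := by
      intro h
      exact hd0 ((IsFractionRing.injective B F) (by rw [h, map_zero]))
    have hxeq : x = algebraMap B F n * (algebraMap B F d)⁻¹ := by
      rw [eq_mul_inv_iff_mul_eq₀ hdF]
      exact hx
    rw [hxeq]
    exact O.mul_mem _ _ (hB n) (hunit d hdP)
  let P : HeightOneSpectrum B := ⟨P₀, hprime, hne⟩
  refine ⟨P, ?_⟩
  rw [Place.ofHeightOneSpectrum_toValuationSubring]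
  have hle : (P.valuation F).valuationSubring ≤ O := by
    intro x hx
    have hx' : P.valuation F x ≤ 1 := hx
    obtain ⟨n, d, hnd⟩ := P.exists_primeCompl_mul_eq_of_integer x hx'
    have hd : (d : B) ∉ P₀ := d.2
    have hd0 : algebraMap B F (d : B) ≠ 0 := by
      intro h
      have : (d : B) = 0 := (IsFractionRing.injective B F) (by rw [h, map_zero])
      exact hd (this ▸ P₀.zero_mem)
    have hxeq : x = algebraMap B F n * (algebraMap B F (d : B))⁻¹ := by
      rw [eq_mul_inv_iff_mul_eq₀ hd0]
      exact hnd
    rw [hxeq]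
    exact O.mul_mem _ _ (hB n) (hunit d hd)
  rw [← HeightOneSpectrum.valuationSubringAtPrime_eq_valuationSubring] at hle ⊢
  exact ValuationSubring.eq_of_le_of_ne_top _ hle hO

end Dedekind

/-- `K(x⁻¹) = K(x)` -/
theorem adjoin_inv_eq' (x : F) : K⟮x⁻¹⟯ = K⟮x⟯ := by
  apply le_antisymm
  · rw [adjoin_simple_le_iff]
    exact inv_mem (mem_adjoin_simple_self K x)
  · rw [adjoin_simple_le_iff]
    have h : (x⁻¹)⁻¹ ∈ K⟮x⁻¹⟯ := inv_mem (mem_adjoin_simple_self K x⁻¹)
    rwa [inv_inv] at h

theorem transcendental_inv' {x : F} (hx : Transcendental K x) : Transcendental K x⁻¹ := by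
  intro h
  exact hx (by simpa using h.inv)

theorem finiteDimensional_of_eq' {E₁ E₂ : IntermediateField K F} (h : E₁ = E₂)
    [FiniteDimensional E₂ F] : FiniteDimensional E₁ F := by
  subst h
  infer_instance

/-- the polynomial ring `K[t]` lies in a valuation ring containing `K` and `t` -/
theorem algebraMap_adjoin_mem_valuationSubring (O : ValuationSubring F)
    (hK : ∀ c : K, algebraMap K F c ∈ O) {t : F} (ht : t ∈ O) (r : Algebra.adjoin K {t}) :
    algebraMap (Algebra.adjoin K {t}) F r ∈ O := by
  let S : Subalgebra K F := { O.toSubring with algebraMap_mem' := hK }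
  have hle : Algebra.adjoin K {t} ≤ S := Algebra.adjoin_le (by
    intro y hy
    rw [Set.mem_singleton_iff] at hy
    rw [hy]
    exact ht)
  exact hle r.2

/-- the core: a transcendental `t ∈ O` with `F / K(t)` finite separable -/
theorem exists_place_eq_of_mem (O : ValuationSubring F) (hO : O ≠ ⊤)
    (hK : ∀ c : K, algebraMap K F c ∈ O) {t : F} (ht : Transcendental K t)
    [FiniteDimensional K⟮t⟯ F] [Algebra.IsSeparable K⟮t⟯ F] (htO : t ∈ O) :
    ∃ P : Place K F, P.toValuationSubring = O := by
  haveI := Fermat.Agent.RRHur.isDedekindDomain_integralClosure (F := F) ht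
  haveI := Fermat.Agent.RRHur.isFractionRing_integralClosure (K := K) t
  have hB : ∀ b : integralClosure (Algebra.adjoin K {t}) F,
      algebraMap (integralClosure (Algebra.adjoin K {t}) F) F b ∈ O := fun b =>
    mem_of_isIntegral_valuationSubring O (algebraMap_adjoin_mem_valuationSubring O hK htO) b.2
  obtain ⟨P, hP⟩ := exists_heightOneSpectrum_eq (K := K) O hO hB
  exact ⟨Place.ofHeightOneSpectrum (K := K) (F := F) P, hP⟩

/-- **(DVR)** in characteristic `0`: every valuation subring `O ≠ ⊤` of the function field `F`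
containing the constants is the valuation ring of a place. -/
theorem exists_place_eq_of_charZero [CharZero K] (h : Fermat.Agent.RR.IsRRField K F)
    (O : ValuationSubring F) (hO : O ≠ ⊤) (hK : ∀ c : K, algebraMap K F c ∈ O) :
    ∃ P : Place K F, P.toValuationSubring = O := by
  obtain ⟨x, hx, hfin, -⟩ := h.exists_x
  haveI : CharZero F := charZero_of_injective_algebraMap (algebraMap K F).injective
  rcases O.mem_or_inv_mem x with hxO | hxO
  · haveI : FiniteDimensional K⟮x⟯ F := hfin
    haveI : CharZero K⟮x⟯ := charZero_of_injective_algebraMap (algebraMap K K⟮x⟯).injective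
    haveI : Algebra.IsSeparable K⟮x⟯ F := inferInstance
    exact exists_place_eq_of_mem O hO hK hx hxO
  · haveI : FiniteDimensional K⟮x⟯ F := hfin
    haveI : FiniteDimensional K⟮x⁻¹⟯ F := finiteDimensional_of_eq' (adjoin_inv_eq' x)
    haveI : CharZero K⟮x⁻¹⟯ := charZero_of_injective_algebraMap (algebraMap K K⟮x⁻¹⟯).injective
    haveI : Algebra.IsSeparable K⟮x⁻¹⟯ F := inferInstance
    exact exists_place_eq_of_mem O hO hK (transcendental_inv' hx) hxO

/-- **(DVR)** over `ℚ̄`. -/
theorem exists_place_eq {F : Type*} [Field F] [Algebra (AlgebraicClosure ℚ) F]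
    (h : Fermat.Agent.RR.IsRRField (AlgebraicClosure ℚ) F) (O : ValuationSubring F) (hO : O ≠ ⊤)
    (hK : ∀ c : AlgebraicClosure ℚ, algebraMap (AlgebraicClosure ℚ) F c ∈ O) :
    ∃ P : Place (AlgebraicClosure ℚ) F, P.toValuationSubring = O :=
  exists_place_eq_of_charZero h O hO hK

end Fermat.Agent.S17.Closed
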