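import Mathlib
import Fermat.Agent.Lib.RR.Weil

set_option autoImplicit false

/-!
# S17, package H, seat L3 (IMM): very ampleness in Riemann–Roch form

`h : IsRRField K F`, `g = genusFF K F`, `D` a divisor.

* `imm_ell_sub_single` : `deg D ≥ 2g`     ⟹ `ℓ(D - P) + 1 = ℓ(D)`.
* `imm_ell_sub_two`    : `deg D ≥ 2g + 1` ⟹ `ℓ(D - P - Q) + 2 = ℓ(D)` for all places `P`, `Q`
                          (also for `P = Q`).
* `imm_exists_ord_eq`  : `deg D ≥ 2g`     ⟹ some `f ∈ L(D)` has `ord_P f = -D P`
                          (no base point).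
* `imm_exists_separating` : `deg D ≥ 2g + 1`, `P ≠ Q` ⟹ some `f ∈ L(D)` has `ord_P f > -D P`
                          and `ord_Q f = -D Q` (points are separated).
* `imm_exists_simple`  : `deg D ≥ 2g + 1` ⟹ some `f ∈ L(D)` has `ord_P f = -D P + 1`
                          (tangent vectors are separated: a simple zero at `P`).
* `imm_exists_ord_eq_add` : more generally `deg D ≥ 2g + m` ⟹ some `f ∈ L(D)` has
                          `ord_P f = -D P + m`.
-/

noncomputable section

open AlgebraicCurve Fermat.Agent.RR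

namespace Fermat.Agent.S17

variable {K F : Type*} [Field K] [Field F] [Algebra K F]

theorem imm_sub_add_single (D : Divisor K F) (P : Place K F) :
    D - Finsupp.single P 1 + Finsupp.single P 1 = D := sub_add_cancel _ _

theorem imm_degree_sub_single (h : IsRRField K F) (D : Divisor K F) (P : Place K F) :
    Divisor.degree (D - Finsupp.single P 1) = Divisor.degree D - 1 := by
  have := degree_add_single h (D - Finsupp.single P 1) P
  rw [imm_sub_add_single] at this
  linarith

/-- `ℓ(D - P) + 1 = ℓ(D)` for `deg D ≥ 2g`. -/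
theorem imm_ell_sub_single (h : IsRRField K F) (D : Divisor K F) (P : Place K F)
    (hD : 2 * (genusFF K F : ℤ) ≤ Divisor.degree D) :
    ell (D - Finsupp.single P 1) + 1 = ell D := by
  have h1 := ell_of_degree_gt h (D := D) (by linarith)
  have h2 := ell_of_degree_gt h (D := D - Finsupp.single P 1)
    (by rw [imm_degree_sub_single h]; linarith)
  rw [imm_degree_sub_single h] at h2
  have : ((ell (D - Finsupp.single P 1) + 1 : ℕ) : ℤ) = (ell D : ℤ) := by
    push_cast
    linarith
  exact_mod_cast this

/-- `ℓ(D - P - Q) + 2 = ℓ(D)` for `deg D ≥ 2g + 1`; `P = Q` is allowed. -/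
theorem imm_ell_sub_two (h : IsRRField K F) (D : Divisor K F) (P Q : Place K F)
    (hD : 2 * (genusFF K F : ℤ) + 1 ≤ Divisor.degree D) :
    ell (D - Finsupp.single P 1 - Finsupp.single Q 1) + 2 = ell D := by
  have h1 := imm_ell_sub_single h D P (by linarith)
  have h2 := imm_ell_sub_single h (D - Finsupp.single P 1) Q
    (by rw [imm_degree_sub_single h]; linarith)
  omega

/-- `L(D - P) ≠ L(D)` for `deg D ≥ 2g`: an element of `L(D)` of exact order `-D P` at `P`. -/
theorem imm_exists_ord_eq (h : IsRRField K F) (D : Divisor K F) (P : Place K F)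
    (hD : 2 * (genusFF K F : ℤ) ≤ Divisor.degree D) :
    ∃ f, f ∈ riemannRochSpace D ∧ f ≠ 0 ∧ P.ord f = -D P := by
  have h1 := imm_ell_sub_single h D P hD
  have h2 : ell (D - Finsupp.single P 1 + Finsupp.single P 1)
      = ell (D - Finsupp.single P 1) + 1 := by
    rw [imm_sub_add_single]
    exact h1.symm
  obtain ⟨f, hf, hfD⟩ := (ell_add_single_eq_iff h _ P).mp h2
  obtain ⟨hf0, hord⟩ := ord_eq_of_mem_add_single_of_not_mem hf hfD
  rw [imm_sub_add_single] at hf
  refine ⟨f, hf, hf0, ?_⟩
  rw [hord, Finsupp.sub_apply, Finsupp.single_eq_same]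
  ring

/-- More generally: for `deg D ≥ 2g + m` some `f ∈ L(D)` has order exactly `-D P + m` at `P`. -/
theorem imm_exists_ord_eq_add (h : IsRRField K F) (D : Divisor K F) (P : Place K F) (m : ℕ)
    (hD : 2 * (genusFF K F : ℤ) + m ≤ Divisor.degree D) :
    ∃ f, f ∈ riemannRochSpace D ∧ f ≠ 0 ∧ P.ord f = -D P + m := by
  induction m generalizing D with
  | zero =>
    obtain ⟨f, hf, hf0, hord⟩ := imm_exists_ord_eq h D P (by simpa using hD)
    exact ⟨f, hf, hf0, by simpa using hord⟩
  | succ m ih =>
    obtain ⟨f, hf, hf0, hord⟩ := ih (D - Finsupp.single P 1) (by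
      rw [imm_degree_sub_single h]
      push_cast at hD
      linarith)
    refine ⟨f, riemannRochSpace_mono (by
      have := le_add_single (D - Finsupp.single P 1) P
      rwa [imm_sub_add_single] at this) hf, hf0, ?_⟩
    rw [hord, Finsupp.sub_apply, Finsupp.single_eq_same]
    push_cast
    ring

/-- Tangent vectors are separated: for `deg D ≥ 2g + 1` some `f ∈ L(D)` has a simple zero at `P`
(relative to `D`). -/
theorem imm_exists_simple (h : IsRRField K F) (D : Divisor K F) (P : Place K F)
    (hD : 2 * (genusFF K F : ℤ) + 1 ≤ Divisor.degree D) :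
    ∃ f, f ∈ riemannRochSpace D ∧ f ≠ 0 ∧ P.ord f = -D P + 1 := by
  simpa using imm_exists_ord_eq_add h D P 1 (by simpa using hD)

/-- Points are separated: for `deg D ≥ 2g + 1` and `P ≠ Q` some `f ∈ L(D)` vanishes at `P` and
not at `Q` (relative to `D`). -/
theorem imm_exists_separating (h : IsRRField K F) (D : Divisor K F) {P Q : Place K F}
    (hPQ : P ≠ Q) (hD : 2 * (genusFF K F : ℤ) + 1 ≤ Divisor.degree D) :
    ∃ f, f ∈ riemannRochSpace D ∧ f ≠ 0 ∧ -D P + 1 ≤ P.ord f ∧ Q.ord f = -D Q := by
  obtain ⟨f, hf, hf0, hord⟩ := imm_exists_ord_eq h (D - Finsupp.single P 1) Q (by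
    rw [imm_degree_sub_single h]
    linarith)
  refine ⟨f, riemannRochSpace_mono (by
    have := le_add_single (D - Finsupp.single P 1) P
    rwa [imm_sub_add_single] at this) hf, hf0, ?_, ?_⟩
  · have := ((mem_riemannRochSpace_iff.mp hf) P).resolve_left hf0
    rw [Finsupp.sub_apply, Finsupp.single_eq_same] at this
    linarith
  · have hne : (Finsupp.single P (1 : ℤ)) Q = 0 := by
      classical
      rw [Finsupp.single_apply, if_neg hPQ]
    rw [hord, Finsupp.sub_apply, hne, sub_zero]

end Fermat.Agent.S17
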