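import Mathlib
import Fermat.Agent.S17.H.ImmCoord
import Fermat.Agent.S17.H.Curve

set_option autoImplicit false

/-!
# S17, package H, seat L3 (IMM): the embedded curve

Consequences of `Imm.lean` / `ImmCoord.lean` for the definitions of `Curve.lean`
(`IsEmbBasis`, `pivot`, `coord`, `wnorm`, `chord`, `gloc`, `theta`), for `e ≥ 2g + 1`:

* `IsEmbBasis.ord_pivot`      : `ord_P (φ (pivot φ P)) = -(e P₀)(P)`  (`e ≥ 2g`);
* `IsEmbBasis.coord_pivot`    : the coordinate of `P` at its pivot is `1`;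
* `IsEmbBasis.one_le_vnorm_coord` : `1 ≤ ‖coord P‖_v`;
* `IsEmbBasis.exists_minor_ne_zero`, `wnorm_coord_pos`, `chord_pos` : `δ_v(P,Q) > 0` for `P ≠ Q`;
* `chord_le` , `gloc_ge`      : `δ_v ≤ 1` (ultrametric), `≤ 2` (archimedean);
* `IsEmbBasis.theta_pos`      : `θ_v(P;π) > 0` for a uniformizer `π` at `P`.
-/

noncomputable section

open AlgebraicCurve Fermat.Agent.RR

namespace Fermat.Agent.S17

variable {F : Type*} [Field F] [Algebra Qbar F]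

section emb

variable {P₀ : Place Qbar F} {e r : ℕ} {φ : Fin (r + 1) → F}

theorem IsEmbBasis.span_eq' (hφ : IsEmbBasis P₀ e φ) :
    Submodule.span Qbar (Set.range φ) = riemannRochSpace (Finsupp.single P₀ (e : ℤ)) := by
  have := hφ.span_eq
  unfold secSpace at this
  rwa [one_mul] at this

theorem IsEmbBasis.mem (hφ : IsEmbBasis P₀ e φ) (a : Fin (r + 1)) :
    φ a ∈ riemannRochSpace (Finsupp.single P₀ (e : ℤ)) := by
  rw [← hφ.span_eq']
  exact Submodule.subset_span ⟨a, rfl⟩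

theorem IsEmbBasis.ne_zero (hφ : IsEmbBasis P₀ e φ) (a : Fin (r + 1)) : φ a ≠ 0 :=
  hφ.linearIndependent.ne_zero a

theorem imm_degree_single (h : IsRRField Qbar F) (P₀ : Place Qbar F) (e : ℕ) :
    Divisor.degree (Finsupp.single P₀ (e : ℤ)) = e :=
  degree_single_one h P₀ e

/-- the pivot has the minimal possible order `-(e P₀)(P)` -/
theorem IsEmbBasis.ord_pivot (hφ : IsEmbBasis P₀ e φ) (h : IsRRField Qbar F)
    (he : 2 * genusFF Qbar F ≤ e) (P : Place Qbar F) :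
    P.ord (φ (pivot φ P)) = -(Finsupp.single P₀ (e : ℤ)) P := by
  obtain ⟨a0, -, ha0⟩ := imm_exists_index h (Finsupp.single P₀ (e : ℤ)) P
    (by rw [imm_degree_single h]; exact_mod_cast he) φ hφ.span_eq'
  have h1 := pivot_le φ P a0
  have h2 := ((mem_riemannRochSpace_iff.mp (hφ.mem (pivot φ P))) P).resolve_left
    (hφ.ne_zero _)
  omega

theorem IsEmbBasis.ord_div_pivot_nonneg (hφ : IsEmbBasis P₀ e φ) (P : Place Qbar F)
    (a : Fin (r + 1)) : 0 ≤ P.ord (φ a / φ (pivot φ P)) := by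
  rw [imm_ord_div P (hφ.ne_zero a) (hφ.ne_zero _)]
  have := pivot_le φ P a
  omega

/-- the coordinate at the pivot is `1` -/
theorem IsEmbBasis.coord_pivot (hφ : IsEmbBasis P₀ e φ) (P : Place Qbar F) :
    coord φ P (pivot φ P) = 1 := by
  unfold coord val
  rw [div_self (hφ.ne_zero _), Pts.ev_one]

theorem IsEmbBasis.coord_ne_zero (hφ : IsEmbBasis P₀ e φ) (P : Place Qbar F) :
    coord φ P ≠ 0 := by
  intro h0
  have := congrFun h0 (pivot φ P)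
  rw [hφ.coord_pivot P] at this
  exact one_ne_zero this

variable (𝔸 : AbsSys) (v : 𝔸.ι)

theorem IsEmbBasis.one_le_vnorm_coord (hφ : IsEmbBasis P₀ e φ) (P : Place Qbar F) :
    1 ≤ vnorm 𝔸 v (coord φ P) := by
  have := abv_le_vnorm 𝔸 v (coord φ P) (pivot φ P)
  rwa [hφ.coord_pivot P, map_one] at this

theorem IsEmbBasis.vnorm_coord_pos (hφ : IsEmbBasis P₀ e φ) (P : Place Qbar F) :
    0 < vnorm 𝔸 v (coord φ P) :=
  lt_of_lt_of_le one_pos (hφ.one_le_vnorm_coord 𝔸 v P)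

/-- points are separated by the coordinates -/
theorem IsEmbBasis.exists_minor_ne_zero (hφ : IsEmbBasis P₀ e φ) (h : IsRRField Qbar F)
    (he : 2 * genusFF Qbar F + 1 ≤ e) {P Q : Place Qbar F} (hPQ : P ≠ Q) :
    ∃ a b, coord φ P a * coord φ Q b - coord φ P b * coord φ Q a ≠ 0 := by
  have he' : 2 * genusFF Qbar F ≤ e := by omega
  exact imm_exists_minor_ne_zero h (Finsupp.single P₀ (e : ℤ)) hPQ
    (by rw [imm_degree_single h]; exact_mod_cast he) φ hφ.span_eq'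
    (pivot φ P) (pivot φ Q) (hφ.ne_zero _) (hφ.ord_pivot h he' P)
    (hφ.ne_zero _) (hφ.ord_pivot h he' Q)

theorem wnorm_nonneg {r : ℕ} (x y : Fin (r + 1) → Qbar) : 0 ≤ wnorm 𝔸 v x y :=
  le_trans ((𝔸.abv v).nonneg _)
    (Finset.le_sup' (fun p : Fin (r + 1) × Fin (r + 1) => 𝔸.abv v (x p.1 * y p.2 - x p.2 * y p.1))
      (Finset.mem_univ ((0 : Fin (r + 1)), (0 : Fin (r + 1)))))

theorem abv_minor_le_wnorm {r : ℕ} (x y : Fin (r + 1) → Qbar) (a b : Fin (r + 1)) :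
    𝔸.abv v (x a * y b - x b * y a) ≤ wnorm 𝔸 v x y :=
  Finset.le_sup' (fun p : Fin (r + 1) × Fin (r + 1) => 𝔸.abv v (x p.1 * y p.2 - x p.2 * y p.1))
    (Finset.mem_univ (a, b))

theorem IsEmbBasis.wnorm_coord_pos (hφ : IsEmbBasis P₀ e φ) (h : IsRRField Qbar F)
    (he : 2 * genusFF Qbar F + 1 ≤ e) {P Q : Place Qbar F} (hPQ : P ≠ Q) :
    0 < wnorm 𝔸 v (coord φ P) (coord φ Q) := by
  obtain ⟨a, b, hab⟩ := hφ.exists_minor_ne_zero h he hPQ
  exact lt_of_lt_of_le ((𝔸.abv v).pos hab) (abv_minor_le_wnorm 𝔸 v _ _ a b)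

/-- `δ_v(P,Q) > 0` for `P ≠ Q` -/
theorem IsEmbBasis.chord_pos (hφ : IsEmbBasis P₀ e φ) (h : IsRRField Qbar F)
    (he : 2 * genusFF Qbar F + 1 ≤ e) {P Q : Place Qbar F} (hPQ : P ≠ Q) :
    0 < chord 𝔸 v φ P Q :=
  div_pos (hφ.wnorm_coord_pos 𝔸 v h he hPQ)
    (mul_pos (hφ.vnorm_coord_pos 𝔸 v P) (hφ.vnorm_coord_pos 𝔸 v Q))

/-- `‖x ∧ y‖_v ≤ 2 ‖x‖_v ‖y‖_v` -/
theorem wnorm_le_two_mul {r : ℕ} (x y : Fin (r + 1) → Qbar) :
    wnorm 𝔸 v x y ≤ 2 * (vnorm 𝔸 v x * vnorm 𝔸 v y) := by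
  refine Finset.sup'_le _ _ fun p _ => ?_
  have h1 : 𝔸.abv v (x p.1 * y p.2 - x p.2 * y p.1)
      ≤ 𝔸.abv v (x p.1 * y p.2) + 𝔸.abv v (x p.2 * y p.1) := by
    have := (𝔸.abv v).add_le (x p.1 * y p.2) (-(x p.2 * y p.1))
    rwa [← sub_eq_add_neg, (𝔸.abv v).map_neg] at this
  have h2 : 𝔸.abv v (x p.1 * y p.2) ≤ vnorm 𝔸 v x * vnorm 𝔸 v y := by
    rw [map_mul]
    exact mul_le_mul (abv_le_vnorm 𝔸 v x _) (abv_le_vnorm 𝔸 v y _) ((𝔸.abv v).nonneg _)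
      (vnorm_nonneg 𝔸 v x)
  have h3 : 𝔸.abv v (x p.2 * y p.1) ≤ vnorm 𝔸 v x * vnorm 𝔸 v y := by
    rw [map_mul]
    exact mul_le_mul (abv_le_vnorm 𝔸 v x _) (abv_le_vnorm 𝔸 v y _) ((𝔸.abv v).nonneg _)
      (vnorm_nonneg 𝔸 v x)
  linarith

/-- `‖x ∧ y‖_v ≤ ‖x‖_v ‖y‖_v` at the ultrametric places -/
theorem wnorm_le_mul_of_nonarch {r : ℕ} (hv : v ∉ 𝔸.arch) (x y : Fin (r + 1) → Qbar) :
    wnorm 𝔸 v x y ≤ vnorm 𝔸 v x * vnorm 𝔸 v y := by
  refine Finset.sup'_le _ _ fun p _ => ?_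
  have hna := 𝔸.nonarch v hv
  have h1 : 𝔸.abv v (x p.1 * y p.2 - x p.2 * y p.1)
      ≤ max (𝔸.abv v (x p.1 * y p.2)) (𝔸.abv v (x p.2 * y p.1)) := by
    have := hna (x p.1 * y p.2) (-(x p.2 * y p.1))
    rwa [← sub_eq_add_neg, (𝔸.abv v).map_neg] at this
  have h2 : 𝔸.abv v (x p.1 * y p.2) ≤ vnorm 𝔸 v x * vnorm 𝔸 v y := by
    rw [map_mul]
    exact mul_le_mul (abv_le_vnorm 𝔸 v x _) (abv_le_vnorm 𝔸 v y _) ((𝔸.abv v).nonneg _)
      (vnorm_nonneg 𝔸 v x)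
  have h3 : 𝔸.abv v (x p.2 * y p.1) ≤ vnorm 𝔸 v x * vnorm 𝔸 v y := by
    rw [map_mul]
    exact mul_le_mul (abv_le_vnorm 𝔸 v x _) (abv_le_vnorm 𝔸 v y _) ((𝔸.abv v).nonneg _)
      (vnorm_nonneg 𝔸 v x)
  exact le_trans h1 (max_le h2 h3)

/-- the `M`-constant `log 2` at the archimedean places, `0` elsewhere -/
def archLogTwo : MConst 𝔸 where
  c := fun v => open Classical in if v ∈ 𝔸.arch then Real.log 2 else 0
  nonneg := fun v => by
    classical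
    split_ifs
    · exact Real.log_nonneg (by norm_num)
    · exact le_rfl
  finite := 𝔸.arch.finite_toSet.subset (by
    classical
    intro v hv
    simp only [Set.mem_ofPred_eq, ne_eq, ite_eq_right_iff, Classical.not_imp] at hv
    exact hv.1)

theorem archLogTwo_apply_of_mem {v : 𝔸.ι} (hv : v ∈ 𝔸.arch) : archLogTwo 𝔸 v = Real.log 2 := by
  classical
  show (if v ∈ 𝔸.arch then Real.log 2 else 0) = Real.log 2
  rw [if_pos hv]

theorem archLogTwo_apply_of_not_mem {v : 𝔸.ι} (hv : v ∉ 𝔸.arch) : archLogTwo 𝔸 v = 0 := by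
  classical
  show (if v ∈ 𝔸.arch then Real.log 2 else 0) = 0
  rw [if_neg hv]

/-- `δ_v(P,Q) ≤ exp (archLogTwo v)`: `≤ 1` at the ultrametric places, `≤ 2` at the others. -/
theorem IsEmbBasis.chord_le (hφ : IsEmbBasis P₀ e φ) (P Q : Place Qbar F) :
    chord 𝔸 v φ P Q ≤ Real.exp (archLogTwo 𝔸 v) := by
  have hpos := mul_pos (hφ.vnorm_coord_pos 𝔸 v P) (hφ.vnorm_coord_pos 𝔸 v Q)
  unfold chord
  rw [div_le_iff₀ hpos]
  by_cases hv : v ∈ 𝔸.arch
  · rw [archLogTwo_apply_of_mem 𝔸 hv, Real.exp_log (by norm_num)]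
    exact wnorm_le_two_mul 𝔸 v _ _
  · rw [archLogTwo_apply_of_not_mem 𝔸 hv, Real.exp_zero, one_mul]
    exact wnorm_le_mul_of_nonarch 𝔸 v hv _ _

/-- the local diagonal height is bounded below: `g_v(P,Q) ≥ -archLogTwo v` for `P ≠ Q`. -/
theorem IsEmbBasis.gloc_ge (hφ : IsEmbBasis P₀ e φ) (h : IsRRField Qbar F)
    (he : 2 * genusFF Qbar F + 1 ≤ e) {P Q : Place Qbar F} (hPQ : P ≠ Q) :
    -(archLogTwo 𝔸 v) ≤ gloc 𝔸 v φ P Q := by
  unfold gloc
  have h1 := hφ.chord_le 𝔸 v P Q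
  have h2 := hφ.chord_pos 𝔸 v h he hPQ
  have h3 := Real.log_le_log h2 h1
  rw [Real.log_exp] at h3
  linarith

/-- `θ_v(P;π) > 0` for a uniformizer `π` at `P` -/
theorem IsEmbBasis.theta_pos (hφ : IsEmbBasis P₀ e φ) (h : IsRRField Qbar F)
    (he : 2 * genusFF Qbar F + 1 ≤ e) (P : Place Qbar F) {π : F} (hπ : P.ord π = 1) :
    0 < theta 𝔸 v φ P π := by
  have he' : 2 * genusFF Qbar F ≤ e := by omega
  have hπ0 : π ≠ 0 := by
    rintro rfl
    rw [P.ord_zero] at hπ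
    exact zero_ne_one hπ
  obtain ⟨a, ha0, hord⟩ := imm_exists_simple_coord h (Finsupp.single P₀ (e : ℤ)) P
    (by rw [imm_degree_single h]; exact_mod_cast he) φ hφ.span_eq'
    (pivot φ P) (hφ.ne_zero _) (hφ.ord_pivot h he' P)
  -- the section `l = c_{a0} φ_a - c_a φ_{a0}`
  have hl : algebraMap Qbar F (coord φ P (pivot φ P)) * φ a
      - algebraMap Qbar F (coord φ P a) * φ (pivot φ P)
      = φ a - Pts.ev P (φ a / φ (pivot φ P)) • φ (pivot φ P) := by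
    rw [hφ.coord_pivot P, map_one, one_mul, Algebra.smul_def]
    rfl
  have hne : (algebraMap Qbar F (coord φ P (pivot φ P)) * φ a
      - algebraMap Qbar F (coord φ P a) * φ (pivot φ P)) / (φ (pivot φ P) * π) ≠ 0 := by
    rw [hl]
    exact div_ne_zero ha0 (mul_ne_zero (hφ.ne_zero _) hπ0)
  have hord0 : P.ord ((algebraMap Qbar F (coord φ P (pivot φ P)) * φ a
      - algebraMap Qbar F (coord φ P a) * φ (pivot φ P)) / (φ (pivot φ P) * π)) = 0 := by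
    rw [hl, ← div_div, imm_ord_div P (div_ne_zero ha0 (hφ.ne_zero _)) hπ0, hord, hπ]
    ring
  have hval := Pts.ev_ne_zero_of_ord_eq_zero h P hne hord0
  unfold theta
  refine div_pos ?_ (pow_pos (hφ.vnorm_coord_pos 𝔸 v P) 2)
  refine lt_of_lt_of_le ((𝔸.abv v).pos hval) ?_
  exact Finset.le_sup' (fun p : Fin (r + 1) × Fin (r + 1) =>
    𝔸.abv v (val P ((algebraMap Qbar F (coord φ P p.2) * φ p.1
      - algebraMap Qbar F (coord φ P p.1) * φ p.2) / (φ (pivot φ P) * π))))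
    (Finset.mem_univ (a, pivot φ P))

end emb

end Fermat.Agent.S17
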