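import Mathlib
import Fermat.Agent.S17.H.Move
import Fermat.Agent.S17.H.Global
import Fermat.Agent.S17.Rat.Modular

set_option autoImplicit false
set_option linter.unusedSectionVars false
set_option linter.style.haveILetI false

/-!
# S17, package H, seat G3 (MOVE): the statements in the language of `H/Global.lean`

UNCONDITIONAL (package RAT of helper34 is used for the generic fixed vectors).

* `Move.genericFixed_galRange` : `GenericFixed (galRange N)`.
* `Move.isCanon_unique`        : `IsCanon S x A d → IsCanon S x A' d' → d = d' ∧ A = A'`.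
* `Move.exists_isCanon`        : every `x ∈ MW N` has a canonical divisor, with `d ≤ g`,
                                 Galois-stable.
* `Move.IsCanon.galStable`     : the canonical divisor of a rational class is Galois-stable.
* `Move.exists_isRep_pair`     : `x = [A' - Z]` with `A'`, `Z` effective, Galois-stable, of the
                                 same degree `≤ 3g`, disjoint supports, avoiding a finite set `T`,
                                 and `IsRep S x (A' - Z)`.
* `Move.exists_isRep`          : an admissible representative avoiding a finite set `T`.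
* `Move.exists_isRep_disjoint` : two admissible representatives with disjoint supports,
                                 both avoiding a finite set `T`.
-/

noncomputable section

open AlgebraicCurve ModularCurve Fermat.Agent.RR

namespace Fermat.Agent.S17.Move

variable (N : ℕ) [NeZero N]

/-- **RAT (iv)** in the shape used by `Move.exists_moving`. -/
theorem genericFixed_galRange : GenericFixed (galRange N) := by
  classical
  intro V _ hV s hs
  obtain ⟨f, hfV, hfix, hout⟩ := Fermat.Agent.S17.RatDesc.exists_fixed_notMem' N V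
    (fun σ f hf => hV _ ⟨σ, rfl⟩ f hf)
    (fun W : s => (W : Submodule (AlgebraicClosure ℚ) (modularFunctionFieldBar N)))
    (fun W => hs W W.2)
  refine ⟨f, hfV, ?_, fun W hW => hout ⟨W, hW⟩⟩
  rintro g ⟨σ, rfl⟩
  exact hfix σ

variable {N}

theorem galStable_iff (D : DivN N) : GalStable N D ↔ ∀ g ∈ galRange N, g • D = D := by
  constructor
  · rintro h g ⟨σ, rfl⟩
    exact h σ
  · intro h σ
    exact h _ ⟨σ, rfl⟩

theorem base_fixed (S : HSetup N) : ∀ g ∈ galRange N, g • S.P₀ = S.P₀ := by
  rintro g ⟨σ, rfl⟩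
  exact S.P₀_fixed σ

theorem isCanon_iff (S : HSetup N) (x : JZero N) (A : DivN N) (d : ℕ) :
    IsCanon S x A d ↔ 0 ≤ A ∧ Divisor.degree A = d ∧ A S.P₀ = 0 ∧ ell A = 1 ∧
      Rep (A - Finsupp.single S.P₀ (d : ℤ)) x := by
  constructor
  · intro h
    exact ⟨h.nonneg, h.degree_eq, h.base, h.ell_eq, h.mem, h.mk_eq⟩
  · rintro ⟨h1, h2, h3, h4, h5, h6⟩
    exact ⟨h1, h2, h3, h4, h5, h6⟩

/-- the canonical divisor and its degree are determined by the class. -/
theorem isCanon_unique (S : HSetup N) {x : JZero N} {A A' : DivN N} {d d' : ℕ}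
    (hA : IsCanon S x A d) (hA' : IsCanon S x A' d') : d = d' ∧ A = A' := by
  have h := Fermat.Agent.RRMod.isRRField_bar N
  obtain ⟨hA0, hdeg, hbase, hell, hrep⟩ := (isCanon_iff S x A d).mp hA
  obtain ⟨hA0', hdeg', hbase', hell', hrep'⟩ := (isCanon_iff S x A' d').mp hA'
  -- key: for `d ≤ d'`, `A' = A + (d' - d) P₀`
  have key : ∀ (B B' : DivN N) (e e' : ℕ), 0 ≤ B → 0 ≤ B' → B' S.P₀ = 0 → ell B' = 1 →
      Rep (B - Finsupp.single S.P₀ (e : ℤ)) x → Rep (B' - Finsupp.single S.P₀ (e' : ℤ)) x →
      e ≤ e' → e = e' ∧ B = B' := by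
    intro B B' e e' hB0 hB0' hb' hl' hr hr' hee
    obtain ⟨u, hu0, hu⟩ := exists_divOf_of_mem_principal h (hr'.sub_mem_principal hr)
    -- `B + (e' - e) P₀ = B' + div u`
    have h1 : B + Finsupp.single S.P₀ ((e' : ℤ) - e) = B' + divOf h u := by
      rw [← hu, Finsupp.single_sub]
      abel
    have hnn : 0 ≤ B + Finsupp.single S.P₀ ((e' : ℤ) - e) := by
      refine add_nonneg hB0 ?_
      rw [Finsupp.le_def]
      intro v
      by_cases hv : v = S.P₀
      · rw [hv, Finsupp.single_eq_same]
        have : (e : ℤ) ≤ e' := by exact_mod_cast hee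
        show (0 : ℤ) ≤ _
        linarith
      · rw [Finsupp.single_eq_of_ne hv]
        exact le_rfl
    have hmem : u ∈ riemannRochSpace B' := by
      rw [← nonneg_add_divOf_iff h _ hu0, ← h1]
      exact hnn
    obtain ⟨c, hc⟩ := eq_algebraMap_of_mem_of_ell_eq_one h hB0' hl' hmem
    have hz : divOf h u = 0 := by
      ext v
      rw [divOf_apply, hc, Fermat.Agent.S24Res.ord_algebraMap]
      rfl
    rw [hz, add_zero] at h1
    have h2 := congrArg (fun D : DivN N => D S.P₀) h1
    simp only [Finsupp.add_apply, Finsupp.single_eq_same] at h2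
    rw [hb'] at h2
    have h3 : 0 ≤ B S.P₀ := by
      have := Finsupp.le_def.mp hB0 S.P₀
      exact this
    have h4 : (e : ℤ) ≤ e' := by exact_mod_cast hee
    have h5 : (e' : ℤ) - e = 0 := by linarith
    refine ⟨by omega, ?_⟩
    rw [h5, Finsupp.single_zero, add_zero] at h1
    exact h1
  rcases le_total d d' with hdd | hdd
  · exact key A A' d d' hA0 hA0' hbase' hell' hrep hrep' hdd
  · obtain ⟨e1, e2⟩ := key A' A d' d hA0' hA0 hbase hell hrep' hrep hdd
    exact ⟨e1.symm, e2.symm⟩

/-- **G3a** in the language of `Global.lean`: every rational class has a canonical divisor;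
its degree is at most the genus and it is Galois-stable. -/
theorem exists_isCanon (S : HSetup N) (x : MW N) :
    ∃ (A : DivN N) (d : ℕ), IsCanon S (x : JZero N) A d ∧
      d ≤ genusFF Qbar (FN N) ∧ GalStable N A := by
  obtain ⟨d, A, hdg, hA0, hdeg, hbase, hell, hrep, hstab, -⟩ :=
    exists_canonical_MW N S.P₀ (base_fixed S) x.2
  exact ⟨A, d, (isCanon_iff S _ A d).mpr ⟨hA0, hdeg, hbase, hell, hrep⟩, hdg,
    (galStable_iff A).mpr hstab⟩

/-- the canonical divisor of a rational class is Galois-stable, of degree at most the genus. -/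
theorem IsCanon.galStable (S : HSetup N) {x : MW N} {A : DivN N} {d : ℕ}
    (hA : IsCanon S (x : JZero N) A d) : GalStable N A ∧ d ≤ genusFF Qbar (FN N) := by
  obtain ⟨A', d', hA', hd', hstab⟩ := exists_isCanon S x
  obtain ⟨rfl, rfl⟩ := isCanon_unique S hA hA'
  exact ⟨hstab, hd'⟩

/-- the size of a difference of effective divisors. -/
theorem dsize_sub_le {A' Z : DivN N} (hA : 0 ≤ A') (hZ : 0 ≤ Z) :
    (dsize (A' - Z) : ℤ) ≤ Divisor.degree A' + Divisor.degree Z := by
  classical
  have h := Fermat.Agent.RRMod.isRRField_bar N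
  have hA' : ∀ P, 0 ≤ A' P := fun P => Finsupp.le_def.mp hA P
  have hZ' : ∀ P, 0 ≤ Z P := fun P => Finsupp.le_def.mp hZ P
  set U := A'.support ∪ Z.support with hU
  have hsub : (A' - Z).support ⊆ U := by
    intro P hP
    rw [Finsupp.mem_support_iff, Finsupp.sub_apply] at hP
    rw [hU, Finset.mem_union, Finsupp.mem_support_iff, Finsupp.mem_support_iff]
    by_contra hcon
    rw [not_or, not_not, not_not] at hcon
    rw [hcon.1, hcon.2] at hP
    exact hP rfl
  have e1 : Divisor.degree A' = ∑ P ∈ U, A' P := by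
    rw [degree_eq_sum h]
    refine Finset.sum_subset Finset.subset_union_left fun P _ hP => ?_
    exact Finsupp.notMem_support_iff.mp hP
  have e2 : Divisor.degree Z = ∑ P ∈ U, Z P := by
    rw [degree_eq_sum h]
    refine Finset.sum_subset Finset.subset_union_right fun P _ hP => ?_
    exact Finsupp.notMem_support_iff.mp hP
  rw [e1, e2, ← Finset.sum_add_distrib]
  unfold dsize
  push_cast
  calc ∑ P ∈ (A' - Z).support, |(A' - Z) P|
      ≤ ∑ P ∈ (A' - Z).support, (A' P + Z P) := by
        refine Finset.sum_le_sum fun P _ => ?_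
        rw [Finsupp.sub_apply, abs_le]
        constructor <;> linarith [hA' P, hZ' P]
    _ ≤ ∑ P ∈ U, (A' P + Z P) :=
        Finset.sum_le_sum_of_subset_of_nonneg hsub fun P _ _ => add_nonneg (hA' P) (hZ' P)

/-- **G3b** in the language of `Global.lean`: a rational class is `[A' - Z]` with `A'`, `Z`
effective, Galois-stable, of the same degree `≤ 3g`, with disjoint supports, avoiding a given
finite set `T`; and `A' - Z` is an admissible representative. -/
theorem exists_isRep_pair (S : HSetup N) (x : MW N) (T : Finset (PtN N)) :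
    ∃ A' Z : DivN N, 0 ≤ A' ∧ 0 ≤ Z ∧ Divisor.degree A' = Divisor.degree Z ∧
      Divisor.degree A' ≤ 3 * (genusFF Qbar (FN N) : ℤ) ∧
      GalStable N A' ∧ GalStable N Z ∧
      (∀ P ∈ T, A' P = 0) ∧ (∀ P ∈ T, Z P = 0) ∧ (∀ P, A' P = 0 ∨ Z P = 0) ∧
      IsRep S (x : JZero N) (A' - Z) := by
  obtain ⟨A', Z, hA0, hZ0, hdeg, hle, hAs, hZs, hAT, hZT, hdisj, hrep⟩ :=
    exists_moving_MW N (genericFixed_galRange N) S.P₀ (base_fixed S) x.2 T
  refine ⟨A', Z, hA0, hZ0, hdeg, hle, (galStable_iff A').mpr hAs, (galStable_iff Z).mpr hZs,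
    hAT, hZT, hdisj, ?_⟩
  refine ⟨?_, ?_, hrep.1, hrep.2⟩
  · rw [galStable_iff]
    intro g hg
    rw [smul_sub, hAs g hg, hZs g hg]
  · have h1 := dsize_sub_le hA0 hZ0
    rw [← hdeg] at h1
    have h2 : (dsize (A' - Z) : ℤ) ≤ ((2 * S.s : ℕ) : ℤ) := by
      unfold HSetup.s
      push_cast
      linarith
    exact_mod_cast h2

/-- an admissible representative of a rational class avoiding a given finite set. -/
theorem exists_isRep (S : HSetup N) (x : MW N) (T : Finset (PtN N)) :
    ∃ a : DivN N, IsRep S (x : JZero N) a ∧ ∀ P ∈ T, a P = 0 := by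
  obtain ⟨A', Z, -, -, -, -, -, -, hAT, hZT, -, hrep⟩ := exists_isRep_pair S x T
  refine ⟨A' - Z, hrep, fun P hP => ?_⟩
  rw [Finsupp.sub_apply, hAT P hP, hZT P hP, sub_zero]

/-- two admissible representatives of two rational classes with disjoint supports, both
avoiding a given finite set. -/
theorem exists_isRep_disjoint (S : HSetup N) (x y : MW N) (T : Finset (PtN N)) :
    ∃ a b : DivN N, IsRep S (x : JZero N) a ∧ IsRep S (y : JZero N) b ∧
      Disjoint a.support b.support ∧ (∀ P ∈ T, a P = 0) ∧ (∀ P ∈ T, b P = 0) := by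
  classical
  obtain ⟨a, ha, haT⟩ := exists_isRep S x T
  obtain ⟨b, hb, hbT⟩ := exists_isRep S y (T ∪ a.support)
  refine ⟨a, b, ha, hb, ?_, haT, fun P hP => hbT P (Finset.mem_union_left _ hP)⟩
  rw [Finset.disjoint_left]
  intro P hPa hPb
  exact (Finsupp.mem_support_iff.mp hPb) (hbT P (Finset.mem_union_right _ hPa))

/-- for a given admissible divisor `a`, an admissible representative of `y` disjoint from it. -/
theorem exists_isRep_disjoint_from (S : HSetup N) (y : MW N) (a : DivN N) (T : Finset (PtN N)) :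
    ∃ b : DivN N, IsRep S (y : JZero N) b ∧ Disjoint a.support b.support ∧
      ∀ P ∈ T, b P = 0 := by
  classical
  obtain ⟨b, hb, hbT⟩ := exists_isRep S y (T ∪ a.support)
  refine ⟨b, hb, ?_, fun P hP => hbT P (Finset.mem_union_left _ hP)⟩
  rw [Finset.disjoint_left]
  intro P hPa hPb
  exact (Finsupp.mem_support_iff.mp hPb) (hbT P (Finset.mem_union_right _ hPa))

end Fermat.Agent.S17.Move
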