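import Mathlib
import Fermat.Agent.S17.H.Defs

set_option autoImplicit false
set_option linter.unusedSectionVars false

/-!
# S17, package H, seat L1 (NST): the multi-projective Nullstellensatz bound

`𝔸 : AbsSys`.  Variables of `∏_i ℙ^{n_i}` : `MPVar n = Σ i, Fin (n i + 1)`; a point is a family
`y : ∀ i, Fin (n i + 1) → ℚ̄` with all `y i ≠ 0`, evaluated through `mpPoint n y`.

* `nst_upper` : a multihomogeneous `F` of multidegree `d` satisfies
  `|F(y)|_v ≤ exp(γ_v) ∏_i ‖y_i‖_v^{d_i}` for one `M`-constant `γ`.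
* `nst` (PRINCIPLE): multihomogeneous forms `F_j` of multidegree `d` without common zero on the
  closed set `Y = V(𝒢)` (`𝒢` multihomogeneous) satisfy
  `max_j |F_j(y)|_v ≥ exp(-γ_v) ∏_i ‖y_i‖_v^{d_i}` on `Y`, for one `M`-constant `γ`.
* `nst₁`, `nst_upper₁` : the one-factor case (homogeneous forms on `ℙ^n`).

Auxiliary `M`-constants: `MConst.finsetSum`, `MConst.logPlus`, `MConst.archNat`, `polyConst`.
-/

noncomputable section

namespace Fermat.Agent.S17

open MvPolynomial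

/-! ### more `M`-constants -/

namespace MConst

variable {𝔸 : AbsSys}

/-- finite sums of `M`-constants -/
def finsetSum {α : Type*} (s : Finset α) (f : α → MConst 𝔸) : MConst 𝔸 where
  c v := ∑ i ∈ s, (f i).c v
  nonneg v := Finset.sum_nonneg fun i _ => (f i).nonneg v
  finite := by
    classical
    refine (s.finite_toSet.biUnion fun i _ => (f i).finite).subset ?_
    intro v hv
    simp only [Set.mem_ofPred_eq] at hv
    by_contra h
    refine hv (Finset.sum_eq_zero fun i hi => ?_)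
    by_contra h'
    exact h (Set.mem_biUnion (Finset.mem_coe.2 hi) h')

@[simp] theorem finsetSum_apply {α : Type*} (s : Finset α) (f : α → MConst 𝔸) (v : 𝔸.ι) :
    (finsetSum s f) v = ∑ i ∈ s, (f i) v := rfl

/-- `log⁺ |a|_v` -/
def logPlus (a : Qbar) : MConst 𝔸 where
  c v := Real.log (max 1 (𝔸.abv v a))
  nonneg v := Real.log_nonneg (le_max_left _ _)
  finite := by
    rcases eq_or_ne a 0 with rfl | ha
    · refine Set.Finite.subset Set.finite_empty ?_
      intro v hv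
      simp only [Set.mem_ofPred_eq] at hv
      exact (hv (by simp)).elim
    · refine (𝔸.finite_ne_one a ha).subset ?_
      intro v hv
      simp only [Set.mem_ofPred_eq] at hv ⊢
      intro h
      exact hv (by rw [h]; simp)

@[simp] theorem logPlus_apply (a : Qbar) (v : 𝔸.ι) :
    (logPlus (𝔸 := 𝔸) a) v = Real.log (max 1 (𝔸.abv v a)) := rfl

theorem abv_le_exp_logPlus (a : Qbar) (v : 𝔸.ι) :
    𝔸.abv v a ≤ Real.exp ((logPlus (𝔸 := 𝔸) a) v) := by
  rw [logPlus_apply, Real.exp_log (lt_of_lt_of_le one_pos (le_max_left _ _))]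
  exact le_max_right _ _

open Classical in
/-- `log max(1, k)` at the archimedean places, `0` elsewhere -/
def archNat (k : ℕ) : MConst 𝔸 where
  c v := if v ∈ 𝔸.arch then Real.log (max 1 (k : ℝ)) else 0
  nonneg v := by
    split_ifs
    · exact Real.log_nonneg (le_max_left _ _)
    · exact le_rfl
  finite := by
    refine (𝔸.arch.finite_toSet).subset ?_
    intro v hv
    simp only [Set.mem_ofPred_eq] at hv
    by_contra h
    exact hv (if_neg h)

theorem archNat_of_mem (k : ℕ) {v : 𝔸.ι} (hv : v ∈ 𝔸.arch) :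
    (archNat (𝔸 := 𝔸) k) v = Real.log (max 1 (k : ℝ)) := if_pos hv

theorem archNat_of_not_mem (k : ℕ) {v : 𝔸.ι} (hv : v ∉ 𝔸.arch) :
    (archNat (𝔸 := 𝔸) k) v = 0 := if_neg hv

end MConst

/-- The triangle inequality for finite sums, uniformly in the place. -/
theorem abv_sum_le (𝔸 : AbsSys) (v : 𝔸.ι) {α : Type*} (s : Finset α) (f : α → Qbar) {B : ℝ}
    (hB : 0 ≤ B) (h : ∀ i ∈ s, 𝔸.abv v (f i) ≤ B) :
    𝔸.abv v (∑ i ∈ s, f i) ≤ Real.exp ((MConst.archNat (𝔸 := 𝔸) s.card) v) * B := by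
  classical
  by_cases hv : v ∈ 𝔸.arch
  · rw [MConst.archNat_of_mem _ hv, Real.exp_log (lt_of_lt_of_le one_pos (le_max_left _ _))]
    calc 𝔸.abv v (∑ i ∈ s, f i) ≤ ∑ i ∈ s, 𝔸.abv v (f i) := (𝔸.abv v).sum_le _ _
      _ ≤ s.card • B := Finset.sum_le_card_nsmul _ _ _ h
      _ = (s.card : ℝ) * B := nsmul_eq_mul _ _
      _ ≤ max 1 (s.card : ℝ) * B := mul_le_mul_of_nonneg_right (le_max_right _ _) hB
  · rw [MConst.archNat_of_not_mem _ hv, Real.exp_zero, one_mul]
    have hna := 𝔸.nonarch v hv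
    induction s using Finset.induction_on with
    | empty => simpa using hB
    | insert a s ha ih =>
      rw [Finset.sum_insert ha]
      refine le_trans (hna _ _) (max_le (h a (Finset.mem_insert_self a s)) ?_)
      exact ih fun i hi => h i (Finset.mem_insert_of_mem hi)

/-- The `M`-constant of a polynomial. -/
def polyConst (𝔸 : AbsSys) {σ : Type*} (A : MvPolynomial σ Qbar) : MConst 𝔸 :=
  MConst.archNat A.support.card + MConst.finsetSum A.support fun m => MConst.logPlus (A.coeff m)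

/-- Bound for the value of a polynomial from a bound for its monomials. -/
theorem abv_eval_le_of_monomial_le (𝔸 : AbsSys) (v : 𝔸.ι) {σ : Type*} [Fintype σ]
    (A : MvPolynomial σ Qbar) (x : σ → Qbar) {B : ℝ} (hB : 0 ≤ B)
    (h : ∀ m ∈ A.support, ∏ s, 𝔸.abv v (x s) ^ m s ≤ B) :
    𝔸.abv v (eval x A) ≤ Real.exp ((polyConst 𝔸 A) v) * B := by
  rw [eval_eq']
  have hterm : ∀ m ∈ A.support, 𝔸.abv v (A.coeff m * ∏ s, x s ^ m s) ≤
      Real.exp ((MConst.finsetSum A.support fun m => MConst.logPlus (𝔸 := 𝔸) (A.coeff m)) v)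
        * B := by
    intro m hm
    rw [map_mul, map_prod]
    simp only [map_pow]
    refine mul_le_mul ?_ (h m hm) (Finset.prod_nonneg fun s _ => pow_nonneg ((𝔸.abv v).nonneg _) _)
      (Real.exp_pos _).le
    refine le_trans (MConst.abv_le_exp_logPlus (𝔸 := 𝔸) (A.coeff m) v) ?_
    rw [Real.exp_le_exp, MConst.finsetSum_apply]
    exact Finset.single_le_sum (f := fun m => (MConst.logPlus (𝔸 := 𝔸) (A.coeff m)) v)
      (fun i _ => (MConst.logPlus (𝔸 := 𝔸) (A.coeff i)).nonneg v) hm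
  have := abv_sum_le 𝔸 v A.support (fun m => A.coeff m * ∏ s, x s ^ m s)
    (mul_nonneg (Real.exp_pos _).le hB) hterm
  refine le_trans this (le_of_eq ?_)
  rw [polyConst, MConst.add_apply, Real.exp_add, mul_assoc]

/-- Bound for the value of a polynomial at a point with coordinates of absolute value `≤ 1`. -/
theorem abv_eval_le_of_le_one (𝔸 : AbsSys) (v : 𝔸.ι) {σ : Type*} [Fintype σ]
    (A : MvPolynomial σ Qbar) (x : σ → Qbar) (hx : ∀ s, 𝔸.abv v (x s) ≤ 1) :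
    𝔸.abv v (eval x A) ≤ Real.exp ((polyConst 𝔸 A) v) := by
  have := abv_eval_le_of_monomial_le 𝔸 v A x zero_le_one fun m _ =>
    Finset.prod_le_one (fun s _ => pow_nonneg ((𝔸.abv v).nonneg _) _)
      fun s _ => pow_le_one₀ ((𝔸.abv v).nonneg _) (hx s)
  simpa using this

/-! ### multi-projective points and multihomogeneous forms -/

section multi

variable {ι : Type} [Fintype ι] (n : ι → ℕ)

/-- The variables of `∏_i ℙ^{n_i}`. -/
abbrev MPVar : Type := Σ i, Fin (n i + 1)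

/-- The evaluation point of a multi-projective tuple. -/
def mpPoint (y : ∀ i, Fin (n i + 1) → Qbar) : MPVar n → Qbar := fun s => y s.1 s.2

@[simp] theorem mpPoint_apply (y : ∀ i, Fin (n i + 1) → Qbar) (i : ι) (a : Fin (n i + 1)) :
    mpPoint n y ⟨i, a⟩ = y i a := rfl

/-- `F` is multihomogeneous of multidegree `d`. -/
def IsMultiHom (d : ι → ℕ) (F : MvPolynomial (MPVar n) Qbar) : Prop :=
  ∀ m ∈ F.support, ∀ i, ∑ a : Fin (n i + 1), m ⟨i, a⟩ = d i

variable {n}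

/-- A monomial of multidegree `d` evaluated on a function of the form `s ↦ φ s.1 s.2`. -/
theorem prod_pow_sigma {M : Type*} [CommMonoid M] (φ : ∀ i, Fin (n i + 1) → M)
    (m : MPVar n →₀ ℕ) :
    ∏ s : MPVar n, φ s.1 s.2 ^ m s = ∏ i, ∏ a : Fin (n i + 1), φ i a ^ m ⟨i, a⟩ :=
  Fintype.prod_sigma (fun s : MPVar n => φ s.1 s.2 ^ m s)

/-- Scaling the factors of a multi-projective point scales a multihomogeneous form. -/
theorem eval_mpPoint_scale {d : ι → ℕ} {F : MvPolynomial (MPVar n) Qbar} (hF : IsMultiHom n d F)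
    (c : ι → Qbar) (y : ∀ i, Fin (n i + 1) → Qbar) :
    eval (mpPoint n fun i a => c i * y i a) F = (∏ i, c i ^ d i) * eval (mpPoint n y) F := by
  rw [eval_eq', eval_eq', Finset.mul_sum]
  refine Finset.sum_congr rfl fun m hm => ?_
  have h1 : ∏ s : MPVar n, (mpPoint n fun i a => c i * y i a) s ^ m s
      = (∏ i, c i ^ d i) * ∏ s : MPVar n, mpPoint n y s ^ m s := by
    have : ∀ s : MPVar n, (mpPoint n fun i a => c i * y i a) s ^ m s
        = c s.1 ^ m s * mpPoint n y s ^ m s := fun s => by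
      rw [← mul_pow]; rfl
    simp only [this]
    rw [Finset.prod_mul_distrib]
    congr 1
    rw [prod_pow_sigma (fun i _ => c i) m]
    refine Finset.prod_congr rfl fun i _ => ?_
    rw [Finset.prod_pow_eq_pow_sum, hF m hm i]
  rw [h1]
  ring

/-- The trivial upper bound for a monomial of multidegree `d`. -/
theorem prod_abv_pow_le (𝔸 : AbsSys) (v : 𝔸.ι) {d : ι → ℕ} (m : MPVar n →₀ ℕ)
    (hm : ∀ i, ∑ a : Fin (n i + 1), m ⟨i, a⟩ = d i) (y : ∀ i, Fin (n i + 1) → Qbar) :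
    ∏ s : MPVar n, 𝔸.abv v (mpPoint n y s) ^ m s ≤ ∏ i, vnorm 𝔸 v (y i) ^ d i := by
  have h0 : ∏ s : MPVar n, 𝔸.abv v (mpPoint n y s) ^ m s
      = ∏ i, ∏ a : Fin (n i + 1), 𝔸.abv v (y i a) ^ m ⟨i, a⟩ :=
    prod_pow_sigma (fun i a => 𝔸.abv v (y i a)) m
  rw [h0]
  refine Finset.prod_le_prod (fun i _ => Finset.prod_nonneg fun a _ =>
    pow_nonneg ((𝔸.abv v).nonneg _) _) fun i _ => ?_
  calc ∏ a : Fin (n i + 1), 𝔸.abv v (y i a) ^ m ⟨i, a⟩
      ≤ ∏ a : Fin (n i + 1), vnorm 𝔸 v (y i) ^ m ⟨i, a⟩ :=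
        Finset.prod_le_prod (fun a _ => pow_nonneg ((𝔸.abv v).nonneg _) _) fun a _ =>
          pow_le_pow_left₀ ((𝔸.abv v).nonneg _) (abv_le_vnorm 𝔸 v (y i) a) _
    _ = vnorm 𝔸 v (y i) ^ d i := by rw [Finset.prod_pow_eq_pow_sum, hm i]

/-- **Upper bound** for a multihomogeneous form, with the explicit constant `polyConst 𝔸 F`. -/
theorem abv_eval_mpPoint_le (𝔸 : AbsSys) (v : 𝔸.ι) {d : ι → ℕ} {F : MvPolynomial (MPVar n) Qbar}
    (hF : IsMultiHom n d F) (y : ∀ i, Fin (n i + 1) → Qbar) :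
    𝔸.abv v (eval (mpPoint n y) F) ≤
      Real.exp ((polyConst 𝔸 F) v) * ∏ i, vnorm 𝔸 v (y i) ^ d i :=
  abv_eval_le_of_monomial_le 𝔸 v F (mpPoint n y)
    (Finset.prod_nonneg fun i _ => pow_nonneg (vnorm_nonneg 𝔸 v (y i)) _)
    fun m hm => prod_abv_pow_le 𝔸 v m (hF m hm) y

/-- **Upper bound** for a multihomogeneous form. -/
theorem nst_upper (𝔸 : AbsSys) {d : ι → ℕ} {F : MvPolynomial (MPVar n) Qbar}
    (hF : IsMultiHom n d F) :
    ∃ γ : MConst 𝔸, ∀ (v : 𝔸.ι) (y : ∀ i, Fin (n i + 1) → Qbar),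
      𝔸.abv v (eval (mpPoint n y) F) ≤ Real.exp (γ v) * ∏ i, vnorm 𝔸 v (y i) ^ d i :=
  ⟨polyConst 𝔸 F, fun v y => abv_eval_mpPoint_le 𝔸 v hF y⟩

end multi

/-! ### the Nullstellensatz bound -/

section nst

variable {ι : Type} [Fintype ι] {n : ι → ℕ}

/-- The monomial `∏_i X_{i, a_i}`. -/
def mpMono (a : ∀ i, Fin (n i + 1)) : MvPolynomial (MPVar n) Qbar :=
  ∏ i, X (⟨i, a i⟩ : MPVar n)

theorem eval_mpMono (a : ∀ i, Fin (n i + 1)) (y : ∀ i, Fin (n i + 1) → Qbar) :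
    eval (mpPoint n y) (mpMono a) = ∏ i, y i (a i) := by
  simp [mpMono, map_prod]

/-- The polynomials vanishing at a point form an ideal: elements of `span 𝒢` vanish where `𝒢`
does. -/
theorem eval_eq_zero_of_mem_span {σ : Type*} {𝒢 : Set (MvPolynomial σ Qbar)} {x : σ → Qbar}
    (h : ∀ G ∈ 𝒢, eval x G = 0) {w : MvPolynomial σ Qbar} (hw : w ∈ Ideal.span 𝒢) :
    eval x w = 0 := by
  have : Ideal.span 𝒢 ≤ RingHom.ker (eval x) :=
    Ideal.span_le.2 fun G hG => (RingHom.mem_ker).2 (h G hG)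
  exact (RingHom.mem_ker).1 (this hw)

/-- Nullstellensatz: a power of every monomial `∏_i X_{i,a_i}` lies in the ideal of `(F_j) + 𝒢`. -/
theorem exists_mpMono_pow_mem {J : Type} (F : J → MvPolynomial (MPVar n) Qbar)
    (𝒢 : Set (MvPolynomial (MPVar n) Qbar))
    (hnz : ∀ y : ∀ i, Fin (n i + 1) → Qbar, (∀ i, y i ≠ 0) →
      (∀ G ∈ 𝒢, eval (mpPoint n y) G = 0) → ∃ j, eval (mpPoint n y) (F j) ≠ 0)
    (a : ∀ i, Fin (n i + 1)) :
    ∃ N : ℕ, mpMono a ^ N ∈ Ideal.span (Set.range F ∪ 𝒢) := by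
  have h : mpMono a ∈ vanishingIdeal Qbar
      (zeroLocus Qbar (Ideal.span (Set.range F ∪ 𝒢))) := by
    rw [mem_vanishingIdeal_iff]
    intro x hx
    rw [mem_zeroLocus_iff] at hx
    have hxy : x = mpPoint n (fun i b => x ⟨i, b⟩) := by
      funext s
      rfl
    show eval x (mpMono a) = 0
    by_contra hne
    have hyi : ∀ i, (fun b => x ⟨i, b⟩ : Fin (n i + 1) → Qbar) ≠ 0 := by
      intro i h0
      apply hne
      rw [hxy, eval_mpMono]
      exact Finset.prod_eq_zero (Finset.mem_univ i) (congrFun h0 (a i))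
    have hG : ∀ G ∈ 𝒢, eval (mpPoint n (fun i b => x ⟨i, b⟩)) G = 0 := fun G hG => by
      rw [← hxy]
      exact hx G (Ideal.subset_span (Or.inr hG))
    obtain ⟨j, hj⟩ := hnz _ hyi hG
    apply hj
    rw [← hxy]
    exact hx (F j) (Ideal.subset_span (Or.inl ⟨j, rfl⟩))
  rw [vanishingIdeal_zeroLocus_eq_radical] at h
  exact h

/-- The identity delivered by the Nullstellensatz, evaluated on `Y`. -/
theorem exists_nst_identity {J : Type} [Fintype J] (F : J → MvPolynomial (MPVar n) Qbar)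
    (𝒢 : Set (MvPolynomial (MPVar n) Qbar))
    (hnz : ∀ y : ∀ i, Fin (n i + 1) → Qbar, (∀ i, y i ≠ 0) →
      (∀ G ∈ 𝒢, eval (mpPoint n y) G = 0) → ∃ j, eval (mpPoint n y) (F j) ≠ 0)
    (a : ∀ i, Fin (n i + 1)) :
    ∃ (N : ℕ) (A : J → MvPolynomial (MPVar n) Qbar), ∀ y : ∀ i, Fin (n i + 1) → Qbar,
      (∀ G ∈ 𝒢, eval (mpPoint n y) G = 0) →
      (∏ i, y i (a i)) ^ N = ∑ j, eval (mpPoint n y) (A j) * eval (mpPoint n y) (F j) := by
  obtain ⟨N, hN⟩ := exists_mpMono_pow_mem F 𝒢 hnz a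
  rw [Ideal.span_union, Submodule.mem_sup] at hN
  obtain ⟨u, hu, w, hw, huw⟩ := hN
  obtain ⟨A, hA⟩ := Ideal.mem_span_range_iff_exists_fun.1 hu
  refine ⟨N, A, fun y hy => ?_⟩
  have h1 := congrArg (eval (mpPoint n y)) huw
  rw [map_add, eval_eq_zero_of_mem_span hy hw, add_zero, map_pow, eval_mpMono, ← hA,
    map_sum] at h1
  rw [← h1]
  exact Finset.sum_congr rfl fun j _ => map_mul _ _ _

/-- **NST (PRINCIPLE)**: multihomogeneous forms `F_j` of multidegree `d` without common zero on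
the closed set `Y = V(𝒢) ⊂ ∏_i ℙ^{n_i}(ℚ̄)` satisfy
`max_j |F_j(y)|_v ≥ exp(-γ_v) ∏_i ‖y_i‖_v^{d_i}` on `Y`, for one `M`-constant `γ`. -/
theorem nst (𝔸 : AbsSys) (d : ι → ℕ) {J : Type} [Fintype J]
    (F : J → MvPolynomial (MPVar n) Qbar) (hF : ∀ j, IsMultiHom n d (F j))
    (𝒢 : Set (MvPolynomial (MPVar n) Qbar)) (h𝒢 : ∀ G ∈ 𝒢, ∃ e, IsMultiHom n e G)
    (hnz : ∀ y : ∀ i, Fin (n i + 1) → Qbar, (∀ i, y i ≠ 0) →
      (∀ G ∈ 𝒢, eval (mpPoint n y) G = 0) → ∃ j, eval (mpPoint n y) (F j) ≠ 0) :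
    ∃ γ : MConst 𝔸, ∀ (v : 𝔸.ι) (y : ∀ i, Fin (n i + 1) → Qbar), (∀ i, y i ≠ 0) →
      (∀ G ∈ 𝒢, eval (mpPoint n y) G = 0) →
      ∃ j, Real.exp (-(γ v)) * ∏ i, vnorm 𝔸 v (y i) ^ d i
        ≤ 𝔸.abv v (eval (mpPoint n y) (F j)) := by
  classical
  choose N A hNA using exists_nst_identity F 𝒢 hnz
  -- the constant attached to the choice `a`
  let γa : (∀ i, Fin (n i + 1)) → MConst 𝔸 := fun a =>
    MConst.archNat (Fintype.card J) + MConst.finsetSum Finset.univ fun j => polyConst 𝔸 (A a j)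
  refine ⟨MConst.finsetSum Finset.univ γa, fun v y hy hY => ?_⟩
  -- choose the coordinates of maximal absolute value
  choose a ha using fun i => exists_abv_eq_vnorm 𝔸 v (y i)
  have hpos : ∀ i, 0 < vnorm 𝔸 v (y i) := fun i => vnorm_pos 𝔸 v (hy i)
  have hya : ∀ i, y i (a i) ≠ 0 := fun i h0 => by
    have := ha i
    rw [h0, map_zero] at this
    exact (hpos i).ne this
  -- the normalised point
  set c : ι → Qbar := fun i => (y i (a i))⁻¹ with hc
  set y' : ∀ i, Fin (n i + 1) → Qbar := fun i b => c i * y i b with hy'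
  have hy'1 : ∀ i, y' i (a i) = 1 := fun i => inv_mul_cancel₀ (hya i)
  have hy'le : ∀ s : MPVar n, 𝔸.abv v (mpPoint n y' s) ≤ 1 := by
    rintro ⟨i, b⟩
    show 𝔸.abv v (c i * y i b) ≤ 1
    rw [map_mul, hc, map_inv₀, ha i]
    rw [inv_mul_le_iff₀ (hpos i), mul_one]
    exact abv_le_vnorm 𝔸 v (y i) b
  have hY' : ∀ G ∈ 𝒢, eval (mpPoint n y') G = 0 := fun G hG => by
    obtain ⟨e, he⟩ := h𝒢 G hG
    rw [hy', eval_mpPoint_scale he c y, hY G hG, mul_zero]
  -- the identity at the normalised point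
  have hid := hNA a y' hY'
  simp only [hy'1, Finset.prod_const_one, one_pow] at hid
  -- `J` is nonempty
  have hJ : (Finset.univ : Finset J).Nonempty := by
    by_contra h
    rw [Finset.not_nonempty_iff_eq_empty] at h
    rw [h, Finset.sum_empty] at hid
    exact one_ne_zero hid
  obtain ⟨j₀, -, hj₀⟩ := Finset.exists_max_image Finset.univ
    (fun j => 𝔸.abv v (eval (mpPoint n y') (F j))) hJ
  refine ⟨j₀, ?_⟩
  -- the estimate at the normalised point
  have hterm : ∀ j ∈ (Finset.univ : Finset J),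
      𝔸.abv v (eval (mpPoint n y') (A a j) * eval (mpPoint n y') (F j)) ≤
        Real.exp ((MConst.finsetSum Finset.univ fun j => polyConst 𝔸 (A a j)) v)
          * 𝔸.abv v (eval (mpPoint n y') (F j₀)) := by
    intro j _
    rw [map_mul]
    refine mul_le_mul ?_ (hj₀ j (Finset.mem_univ j)) ((𝔸.abv v).nonneg _) (Real.exp_pos _).le
    refine le_trans (abv_eval_le_of_le_one 𝔸 v (A a j) (mpPoint n y') hy'le) ?_
    rw [Real.exp_le_exp, MConst.finsetSum_apply]
    exact Finset.single_le_sum (f := fun j => (polyConst 𝔸 (A a j)) v)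
      (fun i _ => (polyConst 𝔸 (A a i)).nonneg v) (Finset.mem_univ j)
  have h1 := abv_sum_le 𝔸 v Finset.univ
    (fun j => eval (mpPoint n y') (A a j) * eval (mpPoint n y') (F j))
    (mul_nonneg (Real.exp_pos _).le ((𝔸.abv v).nonneg _)) hterm
  rw [← hid, map_one, Finset.card_univ, ← mul_assoc, ← Real.exp_add] at h1
  -- `1 ≤ exp (γa a v) * |F_{j₀}(y')|`
  have h2 : Real.exp (-((γa a) v)) ≤ 𝔸.abv v (eval (mpPoint n y') (F j₀)) := by
    rw [Real.exp_neg, inv_le_iff_one_le_mul₀ (Real.exp_pos _), mul_comm]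
    exact h1
  have h3 : Real.exp (-((MConst.finsetSum Finset.univ γa) v)) ≤ Real.exp (-((γa a) v)) := by
    rw [Real.exp_le_exp, neg_le_neg_iff, MConst.finsetSum_apply]
    exact Finset.single_le_sum (f := fun a => (γa a) v) (fun i _ => (γa i).nonneg v)
      (Finset.mem_univ a)
  -- back to `y`
  have h4 : 𝔸.abv v (eval (mpPoint n y') (F j₀)) * ∏ i, vnorm 𝔸 v (y i) ^ d i
      = 𝔸.abv v (eval (mpPoint n y) (F j₀)) := by
    rw [hy', eval_mpPoint_scale (hF j₀) c y, map_mul, map_prod, mul_comm, ← mul_assoc,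
      ← Finset.prod_mul_distrib]
    have : ∀ i ∈ (Finset.univ : Finset ι), vnorm 𝔸 v (y i) ^ d i * 𝔸.abv v (c i ^ d i) = 1 := by
      intro i _
      rw [map_pow, ← mul_pow, hc, map_inv₀, ha i, mul_inv_cancel₀ (hpos i).ne', one_pow]
    rw [Finset.prod_eq_one this, one_mul]
  rw [← h4]
  exact mul_le_mul_of_nonneg_right (le_trans h3 h2)
    (Finset.prod_nonneg fun i _ => pow_nonneg (hpos i).le _)

end nst

/-! ### the one-factor case: homogeneous forms on `ℙ^n` -/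

section one

variable {n : ℕ}

/-- The variables of `ℙ^n` as multi-projective variables with one factor. -/
def oneVar (n : ℕ) : Fin (n + 1) → MPVar (fun _ : Unit => n) := fun a => ⟨(), a⟩

theorem isMultiHom_of_isHomogeneous {N : ℕ} {G : MvPolynomial (MPVar (fun _ : Unit => n)) Qbar}
    (hG : G.IsHomogeneous N) : IsMultiHom (fun _ : Unit => n) (fun _ => N) G := by
  intro m hm i
  have h := hG.degree_eq_sum_deg_support hm
  have h2 : ∑ s ∈ m.support, m s = ∑ s : MPVar (fun _ : Unit => n), m s :=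
    Finset.sum_subset (Finset.subset_univ _) fun s _ hs => by simpa using hs
  have h3 : ∑ s : MPVar (fun _ : Unit => n), m s = ∑ a : Fin (n + 1), m ⟨i, a⟩ := by
    rw [Fintype.sum_sigma (f := fun s => m s)]
    exact Fintype.sum_unique (fun x : Unit => ∑ a : Fin (n + 1), m ⟨x, a⟩)
  rw [← h3, ← h2, ← h]

theorem eval_rename_oneVar (y : Unit → Fin (n + 1) → Qbar) (F : MvPolynomial (Fin (n + 1)) Qbar) :
    eval (mpPoint (fun _ : Unit => n) y) (rename (oneVar n) F) = eval (y ()) F := by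
  rw [eval_rename]
  rfl

/-- **Upper bound** for a homogeneous form on `ℙ^n`. -/
theorem nst_upper₁ (𝔸 : AbsSys) {N : ℕ} {F : MvPolynomial (Fin (n + 1)) Qbar}
    (hF : F.IsHomogeneous N) :
    ∃ γ : MConst 𝔸, ∀ (v : 𝔸.ι) (y : Fin (n + 1) → Qbar),
      𝔸.abv v (eval y F) ≤ Real.exp (γ v) * vnorm 𝔸 v y ^ N := by
  obtain ⟨γ, hγ⟩ := nst_upper 𝔸 (isMultiHom_of_isHomogeneous
    (hF.rename_isHomogeneous (f := oneVar n)))
  refine ⟨γ, fun v y => ?_⟩
  have := hγ v (fun _ => y)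
  rwa [eval_rename_oneVar, Fintype.prod_unique] at this

/-- **NST on `ℙ^n`**: homogeneous forms `F_j` of degree `N` without common zero on the closed set
`Y = V(𝒢) ⊂ ℙ^n(ℚ̄)` satisfy `max_j |F_j(y)|_v ≥ exp(-γ_v) ‖y‖_v^N` on `Y`. -/
theorem nst₁ (𝔸 : AbsSys) (N : ℕ) {J : Type} [Fintype J]
    (F : J → MvPolynomial (Fin (n + 1)) Qbar) (hF : ∀ j, (F j).IsHomogeneous N)
    (𝒢 : Set (MvPolynomial (Fin (n + 1)) Qbar)) (h𝒢 : ∀ G ∈ 𝒢, ∃ e, G.IsHomogeneous e)
    (hnz : ∀ y : Fin (n + 1) → Qbar, y ≠ 0 → (∀ G ∈ 𝒢, eval y G = 0) →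
      ∃ j, eval y (F j) ≠ 0) :
    ∃ γ : MConst 𝔸, ∀ (v : 𝔸.ι) (y : Fin (n + 1) → Qbar), y ≠ 0 →
      (∀ G ∈ 𝒢, eval y G = 0) →
      ∃ j, Real.exp (-(γ v)) * vnorm 𝔸 v y ^ N ≤ 𝔸.abv v (eval y (F j)) := by
  have key : ∀ (y : Unit → Fin (n + 1) → Qbar),
      (∀ G ∈ (rename (oneVar n)) '' 𝒢, eval (mpPoint (fun _ : Unit => n) y) G = 0) →
      ∀ G ∈ 𝒢, eval (y ()) G = 0 := fun y h G hG => by
    rw [← eval_rename_oneVar]
    exact h _ ⟨G, hG, rfl⟩
  obtain ⟨γ, hγ⟩ := nst 𝔸 (fun _ : Unit => N) (fun j => rename (oneVar n) (F j))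
    (fun j => isMultiHom_of_isHomogeneous ((hF j).rename_isHomogeneous))
    ((rename (oneVar n)) '' 𝒢)
    (by
      rintro _ ⟨G, hG, rfl⟩
      obtain ⟨e, he⟩ := h𝒢 G hG
      exact ⟨fun _ => e, isMultiHom_of_isHomogeneous he.rename_isHomogeneous⟩)
    (by
      intro y hy hY
      obtain ⟨j, hj⟩ := hnz (y ()) (hy ()) (key y hY)
      exact ⟨j, by rwa [eval_rename_oneVar]⟩)
  refine ⟨γ, fun v y hy hY => ?_⟩
  obtain ⟨j, hj⟩ := hγ v (fun _ => y) (fun _ => hy) (by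
    rintro _ ⟨G, hG, rfl⟩
    rw [eval_rename_oneVar]
    exact hY G hG)
  refine ⟨j, ?_⟩
  rwa [eval_rename_oneVar, Fintype.prod_unique] at hj

end one

end Fermat.Agent.S17
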