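import Mathlib
import Fermat.Agent.S17.H.NST
import Fermat.Agent.S17.Rat.Modular

set_option autoImplicit false
set_option linter.unusedSectionVars false

/-!
# S17, package H, seat GC — part 1: Northcott for Galois-stable finite families in `ℚ̄`

`northcott_roots 𝔸 d B` : there is a FINITE set `Σ ⊂ ℚ̄` such that every finite family
`(u_i)_{i ∈ T}`, `#T ≤ d`, whose polynomial `∏ (X - u_i)` is Galois-fixed and whose height
`Σ_v Σ_i log⁺ |u_i|_v` is at most `B`, takes its values in `Σ`.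

Proof: the coefficients of `∏ (X - u_i)` are rational (`RatDesc.fixed_const`) and satisfy
`|c_k|_v ≤ 2^{#T} ∏ max(1, |u_i|_v)` (`2` only at archimedean places; induction on `T`), hence
have bounded height; `AbsSys.northcott` leaves finitely many polynomials.
-/

noncomputable section

open Polynomial

namespace Fermat.Agent.S17

/-! ### totals of `M`-constants -/

namespace MConst

variable {𝔸 : AbsSys}

theorem hasFiniteSupport (γ : MConst 𝔸) : Function.HasFiniteSupport γ.c := γ.finite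

theorem total_le_total {γ γ' : MConst 𝔸} (h : ∀ v, γ v ≤ γ' v) : γ.total ≤ γ'.total :=
  finsum_le_finsum' γ.hasFiniteSupport γ'.hasFiniteSupport h

theorem total_add (γ γ' : MConst 𝔸) : (γ + γ').total = γ.total + γ'.total :=
  finsum_add_distrib γ.finite γ'.finite

theorem total_nsmul' (n : ℕ) (γ : MConst 𝔸) : (nsmul' n γ).total = n * γ.total := by
  unfold total
  simp only [nsmul'_apply]
  exact (mul_finsum _ _).symm

/-- comparison of a finite-support function with an `M`-constant -/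
theorem finsum_le_total {f : 𝔸.ι → ℝ} (γ : MConst 𝔸) (h0 : ∀ v, 0 ≤ f v)
    (h : ∀ v, f v ≤ γ v) : ∑ᶠ v, f v ≤ γ.total := by
  refine finsum_le_finsum' (γ.finite.subset fun v hv => ?_) γ.hasFiniteSupport h
  intro hγ
  exact hv (le_antisymm (hγ ▸ h v) (h0 v))

end MConst

/-! ### the coefficient bound -/

/-- the two-term triangle inequality, uniformly in the place -/
theorem abv_add_le_two (𝔸 : AbsSys) (v : 𝔸.ι) (x y : Qbar) {B : ℝ}
    (hx : 𝔸.abv v x ≤ B) (hy : 𝔸.abv v y ≤ B) :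
    𝔸.abv v (x + y) ≤ Real.exp ((MConst.archNat (𝔸 := 𝔸) 2) v) * B := by
  classical
  have hB : 0 ≤ B := le_trans ((𝔸.abv v).nonneg x) hx
  have := abv_sum_le 𝔸 v (Finset.univ : Finset (Fin 2)) (fun i => if i = 0 then x else y) hB
    (by
      intro i _
      by_cases hi : i = 0
      · simpa [hi] using hx
      · simpa [hi] using hy)
  simpa [Fin.sum_univ_two] using this

/-- `|coeff_k ∏_{i ∈ T} (X - u_i)|_v ≤ 2^{#T} ∏ max(1, |u_i|_v)` (`2` only at the archimedean
places). -/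
theorem abv_coeff_prod_le (𝔸 : AbsSys) (v : 𝔸.ι) {ι : Type*} (T : Finset ι) (u : ι → Qbar)
    (k : ℕ) :
    𝔸.abv v ((∏ i ∈ T, (X - C (u i))).coeff k) ≤
      Real.exp (T.card * (MConst.archNat (𝔸 := 𝔸) 2) v) * ∏ i ∈ T, max 1 (𝔸.abv v (u i)) := by
  classical
  induction T using Finset.induction_on generalizing k with
  | empty =>
    simp only [Finset.prod_empty, Finset.card_empty, Nat.cast_zero, zero_mul, Real.exp_zero,
      mul_one, coeff_one]
    split_ifs
    · simp
    · simp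
  | insert j T hj ih =>
    rw [Finset.prod_insert hj, Finset.prod_insert hj, Finset.card_insert_of_notMem hj,
      mul_comm (X - C (u j))]
    set Q := ∏ i ∈ T, (X - C (u i)) with hQ
    set M : ℝ := Real.exp (T.card * (MConst.archNat (𝔸 := 𝔸) 2) v)
      * ∏ i ∈ T, max 1 (𝔸.abv v (u i)) with hM
    have hM0 : 0 ≤ M := mul_nonneg (Real.exp_pos _).le
      (Finset.prod_nonneg fun i _ => le_trans zero_le_one (le_max_left _ _))
    have hm1 : (1 : ℝ) ≤ max 1 (𝔸.abv v (u j)) := le_max_left _ _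
    have hmu : 𝔸.abv v (u j) ≤ max 1 (𝔸.abv v (u j)) := le_max_right _ _
    -- the bound `B` for both terms
    have hB1 : ∀ k, 𝔸.abv v (Q.coeff k) ≤ M * max 1 (𝔸.abv v (u j)) := fun k =>
      le_trans (ih k) (le_mul_of_one_le_right hM0 hm1)
    have hB2 : ∀ k, 𝔸.abv v (-(Q.coeff k * u j)) ≤ M * max 1 (𝔸.abv v (u j)) := fun k => by
      rw [AbsoluteValue.map_neg, map_mul]
      exact mul_le_mul (ih k) hmu ((𝔸.abv v).nonneg _) hM0
    have hfin : Real.exp (((T.card + 1 : ℕ) : ℝ) * (MConst.archNat (𝔸 := 𝔸) 2) v)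
        * (max 1 (𝔸.abv v (u j)) * ∏ i ∈ T, max 1 (𝔸.abv v (u i)))
        = Real.exp ((MConst.archNat (𝔸 := 𝔸) 2) v) * (M * max 1 (𝔸.abv v (u j))) := by
      rw [hM]
      push_cast
      rw [add_mul, one_mul, Real.exp_add]
      ring
    rw [hfin]
    rcases k with _ | k
    · have h0 : (Q * (X - C (u j))).coeff 0 = 0 + -(Q.coeff 0 * u j) := by
        rw [mul_coeff_zero]
        simp
      rw [h0]
      exact abv_add_le_two 𝔸 v _ _ (by rw [map_zero]; exact mul_nonneg hM0 (le_trans zero_le_one hm1))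
        (hB2 0)
    · have h1 : (Q * (X - C (u j))).coeff (k + 1) = Q.coeff k + -(Q.coeff (k + 1) * u j) := by
        rw [coeff_mul_X_sub_C]
        ring
      rw [h1]
      exact abv_add_le_two 𝔸 v _ _ (hB1 k) (hB2 (k + 1))

/-! ### Northcott -/

/-- the height `Σ_i log⁺ |u_i|_v` of a finite family, as an `M`-constant -/
def famHeight (𝔸 : AbsSys) {ι : Type*} (T : Finset ι) (u : ι → Qbar) : MConst 𝔸 :=
  MConst.finsetSum T fun i => MConst.logPlus (u i)

theorem famHeight_apply (𝔸 : AbsSys) {ι : Type*} (T : Finset ι) (u : ι → Qbar) (v : 𝔸.ι) :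
    (famHeight 𝔸 T u) v = ∑ i ∈ T, Real.log (max 1 (𝔸.abv v (u i))) := rfl

/-- the polynomials of degree `≤ d` all of whose coefficients lie in a finite set are finitely
many -/
theorem finite_poly_of_coeff_mem (d : ℕ) {Z : Set Qbar} (hZ : Z.Finite) :
    {Q : Qbar[X] | Q.natDegree ≤ d ∧ ∀ k, Q.coeff k ∈ Z}.Finite := by
  have hpi : (Set.univ.pi fun _ : Fin (d + 1) => Z).Finite := Set.Finite.pi fun _ => hZ
  refine Set.Finite.of_finite_image (f := fun Q : Qbar[X] => fun k : Fin (d + 1) => Q.coeff k)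
    (hpi.subset ?_) ?_
  · rintro _ ⟨Q, hQ, rfl⟩
    exact fun k _ => hQ.2 k
  · intro Q hQ Q' hQ' h
    ext k
    by_cases hk : k ≤ d
    · exact congrFun h ⟨k, Nat.lt_succ_of_le hk⟩
    · rw [coeff_eq_zero_of_natDegree_lt (lt_of_le_of_lt hQ.1 (not_le.mp hk)),
        coeff_eq_zero_of_natDegree_lt (lt_of_le_of_lt hQ'.1 (not_le.mp hk))]

/-- the finite set of `northcott_roots` -/
def northcottSet (𝔸 : AbsSys) (d : ℕ) (B : ℝ) : Set Qbar :=
  ⋃ Q ∈ {Q : Qbar[X] | Q.natDegree ≤ d ∧ ∀ k, Q.coeff k ∈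
      algebraMap ℚ Qbar '' {a : ℚ | ∑ᶠ v, Real.log (max 1 (𝔸.abv v (algebraMap ℚ Qbar a)))
        ≤ d * (MConst.archNat (𝔸 := 𝔸) 2).total + B}},
    {α : Qbar | Q ≠ 0 ∧ Q.IsRoot α}

theorem finite_northcottSet (𝔸 : AbsSys) (d : ℕ) (B : ℝ) : (northcottSet 𝔸 d B).Finite := by
  refine Set.Finite.biUnion (finite_poly_of_coeff_mem d ((𝔸.northcott _).image _)) ?_
  intro Q _
  by_cases hQ : Q = 0
  · refine Set.Finite.subset Set.finite_empty ?_
    intro α hα
    exact (hα.1 hQ).elim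
  · exact (Polynomial.finite_setOfPred_isRoot hQ).subset fun α hα => hα.2

theorem natDegree_prod_X_sub_C_le {ι : Type*} (T : Finset ι) (u : ι → Qbar) :
    (∏ i ∈ T, (X - C (u i))).natDegree ≤ T.card := by
  refine le_trans (natDegree_prod_le _ _) ?_
  have : ∑ i ∈ T, (X - C (u i)).natDegree = T.card := by
    rw [Finset.sum_congr rfl fun i _ => natDegree_X_sub_C (u i)]
    simp
  exact this.le

theorem prod_X_sub_C_ne_zero {ι : Type*} (T : Finset ι) (u : ι → Qbar) :
    (∏ i ∈ T, (X - C (u i))) ≠ 0 :=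
  Finset.prod_ne_zero_iff.2 fun i _ => X_sub_C_ne_zero _

/-- **Northcott for Galois-stable finite families.** -/
theorem northcott_roots (𝔸 : AbsSys) {ι : Type*} (d : ℕ) (B : ℝ) (T : Finset ι) (u : ι → Qbar)
    (hT : T.card ≤ d)
    (hfix : ∀ σ : GQ, (∏ i ∈ T, (X - C (u i))).map (σ : Qbar →+* Qbar)
      = ∏ i ∈ T, (X - C (u i)))
    (hB : (famHeight 𝔸 T u).total ≤ B) {i : ι} (hi : i ∈ T) : u i ∈ northcottSet 𝔸 d B := by
  classical
  set Q := ∏ i ∈ T, (X - C (u i)) with hQ
  refine Set.mem_biUnion (x := Q) ⟨le_trans (natDegree_prod_X_sub_C_le T u) hT, fun k => ?_⟩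
    ⟨prod_X_sub_C_ne_zero T u, ?_⟩
  · -- the coefficient is rational of bounded height
    have hfixk : ∀ σ : GQ, σ (Q.coeff k) = Q.coeff k := fun σ => by
      have := congrArg (fun P => P.coeff k) (hfix σ)
      simpa [coeff_map] using this
    obtain ⟨q, hq⟩ := RatDesc.fixed_const (Q.coeff k) hfixk
    refine ⟨q, ?_, hq⟩
    show ∑ᶠ v, Real.log (max 1 (𝔸.abv v (algebraMap ℚ Qbar q))) ≤ _
    rw [hq]
    set γ : MConst 𝔸 := MConst.nsmul' T.card (MConst.archNat 2) + famHeight 𝔸 T u with hγ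
    have h1 : ∑ᶠ v, Real.log (max 1 (𝔸.abv v (Q.coeff k))) ≤ γ.total := by
      refine MConst.finsum_le_total γ (fun v => Real.log_nonneg (le_max_left _ _)) fun v => ?_
      have hpos : ∀ j ∈ T, (0 : ℝ) < max 1 (𝔸.abv v (u j)) := fun j _ =>
        lt_of_lt_of_le one_pos (le_max_left _ _)
      have hprod1 : (1 : ℝ) ≤ ∏ i ∈ T, max 1 (𝔸.abv v (u i)) :=
        Finset.one_le_prod fun i _ => le_max_left _ _
      have hexp1 : (1 : ℝ) ≤ Real.exp (T.card * (MConst.archNat (𝔸 := 𝔸) 2) v) :=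
        Real.one_le_exp (mul_nonneg (Nat.cast_nonneg _) ((MConst.archNat 2).nonneg v))
      have hle : max 1 (𝔸.abv v (Q.coeff k)) ≤
          Real.exp (T.card * (MConst.archNat (𝔸 := 𝔸) 2) v)
            * ∏ i ∈ T, max 1 (𝔸.abv v (u i)) :=
        max_le (one_le_mul_of_one_le_of_one_le hexp1 hprod1) (abv_coeff_prod_le 𝔸 v T u k)
      calc Real.log (max 1 (𝔸.abv v (Q.coeff k)))
          ≤ Real.log (Real.exp (T.card * (MConst.archNat (𝔸 := 𝔸) 2) v)
              * ∏ i ∈ T, max 1 (𝔸.abv v (u i))) :=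
            Real.log_le_log (lt_of_lt_of_le one_pos (le_max_left _ _)) hle
        _ = T.card * (MConst.archNat (𝔸 := 𝔸) 2) v
              + ∑ i ∈ T, Real.log (max 1 (𝔸.abv v (u i))) := by
            rw [Real.log_mul (Real.exp_pos _).ne' (lt_of_lt_of_le one_pos hprod1).ne',
              Real.log_exp, Real.log_prod fun i hi => (hpos i hi).ne']
        _ = γ v := rfl
    refine le_trans h1 ?_
    rw [hγ, MConst.total_add, MConst.total_nsmul']
    have h2 : (T.card : ℝ) * (MConst.archNat (𝔸 := 𝔸) 2).total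
        ≤ d * (MConst.archNat (𝔸 := 𝔸) 2).total :=
      mul_le_mul_of_nonneg_right (by exact_mod_cast hT) (MConst.total_nonneg _)
    linarith
  · -- `u i` is a root
    show Q.eval (u i) = 0
    rw [hQ, eval_prod]
    exact Finset.prod_eq_zero hi (by simp)

end Fermat.Agent.S17
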