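import Mathlib
import Fermat.Agent.S17.H.NorthcottRoots
import Fermat.Agent.S17.H.MoveGlobal
import Fermat.Agent.S17.H.ImmSec
import Fermat.Agent.S17.H.Global

set_option autoImplicit false
set_option linter.unusedSectionVars false

/-!
# S17, package H, seat GC (G8): canonical divisors and Northcott — `northcottThm`

`northcottThm (S : HSetup N) : NorthcottThm S`, UNCONDITIONAL.

* existence of the canonical divisor      : `Move.exists_isCanon` (seat G3, helper30);
* `0 ≤ nHeight S A` for effective `A`     : `φ 0 = 1`, so `‖(φ_a(P))_a‖_v ≥ 1`;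
* Northcott                               : the canonical divisor `A` of a rational class is
  Galois-stable of degree `d ≤ g` (`Move.IsCanon.galStable`), so for each coordinate `a` the family
  `(φ_a(P))_{P ∈ supp A}` is Galois-stable of height `≤ e · nHeight S A`; by `northcott_roots` all
  coordinates of all points of `supp A` lie in ONE finite set `Σ ⊂ ℚ̄`; the coordinates separate
  the points `≠ P₀` (`IsEmbBasis.exists_minor_ne_zero`), so `supp A` lies in one finite set of
  points, `A` in a finite set of divisors, and `x = [A - d P₀]` in a finite set of classes.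
-/

noncomputable section

open AlgebraicCurve ModularCurve Polynomial

namespace Fermat.Agent.S17

/-! ### local statements on the embedded curve -/

section emb

variable {F : Type*} [Field F] [Algebra Qbar F]
variable {P₀ : Place Qbar F} {e r : ℕ} {φ : Fin (r + 1) → F}

/-- the coordinate functions are regular away from the base point -/
theorem IsEmbBasis.ord_nonneg_of_ne (hφ : IsEmbBasis P₀ e φ) {P : Place Qbar F} (hP : P ≠ P₀)
    (a : Fin (r + 1)) : 0 ≤ P.ord (φ a) := by
  classical
  have h2 := ((mem_riemannRochSpace_iff.mp (hφ.mem a)) P).resolve_left (hφ.ne_zero a)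
  rw [Finsupp.single_apply, if_neg (Ne.symm hP), neg_zero] at h2
  exact h2

variable (𝔸 : AbsSys) (v : 𝔸.ι)

theorem IsEmbBasis.one_le_vnorm_val (hφ : IsEmbBasis P₀ e φ) (P : Place Qbar F) :
    1 ≤ vnorm 𝔸 v fun a => val P (φ a) := by
  have h1 := abv_le_vnorm 𝔸 v (fun a => val P (φ a)) 0
  have h2 : val P (φ 0) = 1 := by
    rw [hφ.zero_eq_one]
    exact Pts.ev_one P
  simp only [h2, map_one] at h1
  exact h1

theorem IsEmbBasis.lamloc_nonneg (hφ : IsEmbBasis P₀ e φ) (P : Place Qbar F) :
    0 ≤ lamloc 𝔸 v φ P :=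
  Real.log_nonneg (hφ.one_le_vnorm_val 𝔸 v P)

theorem IsEmbBasis.logPlus_le_lamloc (hφ : IsEmbBasis P₀ e φ) (P : Place Qbar F)
    (a : Fin (r + 1)) :
    Real.log (max 1 (𝔸.abv v (val P (φ a)))) ≤ lamloc 𝔸 v φ P := by
  unfold lamloc
  refine Real.log_le_log (lt_of_lt_of_le one_pos (le_max_left _ _)) ?_
  exact max_le (hφ.one_le_vnorm_val 𝔸 v P) (abv_le_vnorm 𝔸 v (fun a => val P (φ a)) a)

theorem IsEmbBasis.lamloc_le (hφ : IsEmbBasis P₀ e φ) (P : Place Qbar F) :
    lamloc 𝔸 v φ P ≤
      (MConst.finsetSum Finset.univ fun a => MConst.logPlus (𝔸 := 𝔸) (val P (φ a))) v := by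
  obtain ⟨a, ha⟩ := exists_abv_eq_vnorm 𝔸 v (fun a => val P (φ a))
  have hpos : 0 < vnorm 𝔸 v (fun a => val P (φ a)) :=
    lt_of_lt_of_le one_pos (hφ.one_le_vnorm_val 𝔸 v P)
  have h1 : lamloc 𝔸 v φ P ≤ (MConst.logPlus (𝔸 := 𝔸) (val P (φ a))) v := by
    unfold lamloc
    rw [MConst.logPlus_apply]
    refine Real.log_le_log hpos ?_
    rw [← ha]
    exact le_max_right _ _
  refine le_trans h1 ?_
  rw [MConst.finsetSum_apply]
  exact Finset.single_le_sum (f := fun a => (MConst.logPlus (𝔸 := 𝔸) (val P (φ a))) v)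
    (fun i _ => MConst.nonneg _ v) (Finset.mem_univ a)

theorem IsEmbBasis.lamloc_finite (hφ : IsEmbBasis P₀ e φ) (P : Place Qbar F) :
    {v | lamloc 𝔸 v φ P ≠ 0}.Finite := by
  refine (MConst.finite
    (MConst.finsetSum Finset.univ fun a => MConst.logPlus (𝔸 := 𝔸) (val P (φ a)))).subset ?_
  intro v hv
  simp only [Set.mem_ofPred_eq] at hv ⊢
  intro h0
  apply hv
  have h1 := hφ.lamloc_le 𝔸 v P
  have h2 := hφ.lamloc_nonneg 𝔸 v P
  have h0' : (MConst.finsetSum Finset.univ
      fun a => MConst.logPlus (𝔸 := 𝔸) (val P (φ a))) v = 0 := h0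
  rw [h0'] at h1
  exact le_antisymm h1 h2

/-- the coordinates separate the points away from the base point -/
theorem IsEmbBasis.eq_of_val_eq (hφ : IsEmbBasis P₀ e φ) (h : Fermat.Agent.RR.IsRRField Qbar F)
    (he : 2 * genusFF Qbar F + 1 ≤ e) {P Q : Place Qbar F} (hP : P ≠ P₀) (hQ : Q ≠ P₀)
    (hval : ∀ a, val P (φ a) = val Q (φ a)) : P = Q := by
  by_contra hPQ
  obtain ⟨a, b, hab⟩ := hφ.exists_minor_ne_zero h he hPQ
  apply hab
  have he' : 2 * genusFF Qbar F ≤ e := by omega
  have hcoord : ∀ R : Place Qbar F, R ≠ P₀ → ∀ c,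
      coord φ R c = val R (φ c) / val R (φ (pivot φ R)) := by
    intro R hR c
    exact Pts.ev_div h R (hφ.ord_nonneg_of_ne hR c) (hφ.ord_pivot_of_ne h he' hR)
  rw [hcoord P hP, hcoord P hP, hcoord Q hQ, hcoord Q hQ]
  simp only [hval]
  ring

end emb

/-! ### the global statements -/

variable {N : ℕ} [NeZero N]

theorem nHeight_nonneg (S : HSetup N) {A : DivN N} (hA : 0 ≤ A) : 0 ≤ nHeight S A := by
  unfold nHeight
  refine mul_nonneg (by positivity) (finsum_nonneg fun v => Finset.sum_nonneg fun P _ =>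
    mul_nonneg ?_ (S.isEmbBasis.lamloc_nonneg S.𝔸 v P))
  exact_mod_cast Finsupp.le_def.mp hA P

theorem GalStable.apply_galPlace {A : DivN N} (hA : GalStable N A) (σ : GQ) (P : PtN N) :
    A (Pts.galPlace N σ P) = A P := by
  have h1 := SemilinearAut.divisor_smul_apply_smul
    (arithmeticGalois (modularFunctionFieldFull N) σ) A P
  have h2 : arithmeticGalois (modularFunctionFieldFull N) σ • A = A := hA σ
  rw [h2] at h1
  exact h1

theorem GalStable.galPlace_mem_support {A : DivN N} (hA : GalStable N A) (σ : GQ) {P : PtN N}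
    (hP : P ∈ A.support) : Pts.galPlace N σ P ∈ A.support := by
  rw [Finsupp.mem_support_iff] at hP ⊢
  rwa [hA.apply_galPlace σ P]

/-- the polynomial of the values of a Galois-fixed function on the support of a Galois-stable
divisor is Galois-fixed -/
theorem GalStable.prod_fixed (S : HSetup N) {A : DivN N} (hA : GalStable N A)
    (a : Fin (S.r + 1)) (σ : GQ) :
    (∏ P ∈ A.support, (X - C (val P (S.φ a)))).map (σ : Qbar →+* Qbar)
      = ∏ P ∈ A.support, (X - C (val P (S.φ a))) := by
  rw [Polynomial.map_prod]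
  have h1 : ∀ P : PtN N, (X - C (val P (S.φ a))).map (σ : Qbar →+* Qbar)
      = X - C (val (Pts.galPlace N σ P) (S.φ a)) := by
    intro P
    rw [Polynomial.map_sub, Polynomial.map_X, Polynomial.map_C]
    have h2 := Pts.evBar_galois (N := N) σ P (S.φ a)
    rw [S.φ_fixed σ a] at h2
    have h3 : val (Pts.galPlace N σ P) (S.φ a) = σ (val P (S.φ a)) := h2
    rw [h3]
    rfl
  simp only [h1]
  refine Finset.prod_bij' (fun P _ => Pts.galPlace N σ P) (fun P _ => Pts.galPlace N σ⁻¹ P)
    (fun P hP => hA.galPlace_mem_support σ hP) (fun P hP => hA.galPlace_mem_support σ⁻¹ hP)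
    (fun P _ => ?_) (fun P _ => ?_) (fun P _ => rfl)
  · rw [← Pts.galPlace_mul, inv_mul_cancel, Pts.galPlace_one]
  · rw [← Pts.galPlace_mul, mul_inv_cancel, Pts.galPlace_one]

/-- the class `[A - (deg A) P₀]` -/
def canonClass (S : HSetup N) (A : DivN N) : JZero N :=
  open Classical in
  if h : A - Finsupp.single S.P₀ (Divisor.degree A) ∈ Divisor.degZero (K := Qbar) (F := FN N)
  then Pic0.mk ⟨A - Finsupp.single S.P₀ (Divisor.degree A), h⟩ else 0

theorem IsCanon.canonClass_eq (S : HSetup N) {x : JZero N} {A : DivN N} {d : ℕ}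
    (hA : IsCanon S x A d) : canonClass S A = x := by
  classical
  have key : ∀ z : ℤ, z = (d : ℤ) →
      (if h : A - Finsupp.single S.P₀ z ∈ Divisor.degZero (K := Qbar) (F := FN N)
        then Pic0.mk ⟨A - Finsupp.single S.P₀ z, h⟩ else (0 : JZero N)) = x := by
    intro z hz
    subst hz
    rw [dif_pos hA.mem]
    exact hA.mk_eq
  exact key _ hA.degree_eq

/-- support, multiplicities of a canonical divisor -/
theorem IsCanon.support_props (S : HSetup N) {x : JZero N} {A : DivN N} {d : ℕ}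
    (hA : IsCanon S x A d) :
    (∀ P ∈ A.support, P ≠ S.P₀ ∧ 1 ≤ A P) ∧ (∀ P, 0 ≤ A P ∧ A P ≤ d) ∧ A.support.card ≤ d := by
  classical
  have h := Fermat.Agent.RRMod.isRRField_bar N
  have h0 : ∀ P, 0 ≤ A P := fun P => Finsupp.le_def.mp hA.nonneg P
  have h1 : ∀ P ∈ A.support, P ≠ S.P₀ ∧ 1 ≤ A P := by
    intro P hP
    rw [Finsupp.mem_support_iff] at hP
    refine ⟨?_, ?_⟩
    · rintro rfl
      exact hP hA.base
    · have := h0 P
      omega
  have hsum : ∑ P ∈ A.support, A P = d := by
    rw [← Fermat.Agent.RR.degree_eq_sum h A]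
    exact hA.degree_eq
  refine ⟨h1, fun P => ⟨h0 P, ?_⟩, ?_⟩
  · by_cases hP : P ∈ A.support
    · rw [← hsum]
      exact Finset.single_le_sum (f := fun P => A P) (fun Q _ => h0 Q) hP
    · rw [Finsupp.notMem_support_iff.mp hP]
      exact Int.natCast_nonneg d
  · have h2 : (A.support.card : ℤ) ≤ d := by
      rw [← hsum, Finset.card_eq_sum_ones, Nat.cast_sum]
      refine Finset.sum_le_sum fun P hP => ?_
      simpa using (h1 P hP).2
    exact_mod_cast h2

/-- the height of the family of the `a`-th coordinates of the points of an effective divisor is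
at most `e · n(A)` -/
theorem famHeight_le_nHeight (S : HSetup N) {A : DivN N} (h1 : ∀ P ∈ A.support, 1 ≤ A P)
    (a : Fin (S.r + 1)) :
    (famHeight S.𝔸 A.support (fun P => val P (S.φ a))).total ≤ S.e * nHeight S A := by
  classical
  have he : (S.e : ℝ) ≠ 0 := by
    have := S.e_large
    have : 0 < S.e := by omega
    exact_mod_cast this.ne'
  have hGfin : Function.HasFiniteSupport
      (fun v : S.𝔸.ι => ∑ P ∈ A.support, (A P : ℝ) * lamloc S.𝔸 v S.φ P) := by
    refine ((A.support.finite_toSet.biUnion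
      fun P _ => S.isEmbBasis.lamloc_finite S.𝔸 P)).subset ?_
    intro v hv
    by_contra hcon
    apply hv
    refine Finset.sum_eq_zero fun P hP => ?_
    have h0 : lamloc S.𝔸 v S.φ P = 0 := by
      by_contra h0
      exact hcon (Set.mem_biUnion (Finset.mem_coe.2 hP) h0)
    rw [h0, mul_zero]
  have hle : (famHeight S.𝔸 A.support (fun P => val P (S.φ a))).total
      ≤ ∑ᶠ v : S.𝔸.ι, ∑ P ∈ A.support, (A P : ℝ) * lamloc S.𝔸 v S.φ P := by
    refine finsum_le_finsum' (MConst.hasFiniteSupport _) hGfin fun v => ?_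
    rw [show (famHeight S.𝔸 A.support (fun P => val P (S.φ a))).c v
      = ∑ P ∈ A.support, Real.log (max 1 (S.𝔸.abv v (val P (S.φ a)))) from rfl]
    refine Finset.sum_le_sum fun P hP => ?_
    have h2 := S.isEmbBasis.logPlus_le_lamloc S.𝔸 v P a
    have h3 := S.isEmbBasis.lamloc_nonneg S.𝔸 v P
    have h4 : (1 : ℝ) ≤ (A P : ℝ) := by exact_mod_cast h1 P hP
    calc Real.log (max 1 (S.𝔸.abv v (val P (S.φ a)))) ≤ lamloc S.𝔸 v S.φ P := h2
      _ = 1 * lamloc S.𝔸 v S.φ P := (one_mul _).symm
      _ ≤ (A P : ℝ) * lamloc S.𝔸 v S.φ P := mul_le_mul_of_nonneg_right h4 h3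
  refine le_trans hle (le_of_eq ?_)
  unfold nHeight
  rw [← mul_assoc, mul_one_div, div_self he, one_mul]

/-- **Northcott**: finitely many rational classes have a canonical divisor of bounded height. -/
theorem northcott_finite (S : HSetup N) (B : ℝ) :
    {x : MW N | ∃ (A : DivN N) (d : ℕ), IsCanon S x A d ∧ nHeight S A ≤ B}.Finite := by
  classical
  have h := Fermat.Agent.RRMod.isRRField_bar N
  have heL := S.e_large
  have hepos : (0 : ℝ) ≤ S.e := Nat.cast_nonneg _
  -- the finite set of coordinates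
  have hZfin : (northcottSet S.𝔸 (genusFF Qbar (FN N)) (S.e * B)).Finite :=
    finite_northcottSet _ _ _
  -- the finite set of points
  have hPfin : {P : PtN N | P ≠ S.P₀ ∧ ∀ a, val P (S.φ a) ∈
      northcottSet S.𝔸 (genusFF Qbar (FN N)) (S.e * B)}.Finite := by
    have hpi : (Set.univ.pi fun _ : Fin (S.r + 1) =>
        northcottSet S.𝔸 (genusFF Qbar (FN N)) (S.e * B)).Finite := Set.Finite.pi fun _ => hZfin
    refine Set.Finite.of_finite_image (f := fun P : PtN N => fun a => val P (S.φ a))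
      (hpi.subset ?_) ?_
    · rintro _ ⟨P, hP, rfl⟩
      exact fun a _ => hP.2 a
    · intro P hP Q hQ hPQ
      exact S.isEmbBasis.eq_of_val_eq h (by omega) hP.1 hQ.1 (fun a => congrFun hPQ a)
  -- the finite set of divisors
  have hAfin : (↑(hPfin.toFinset.finsupp fun _ => Finset.Icc (0 : ℤ) (genusFF Qbar (FN N)))
      : Set (DivN N)).Finite := Finset.finite_toSet _
  refine Set.Finite.of_finite_image (f := fun x : MW N => (x : JZero N))
    ((hAfin.image (canonClass S)).subset ?_) Subtype.val_injective.injOn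
  rintro _ ⟨x, ⟨A, d, hA, hB⟩, rfl⟩
  refine ⟨A, ?_, hA.canonClass_eq S⟩
  obtain ⟨hstab, hdg⟩ := Move.IsCanon.galStable S hA
  obtain ⟨hs1, hs2, hs3⟩ := hA.support_props S
  rw [Finset.mem_coe, Finset.mem_finsupp_iff]
  refine ⟨fun P hP => ?_, fun P _ => ?_⟩
  · rw [Set.Finite.mem_toFinset]
    refine ⟨(hs1 P hP).1, fun a => ?_⟩
    refine northcott_roots S.𝔸 (genusFF Qbar (FN N)) (S.e * B) A.support
      (fun P => val P (S.φ a)) (le_trans hs3 hdg) (fun σ => hstab.prod_fixed S a σ) ?_ hP
    refine le_trans (famHeight_le_nHeight S (fun P hP => (hs1 P hP).2) a) ?_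
    exact mul_le_mul_of_nonneg_left hB hepos
  · rw [Finset.mem_Icc]
    refine ⟨(hs2 P).1, le_trans (hs2 P).2 ?_⟩
    exact_mod_cast hdg

/-- **Seat GC (G8): canonical divisors and Northcott.** -/
theorem northcottThm (S : HSetup N) : NorthcottThm S := by
  refine ⟨fun x => ?_, fun x A d hA => nHeight_nonneg S hA.nonneg, fun B => northcott_finite S B⟩
  obtain ⟨A, d, hA, -, -⟩ := Move.exists_isCanon S x
  exact ⟨A, d, hA⟩

end Fermat.Agent.S17
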