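import Mathlib
import Fermat.Agent.S17.H.ImmSec
import Fermat.Agent.S17.H.GaussMore

set_option autoImplicit false
set_option linter.unusedSectionVars false
set_option linter.style.longLine false

/-!
# S17, package H, seat L6 (LC ≥): the lower half of the local decomposition theorem

For `f ∈ V_j = L(j e P₀)`, `f ≠ 0`, a place `P`, `m = Z_f(P)`, `π` a uniformizer at `P`:

`log |lead_P f|_v - j log ‖coord P‖_v ≥ log ‖f‖_v + m log θ_v(P;π) - Σ_{c ≠ P} Z_f(c) g_v(P,c) - γ_v`.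

Proof (blueprint L6): for each zero `c` of `f` choose a linear form `l_c = c_b φ_a - c_a φ_b`
through `c` (with `|l_c(P)|_v` maximal, resp. with maximal leading coefficient if `c = P`);
`G = ∏ l_c^{Z_f(c)} ∈ V_{je}` vanishes on `Z_f`, so `G = f k₁` with `k₁ ∈ V_{je-j}` and `k₁(P) ≠ 0`.
Evaluate at `P`, use GAUSS (`‖f‖ ‖k₁‖ ≤ C ‖G‖ ≤ C' ∏ ‖l_c‖`) and `|k₁|_v(P) ≤ C ‖k₁‖_v`.

Main result: `localDecompGe`.
-/

noncomputable section

open AlgebraicCurve Fermat.Agent.RR

namespace Fermat.Agent.S17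

variable {F : Type*} [Field F] [Algebra Qbar F]

/-! ### Part 0: sections of `V_j = L(j e P₀)` -/

section sections

variable {P₀ : Place Qbar F} {e : ℕ}

theorem lcg_mem_secSpace_iff {j : ℕ} {f : F} (hf : f ≠ 0) :
    f ∈ secSpace P₀ e j ↔ ∀ P : Place Qbar F,
      -(Finsupp.single P₀ ((j * e : ℕ) : ℤ)) P ≤ P.ord f := by
  unfold secSpace
  rw [mem_riemannRochSpace_iff]
  exact forall_congr' fun P => by simp [hf]

theorem lcg_one_mem (j : ℕ) : (1 : F) ∈ secSpace P₀ e j := by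
  classical
  rw [lcg_mem_secSpace_iff one_ne_zero]
  intro P
  rw [Place.ord_one, Finsupp.single_apply]
  split_ifs
  · simp only [Nat.cast_mul, Left.neg_nonpos_iff]
    positivity
  · simp

theorem lcg_degree_zdiv (h : IsRRField Qbar F) (j : ℕ) (f : F) :
    Divisor.degree (zdiv h P₀ e j f) = ((j * e : ℕ) : ℤ) := by
  unfold zdiv
  rw [map_add, degree_divOf, zero_add, degree_single_one h]

/-- The order of the normalised function `f / φ_{a₀}^j` at `P` is `Z_f(P)`. -/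
theorem lcg_ord_div_pivot_pow (h : IsRRField Qbar F) {r : ℕ} {φ : Fin (r + 1) → F}
    (hφ : IsEmbBasis P₀ e φ)
    (he : 2 * genusFF Qbar F ≤ e) (j : ℕ) {f : F} (hf0 : f ≠ 0) (P : Place Qbar F) :
    P.ord (f / φ (pivot φ P) ^ j) = zdiv h P₀ e j f P := by
  classical
  have hp := hφ.ord_pivot h he P
  have hne : φ (pivot φ P) ^ j ≠ 0 := pow_ne_zero _ (hφ.ne_zero _)
  rw [zdiv_apply, div_eq_mul_inv, P.ord_mul hf0 (inv_ne_zero hne), P.ord_inv,
    ← zpow_natCast, P.ord_zpow, hp]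
  rw [Finsupp.single_apply, Finsupp.single_apply]
  split_ifs
  · push_cast; ring
  · simp

end sections

/-! ### Part 1: linear forms through a point -/

section linforms

variable {P₀ : Place Qbar F} {e r : ℕ} {φ : Fin (r + 1) → F}

/-- the linear form `x_b φ_a - x_a φ_b`, `x = coord c`, which vanishes at `c` -/
def lcgLin (φ : Fin (r + 1) → F) (c : Place Qbar F) (a b : Fin (r + 1)) : F :=
  algebraMap Qbar F (coord φ c b) * φ a - algebraMap Qbar F (coord φ c a) * φ b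

theorem lcg_phi_mem (hφ : IsEmbBasis P₀ e φ) (a : Fin (r + 1)) : φ a ∈ secSpace P₀ e 1 := by
  rw [← hφ.span_eq]
  exact Submodule.subset_span ⟨a, rfl⟩

theorem lcgLin_mem (hφ : IsEmbBasis P₀ e φ) (c : Place Qbar F) (a b : Fin (r + 1)) :
    lcgLin φ c a b ∈ secSpace P₀ e 1 := by
  unfold lcgLin
  rw [← Algebra.smul_def, ← Algebra.smul_def]
  exact Submodule.sub_mem _ (Submodule.smul_mem _ _ (lcg_phi_mem hφ a))
    (Submodule.smul_mem _ _ (lcg_phi_mem hφ b))

theorem lcg_ord_smul_nonneg (P : Place Qbar F) (x : Qbar) {u : F} (hu : 0 ≤ P.ord u) :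
    0 ≤ P.ord (x • u) := by
  rw [Algebra.smul_def]
  rcases eq_or_ne x 0 with h0 | h0
  · rw [h0, map_zero, zero_mul, Place.ord_zero]
  rcases eq_or_ne u 0 with h1 | h1
  · rw [h1, mul_zero, Place.ord_zero]
  · rw [P.ord_mul ((map_ne_zero _).2 h0) h1, Fermat.Agent.S24Res.ord_algebraMap]
    linarith

/-- the value at `P` of the linear form through `c` is a `2 × 2` minor of the coordinates -/
theorem lcg_val_lin (h : IsRRField Qbar F) (hφ : IsEmbBasis P₀ e φ) (P c : Place Qbar F)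
    (a b : Fin (r + 1)) :
    val P (lcgLin φ c a b / φ (pivot φ P)) =
      coord φ P a * coord φ c b - coord φ P b * coord φ c a := by
  unfold lcgLin val
  rw [sub_div, mul_div_assoc, mul_div_assoc, ← Algebra.smul_def, ← Algebra.smul_def]
  have ha := hφ.ord_div_pivot_nonneg P a
  have hb := hφ.ord_div_pivot_nonneg P b
  have hsa := lcg_ord_smul_nonneg P (coord φ c b) ha
  have hsb := lcg_ord_smul_nonneg P (coord φ c a) hb
  rw [Pts.ev_sub h P hsa hsb, Pts.ev_smul_const h P _ ha, Pts.ev_smul_const h P _ hb]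
  unfold coord val
  ring

/-- a nonzero linear form through `c` vanishes at `c` (as a section of `V_1`) -/
theorem lcg_zdiv_lin_pos (h : IsRRField Qbar F) (hφ : IsEmbBasis P₀ e φ)
    (he : 2 * genusFF Qbar F ≤ e)
    (c : Place Qbar F) (a b : Fin (r + 1)) (hne : lcgLin φ c a b ≠ 0) :
    1 ≤ zdiv h P₀ e 1 (lcgLin φ c a b) c := by
  have h1 := lcg_ord_div_pivot_pow h hφ he 1 hne c
  rw [pow_one] at h1
  have h2 := lcg_val_lin h hφ c c a b
  have h3 : val c (lcgLin φ c a b / φ (pivot φ c)) = 0 := by rw [h2]; ring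
  have hmem := lcgLin_mem hφ c a b
  have h0 : 0 ≤ c.ord (lcgLin φ c a b / φ (pivot φ c)) := by
    rw [h1]
    exact zdiv_nonneg h P₀ e 1 hmem hne c
  have h4 := (Pts.ev_eq_zero_iff h c (div_ne_zero hne (hφ.ne_zero _)) h0).1 h3
  rw [h1] at h4
  omega

end linforms

/-! ### Part 2: bases and the Gauss chain for products of linear forms -/

section chain

variable {P₀ : Place Qbar F} {e r : ℕ} {φ : Fin (r + 1) → F}

/-- every `V_n` has a basis indexed by some `Fin (d + 1)` -/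
theorem lcg_exists_basis (h : IsRRField Qbar F) (P₀ : Place Qbar F) (e n : ℕ) :
    ∃ d : ℕ, Nonempty (Module.Basis (Fin (d + 1)) Qbar (secSpace P₀ e n)) := by
  have hfin : Module.Finite Qbar (secSpace P₀ e n) := by
    unfold secSpace
    exact finite_riemannRochSpace h _
  have hnt : Nontrivial (secSpace P₀ e n) :=
    ⟨⟨⟨1, lcg_one_mem n⟩, 0, fun h0 => one_ne_zero (congrArg Subtype.val h0)⟩⟩
  have hpos : 0 < Module.finrank Qbar (secSpace P₀ e n) := Module.finrank_pos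
  refine ⟨Module.finrank Qbar (secSpace P₀ e n) - 1, ⟨?_⟩⟩
  exact (Module.finBasis Qbar (secSpace P₀ e n)).reindex (finCongr (by omega))

/-- the basis of `V_1` given by `φ` -/
def lcgBasis (hφ : IsEmbBasis P₀ e φ) : Module.Basis (Fin (r + 1)) Qbar (secSpace P₀ e 1) :=
  (Module.Basis.span hφ.linearIndependent).map (LinearEquiv.ofEq _ _ hφ.span_eq)

theorem lcgBasis_apply (hφ : IsEmbBasis P₀ e φ) (a : Fin (r + 1)) :
    ((lcgBasis hφ a : secSpace P₀ e 1) : F) = φ a := by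
  unfold lcgBasis
  rw [Module.Basis.map_apply]
  simp [Module.Basis.span_apply]

theorem lcgLin_repr (hφ : IsEmbBasis P₀ e φ) (c : Place Qbar F) (a b i : Fin (r + 1)) :
    (lcgBasis hφ).repr ⟨lcgLin φ c a b, lcgLin_mem hφ c a b⟩ i =
      coord φ c b * (if a = i then 1 else 0) - coord φ c a * (if b = i then 1 else 0) := by
  classical
  have hx : (⟨lcgLin φ c a b, lcgLin_mem hφ c a b⟩ : secSpace P₀ e 1) =
      coord φ c b • lcgBasis hφ a - coord φ c a • lcgBasis hφ b := by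
    apply Subtype.ext
    simp only [Submodule.coe_sub, Submodule.coe_smul, lcgBasis_apply]
    unfold lcgLin
    rw [Algebra.smul_def, Algebra.smul_def]
  rw [hx, map_sub, map_smul, map_smul, Module.Basis.repr_self, Module.Basis.repr_self,
    Finsupp.sub_apply, Finsupp.smul_apply, Finsupp.smul_apply, Finsupp.single_apply,
    Finsupp.single_apply, smul_eq_mul, smul_eq_mul]

/-- the coefficient norm of a linear form through `c` is at most `‖coord c‖_v` -/
theorem lcg_cnorm_lin_le (𝔸 : AbsSys) (v : 𝔸.ι) (hφ : IsEmbBasis P₀ e φ) (c : Place Qbar F)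
    (a b : Fin (r + 1)) :
    cnorm 𝔸 v (lcgBasis hφ) (lcgLin φ c a b) ≤ vnorm 𝔸 v (coord φ c) := by
  rw [gauss_cnorm_of_mem 𝔸 v (lcgBasis hφ) (lcgLin_mem hφ c a b)]
  refine Finset.sup'_le _ _ fun i _ => ?_
  beta_reduce
  rw [lcgLin_repr]
  by_cases hai : a = i
  · by_cases hbi : b = i
    · rw [if_pos hai, if_pos hbi, hai, hbi, sub_self, map_zero]
      exact vnorm_nonneg 𝔸 v _
    · rw [if_pos hai, if_neg hbi, mul_one, mul_zero, sub_zero]
      exact abv_le_vnorm 𝔸 v _ b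
  · by_cases hbi : b = i
    · rw [if_neg hai, if_pos hbi, mul_one, mul_zero, zero_sub, AbsoluteValue.map_neg]
      exact abv_le_vnorm 𝔸 v _ a
    · rw [if_neg hai, if_neg hbi, mul_zero, mul_zero, sub_zero, map_zero]
      exact vnorm_nonneg 𝔸 v _

theorem lcg_list_prod_mem : ∀ (L : List F), (∀ l ∈ L, l ∈ secSpace P₀ e 1) →
    L.prod ∈ secSpace P₀ e L.length := by
  intro L
  induction L with
  | nil => intro _; simpa using lcg_one_mem (P₀ := P₀) (e := e) 0
  | cons l L ih =>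
    intro hL
    rw [List.prod_cons, List.length_cons, Nat.add_comm]
    exact gauss_secSpace_mul_mem P₀ e 1 L.length (hL l (List.mem_cons_self))
      (ih fun x hx => hL x (List.mem_cons_of_mem _ hx))

/-- **Gauss chain**: the coefficient norm of a product of `n + 1` linear forms is at most the
product of the coefficient norms, up to an `M`-constant. -/
theorem lcg_chain (𝔸 : AbsSys) (h : IsRRField Qbar F) (hφ : IsEmbBasis P₀ e φ) :
    ∀ (n : ℕ) {d : ℕ} (B : Module.Basis (Fin (d + 1)) Qbar (secSpace P₀ e (n + 1))),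
      ∃ Γ : MConst 𝔸, ∀ (v : 𝔸.ι) (L : List F), L.length = n + 1 →
        (∀ l ∈ L, l ∈ secSpace P₀ e 1 ∧ l ≠ 0) →
          Real.log (cnorm 𝔸 v B L.prod) ≤
            (L.map fun l => Real.log (cnorm 𝔸 v (lcgBasis hφ) l)).sum + Γ v := by
  intro n
  induction n with
  | zero =>
    intro d B
    obtain ⟨γ, hγ⟩ := gauss_cnorm_basis_change 𝔸 B (lcgBasis hφ)
    refine ⟨γ, fun v L hlen hL => ?_⟩
    obtain ⟨l, rfl⟩ := List.length_eq_one_iff.mp hlen
    have hl := hL l (List.mem_singleton_self l)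
    have := hγ v l hl.1 hl.2
    rw [abs_le] at this
    simp only [List.prod_singleton, List.map_cons, List.map_nil, List.sum_cons, List.sum_nil,
      add_zero]
    linarith [this.2]
  | succ n ih =>
    intro d B
    obtain ⟨d', ⟨B'⟩⟩ := lcg_exists_basis h P₀ e (n + 1)
    obtain ⟨Γ', hΓ'⟩ := ih B'
    obtain ⟨γ, hγ⟩ := gaussNorm_of_mul 𝔸 (lcgBasis hφ) B' B (fun f hf f' hf' => by
      have := gauss_secSpace_mul_mem P₀ e 1 (n + 1) hf hf'
      rwa [Nat.add_comm] at this)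
    refine ⟨Γ' + γ, fun v L hlen hL => ?_⟩
    match L, hlen, hL with
    | [], hlen, _ => simp at hlen
    | l :: L', hlen, hL =>
      have hlen' : L'.length = n + 1 := by simpa using hlen
      have hL' : ∀ x ∈ L', x ∈ secSpace P₀ e 1 ∧ x ≠ 0 :=
        fun x hx => hL x (List.mem_cons_of_mem _ hx)
      have hl := hL l List.mem_cons_self
      have hmem : L'.prod ∈ secSpace P₀ e (n + 1) := by
        have := lcg_list_prod_mem (P₀ := P₀) (e := e) L' fun x hx => (hL' x hx).1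
        rwa [hlen'] at this
      have hne : L'.prod ≠ 0 := by
        rw [Ne, List.prod_eq_zero_iff]
        intro h0
        exact (hL' 0 h0).2 rfl
      have h1 := hΓ' v L' hlen' hL'
      have h2 := hγ v l L'.prod hl.1 hl.2 hmem hne
      rw [abs_le] at h2
      simp only [List.prod_cons, List.map_cons, List.sum_cons, MConst.add_apply]
      linarith [h2.2]

end chain

/-! ### Part 3: the Gauss chain for products over a finite set, with multiplicities -/

section finsetform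

variable {P₀ : Place Qbar F} {e r : ℕ} {φ : Fin (r + 1) → F}

/-- the list of the `l c`, each repeated `n c` times -/
def lcgList {ι : Type*} (S : Finset ι) (l : ι → F) (n : ι → ℕ) : List F :=
  S.toList.flatMap fun c => List.replicate (n c) (l c)

theorem lcgList_prod {ι : Type*} (S : Finset ι) (l : ι → F) (n : ι → ℕ) :
    (lcgList S l n).prod = ∏ c ∈ S, l c ^ n c := by
  unfold lcgList
  rw [List.flatMap_def, List.prod_flatten, List.map_map, ← Finset.prod_map_toList]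
  congr 1
  apply List.map_congr_left
  intro c _
  simp

theorem lcgList_length {ι : Type*} (S : Finset ι) (l : ι → F) (n : ι → ℕ) :
    (lcgList S l n).length = ∑ c ∈ S, n c := by
  unfold lcgList
  rw [List.length_flatMap, ← Finset.sum_map_toList]
  congr 1
  apply List.map_congr_left
  intro c _
  simp

theorem lcgList_sum_map {ι : Type*} (S : Finset ι) (l : ι → F) (n : ι → ℕ) (g : F → ℝ) :
    ((lcgList S l n).map g).sum = ∑ c ∈ S, (n c : ℝ) * g (l c) := by
  unfold lcgList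
  rw [List.map_flatMap, List.flatMap_def, List.sum_flatten, List.map_map,
    ← Finset.sum_map_toList]
  congr 1
  apply List.map_congr_left
  intro c _
  simp

theorem lcgList_mem {ι : Type*} (S : Finset ι) (l : ι → F) (n : ι → ℕ) {x : F}
    (hx : x ∈ lcgList S l n) : ∃ c ∈ S, x = l c := by
  unfold lcgList at hx
  rw [List.mem_flatMap] at hx
  obtain ⟨c, hc, hxc⟩ := hx
  exact ⟨c, Finset.mem_toList.mp hc, (List.mem_replicate.mp hxc).2⟩

theorem lcg_prod_mem (S : Finset (Place Qbar F)) (l : Place Qbar F → F) (n : Place Qbar F → ℕ)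
    (hl : ∀ c ∈ S, l c ∈ secSpace P₀ e 1) :
    ∏ c ∈ S, l c ^ n c ∈ secSpace P₀ e (∑ c ∈ S, n c) := by
  rw [← lcgList_prod, ← lcgList_length S l n]
  refine lcg_list_prod_mem _ fun x hx => ?_
  obtain ⟨c, hc, rfl⟩ := lcgList_mem S l n hx
  exact hl c hc

/-- **Gauss chain**, form with multiplicities. -/
theorem lcg_chain_finset (𝔸 : AbsSys) (h : IsRRField Qbar F) (hφ : IsEmbBasis P₀ e φ)
    (N : ℕ) (hN : 1 ≤ N) {d : ℕ} (B : Module.Basis (Fin (d + 1)) Qbar (secSpace P₀ e N)) :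
    ∃ Γ : MConst 𝔸, ∀ (v : 𝔸.ι) (S : Finset (Place Qbar F)) (l : Place Qbar F → F)
      (n : Place Qbar F → ℕ), ∑ c ∈ S, n c = N → (∀ c ∈ S, l c ∈ secSpace P₀ e 1 ∧ l c ≠ 0) →
        Real.log (cnorm 𝔸 v B (∏ c ∈ S, l c ^ n c)) ≤
          ∑ c ∈ S, (n c : ℝ) * Real.log (cnorm 𝔸 v (lcgBasis hφ) (l c)) + Γ v := by
  obtain ⟨n', rfl⟩ : ∃ n', N = n' + 1 := ⟨N - 1, by omega⟩
  obtain ⟨Γ, hΓ⟩ := lcg_chain 𝔸 h hφ n' B
  refine ⟨Γ, fun v S l n hsum hl => ?_⟩
  have := hΓ v (lcgList S l n) (by rw [lcgList_length, hsum]) (fun x hx => by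
    obtain ⟨c, hc, rfl⟩ := lcgList_mem S l n hx
    exact hl c hc)
  rwa [lcgList_prod, lcgList_sum_map] at this

end finsetform

/-! ### Part 4: orders and values of products -/

section products

theorem lcg_ord_mul_nonneg (P : Place Qbar F) {f g : F} (hf : 0 ≤ P.ord f) (hg : 0 ≤ P.ord g) :
    0 ≤ P.ord (f * g) := by
  rcases eq_or_ne f 0 with h0 | h0
  · rw [h0, zero_mul, Place.ord_zero]
  rcases eq_or_ne g 0 with h1 | h1
  · rw [h1, mul_zero, Place.ord_zero]
  rw [P.ord_mul h0 h1]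
  linarith

theorem lcg_ord_pow_nonneg (P : Place Qbar F) {f : F} (hf : 0 ≤ P.ord f) (n : ℕ) :
    0 ≤ P.ord (f ^ n) := by
  rw [imm_ord_pow]
  positivity

theorem lcg_ord_prod (Q : Place Qbar F) (S : Finset (Place Qbar F)) (u : Place Qbar F → F)
    (n : Place Qbar F → ℕ) (hu : ∀ c ∈ S, u c ≠ 0) :
    Q.ord (∏ c ∈ S, u c ^ n c) = ∑ c ∈ S, (n c : ℤ) * Q.ord (u c) := by
  classical
  induction S using Finset.induction_on with
  | empty => simp
  | insert a S ha ih =>
    rw [Finset.prod_insert ha, Finset.sum_insert ha]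
    have hne1 : u a ^ n a ≠ 0 := pow_ne_zero _ (hu a (Finset.mem_insert_self a S))
    have hne2 : ∏ c ∈ S, u c ^ n c ≠ 0 :=
      Finset.prod_ne_zero_iff.mpr fun c hc => pow_ne_zero _ (hu c (Finset.mem_insert_of_mem hc))
    rw [Q.ord_mul hne1 hne2, imm_ord_pow, ih fun c hc => hu c (Finset.mem_insert_of_mem hc)]

theorem lcg_ev_prod (h : IsRRField Qbar F) (P : Place Qbar F) (S : Finset (Place Qbar F))
    (u : Place Qbar F → F) (n : Place Qbar F → ℕ) (hu : ∀ c ∈ S, 0 ≤ P.ord (u c)) :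
    0 ≤ P.ord (∏ c ∈ S, u c ^ n c) ∧
      val P (∏ c ∈ S, u c ^ n c) = ∏ c ∈ S, val P (u c) ^ n c := by
  classical
  induction S using Finset.induction_on with
  | empty =>
    simp only [Finset.prod_empty]
    exact ⟨by rw [Place.ord_one], Pts.ev_one P⟩
  | insert a S ha ih =>
    rw [Finset.prod_insert ha, Finset.prod_insert ha]
    obtain ⟨ih1, ih2⟩ := ih fun c hc => hu c (Finset.mem_insert_of_mem hc)
    have h1 := lcg_ord_pow_nonneg P (hu a (Finset.mem_insert_self a S)) (n a)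
    refine ⟨lcg_ord_mul_nonneg P h1 ih1, ?_⟩
    unfold val at ih2 ⊢
    rw [Pts.ev_mul h P h1 ih1, Pts.ev_pow h P (hu a (Finset.mem_insert_self a S)), ih2]

end products

/-! ### Part 5: the choice of the linear forms -/

section forms

variable {P₀ : Place Qbar F} {e r : ℕ} {φ : Fin (r + 1) → F}

/-- a linear form through `c ≠ P` whose value at `P` has maximal size -/
theorem lcg_exists_form_ne (𝔸 : AbsSys) (v : 𝔸.ι) (h : IsRRField Qbar F)
    (hφ : IsEmbBasis P₀ e φ) (he : 2 * genusFF Qbar F + 1 ≤ e) {P c : Place Qbar F}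
    (hc : c ≠ P) :
    ∃ a b, lcgLin φ c a b ≠ 0 ∧ P.ord (lcgLin φ c a b / φ (pivot φ P)) = 0 ∧
      𝔸.abv v (val P (lcgLin φ c a b / φ (pivot φ P))) =
        wnorm 𝔸 v (coord φ P) (coord φ c) := by
  have he' : 2 * genusFF Qbar F ≤ e := by omega
  obtain ⟨p, -, hp⟩ := Finset.exists_mem_eq_sup' Finset.univ_nonempty
    fun p : Fin (r + 1) × Fin (r + 1) =>
      𝔸.abv v (coord φ P p.1 * coord φ c p.2 - coord φ P p.2 * coord φ c p.1)
  have hw : wnorm 𝔸 v (coord φ P) (coord φ c) =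
      𝔸.abv v (coord φ P p.1 * coord φ c p.2 - coord φ P p.2 * coord φ c p.1) := hp
  have hpos := hφ.wnorm_coord_pos 𝔸 v h he (Ne.symm hc)
  have hval := lcg_val_lin h hφ P c p.1 p.2
  have habs : 𝔸.abv v (val P (lcgLin φ c p.1 p.2 / φ (pivot φ P))) =
      wnorm 𝔸 v (coord φ P) (coord φ c) := by rw [hval, hw]
  have hvne : val P (lcgLin φ c p.1 p.2 / φ (pivot φ P)) ≠ 0 := by
    intro h0
    rw [h0, map_zero] at habs
    exact absurd habs hpos.ne
  have hne : lcgLin φ c p.1 p.2 ≠ 0 := by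
    intro h0
    apply hvne
    rw [h0, zero_div]
    exact Pts.ev_zero P
  refine ⟨p.1, p.2, hne, ?_, habs⟩
  have h1 := lcg_ord_div_pivot_pow h hφ he' 1 hne P
  rw [pow_one] at h1
  have h2 := zdiv_nonneg h P₀ e 1 (lcgLin_mem hφ c p.1 p.2) hne P
  have h3 : 0 ≤ P.ord (lcgLin φ c p.1 p.2 / φ (pivot φ P)) := by rw [h1]; exact h2
  by_contra hcon
  have h4 : 0 < P.ord (lcgLin φ c p.1 p.2 / φ (pivot φ P)) := lt_of_le_of_ne h3 (Ne.symm hcon)
  exact hvne ((Pts.ev_eq_zero_iff h P (div_ne_zero hne (hφ.ne_zero _)) h3).2 h4)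

/-- a linear form through `P` whose leading coefficient at `P` has maximal size -/
theorem lcg_exists_form_eq (𝔸 : AbsSys) (v : 𝔸.ι) (h : IsRRField Qbar F)
    (hφ : IsEmbBasis P₀ e φ) (he : 2 * genusFF Qbar F + 1 ≤ e) (P : Place Qbar F) {π : F}
    (hπ : P.ord π = 1) :
    ∃ a b, lcgLin φ P a b ≠ 0 ∧ P.ord (lcgLin φ P a b / (φ (pivot φ P) * π)) = 0 ∧
      𝔸.abv v (val P (lcgLin φ P a b / (φ (pivot φ P) * π))) =
        theta 𝔸 v φ P π * vnorm 𝔸 v (coord φ P) ^ 2 := by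
  have he' : 2 * genusFF Qbar F ≤ e := by omega
  have hπ0 : π ≠ 0 := by
    rintro rfl
    rw [P.ord_zero] at hπ
    exact zero_ne_one hπ
  obtain ⟨p, -, hp⟩ := Finset.exists_mem_eq_sup' Finset.univ_nonempty
    fun p : Fin (r + 1) × Fin (r + 1) =>
      𝔸.abv v (val P ((algebraMap Qbar F (coord φ P p.2) * φ p.1
        - algebraMap Qbar F (coord φ P p.1) * φ p.2) / (φ (pivot φ P) * π)))
  have hnorm := hφ.vnorm_coord_pos 𝔸 v P
  have hθ : theta 𝔸 v φ P π * vnorm 𝔸 v (coord φ P) ^ 2 =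
      𝔸.abv v (val P (lcgLin φ P p.1 p.2 / (φ (pivot φ P) * π))) := by
    unfold theta
    rw [div_mul_cancel₀ _ (pow_pos hnorm 2).ne']
    exact hp
  have hpos : 0 < theta 𝔸 v φ P π * vnorm 𝔸 v (coord φ P) ^ 2 :=
    mul_pos (hφ.theta_pos 𝔸 v h he P hπ) (pow_pos hnorm 2)
  have hvne : val P (lcgLin φ P p.1 p.2 / (φ (pivot φ P) * π)) ≠ 0 := by
    intro h0
    rw [hθ, h0, map_zero] at hpos
    exact lt_irrefl _ hpos
  have hne : lcgLin φ P p.1 p.2 ≠ 0 := by
    intro h0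
    apply hvne
    rw [h0, zero_div]
    exact Pts.ev_zero P
  refine ⟨p.1, p.2, hne, ?_, hθ.symm⟩
  have h1 := lcg_ord_div_pivot_pow h hφ he' 1 hne P
  rw [pow_one] at h1
  have h2 := lcg_zdiv_lin_pos h hφ he' P p.1 p.2 hne
  have hdne : lcgLin φ P p.1 p.2 / (φ (pivot φ P) * π) ≠ 0 :=
    div_ne_zero hne (mul_ne_zero (hφ.ne_zero _) hπ0)
  have h3 : P.ord (lcgLin φ P p.1 p.2 / (φ (pivot φ P) * π)) =
      zdiv h P₀ e 1 (lcgLin φ P p.1 p.2) P - 1 := by
    rw [← div_div, imm_ord_div P (div_ne_zero hne (hφ.ne_zero _)) hπ0, h1, hπ]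
  have h4 : 0 ≤ P.ord (lcgLin φ P p.1 p.2 / (φ (pivot φ P) * π)) := by rw [h3]; omega
  by_contra hcon
  have h5 : 0 < P.ord (lcgLin φ P p.1 p.2 / (φ (pivot φ P) * π)) :=
    lt_of_le_of_ne h4 (Ne.symm hcon)
  exact hvne ((Pts.ev_eq_zero_iff h P hdne h4).2 h5)

open Classical in
/-- the family of linear forms used in the proof of `localDecompGe` -/
theorem lcg_exists_forms (𝔸 : AbsSys) (v : 𝔸.ι) (h : IsRRField Qbar F)
    (hφ : IsEmbBasis P₀ e φ) (he : 2 * genusFF Qbar F + 1 ≤ e) (P : Place Qbar F) {π : F}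
    (hπ : P.ord π = 1) :
    ∃ l : Place Qbar F → F, ∀ c,
      (l c ∈ secSpace P₀ e 1 ∧ l c ≠ 0) ∧
      cnorm 𝔸 v (lcgBasis hφ) (l c) ≤ vnorm 𝔸 v (coord φ c) ∧
      1 ≤ zdiv h P₀ e 1 (l c) c ∧
      P.ord (l c / (if c = P then φ (pivot φ P) * π else φ (pivot φ P))) = 0 ∧
      𝔸.abv v (val P (l c / (if c = P then φ (pivot φ P) * π else φ (pivot φ P)))) =
        (if c = P then theta 𝔸 v φ P π * vnorm 𝔸 v (coord φ P) ^ 2
          else wnorm 𝔸 v (coord φ P) (coord φ c)) := by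
  have he' : 2 * genusFF Qbar F ≤ e := by omega
  have key : ∀ c : Place Qbar F, ∃ x : F,
      (x ∈ secSpace P₀ e 1 ∧ x ≠ 0) ∧
      cnorm 𝔸 v (lcgBasis hφ) x ≤ vnorm 𝔸 v (coord φ c) ∧
      1 ≤ zdiv h P₀ e 1 x c ∧
      P.ord (x / (if c = P then φ (pivot φ P) * π else φ (pivot φ P))) = 0 ∧
      𝔸.abv v (val P (x / (if c = P then φ (pivot φ P) * π else φ (pivot φ P)))) =
        (if c = P then theta 𝔸 v φ P π * vnorm 𝔸 v (coord φ P) ^ 2
          else wnorm 𝔸 v (coord φ P) (coord φ c)) := by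
    intro c
    by_cases hc : c = P
    · subst hc
      obtain ⟨a, b, hne, hord, habs⟩ := lcg_exists_form_eq 𝔸 v h hφ he c hπ
      refine ⟨lcgLin φ c a b, ⟨lcgLin_mem hφ c a b, hne⟩, lcg_cnorm_lin_le 𝔸 v hφ c a b,
        lcg_zdiv_lin_pos h hφ he' c a b hne, ?_, ?_⟩
      · rw [if_pos rfl]; exact hord
      · rw [if_pos rfl, if_pos rfl]; exact habs
    · obtain ⟨a, b, hne, hord, habs⟩ := lcg_exists_form_ne 𝔸 v h hφ he hc
      refine ⟨lcgLin φ c a b, ⟨lcgLin_mem hφ c a b, hne⟩, lcg_cnorm_lin_le 𝔸 v hφ c a b,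
        lcg_zdiv_lin_pos h hφ he' c a b hne, ?_, ?_⟩
      · rw [if_neg hc]; exact hord
      · rw [if_neg hc, if_neg hc]; exact habs
  choose l hl using key
  exact ⟨l, hl⟩

end forms

/-! ### Part 6: the quotient `k₁ = ∏ l_c^{n_c} / f` -/

section quotient

variable {P₀ : Place Qbar F} {e r : ℕ} {φ : Fin (r + 1) → F}

/-- the product of the linear forms through the zeros of `f` is divisible by `f` -/
theorem lcg_quot_mem (h : IsRRField Qbar F) {j : ℕ} {f : F}
    (hf0 : f ≠ 0) (l : Place Qbar F → F)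
    (hl : ∀ c, (l c ∈ secSpace P₀ e 1 ∧ l c ≠ 0) ∧ 1 ≤ zdiv h P₀ e 1 (l c) c)
    (n : Place Qbar F → ℕ) (hn : ∀ c, (n c : ℤ) = zdiv h P₀ e j f c) (N K : ℕ)
    (hN : ∑ c ∈ (zdiv h P₀ e j f).support, n c = N) (hK : K + j = N) :
    (∏ c ∈ (zdiv h P₀ e j f).support, l c ^ n c) / f ∈ secSpace P₀ e K := by
  classical
  have hGne : ∏ c ∈ (zdiv h P₀ e j f).support, l c ^ n c ≠ 0 :=
    Finset.prod_ne_zero_iff.mpr fun c _ => pow_ne_zero _ (hl c).1.2
  rw [lcg_mem_secSpace_iff (div_ne_zero hGne hf0)]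
  intro Q
  rw [imm_ord_div Q hGne hf0, lcg_ord_prod Q _ _ _ (fun c _ => (hl c).1.2), imm_single_mul]
  set s : ℤ := (Finsupp.single P₀ (e : ℤ)) Q with hs
  -- the zero divisors of the linear forms
  have hz : ∀ c, zdiv h P₀ e 1 (l c) Q = Q.ord (l c) + s := by
    intro c
    rw [zdiv_apply, imm_single_mul]
    push_cast
    ring
  have hznn : ∀ c, 0 ≤ Q.ord (l c) + s := by
    intro c
    rw [← hz c]
    exact zdiv_nonneg h P₀ e 1 (hl c).1.1 (hl c).1.2 Q
  have hterm : ∀ c ∈ (zdiv h P₀ e j f).support, 0 ≤ (n c : ℤ) * (Q.ord (l c) + s) :=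
    fun c _ => mul_nonneg (Int.natCast_nonneg _) (hznn c)
  have hge : zdiv h P₀ e j f Q ≤
      ∑ c ∈ (zdiv h P₀ e j f).support, (n c : ℤ) * (Q.ord (l c) + s) := by
    by_cases hQ : Q ∈ (zdiv h P₀ e j f).support
    · refine le_trans ?_ (Finset.single_le_sum hterm hQ)
      have h1 : 1 ≤ Q.ord (l Q) + s := by rw [← hz Q]; exact (hl Q).2
      have h2 : (0 : ℤ) ≤ n Q := Int.natCast_nonneg _
      rw [← hn Q]
      nlinarith
    · rw [Finsupp.notMem_support_iff.mp hQ]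
      exact Finset.sum_nonneg hterm
  have hsumeq : ∑ c ∈ (zdiv h P₀ e j f).support, (n c : ℤ) * (Q.ord (l c) + s) =
      ∑ c ∈ (zdiv h P₀ e j f).support, (n c : ℤ) * Q.ord (l c) + (N : ℤ) * s := by
    rw [← hN, Nat.cast_sum, Finset.sum_mul, ← Finset.sum_add_distrib]
    exact Finset.sum_congr rfl fun c _ => by ring
  have hzf : zdiv h P₀ e j f Q = Q.ord f + (j : ℤ) * s := by
    rw [zdiv_apply, imm_single_mul]
  have hNK : (N : ℤ) * s = (K : ℤ) * s + (j : ℤ) * s := by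
    rw [← hK]
    push_cast
    ring
  rw [hsumeq, hzf, hNK] at hge
  linarith

open Classical in
/-- splitting off the term of `P` from a sum over a finite set of places -/
theorem lcg_sum_split (S : Finset (Place Qbar F)) (P : Place Qbar F) (g : Place Qbar F → ℝ)
    (hP : P ∉ S → g P = 0) :
    ∑ c ∈ S, g c = ∑ c ∈ S.filter (fun c => c ≠ P), g c + g P := by
  rw [Finset.sum_filter]
  have h1 : ∀ c ∈ S, g c = (if c ≠ P then g c else 0) + (if c = P then g c else 0) := by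
    intro c _
    by_cases hc : c = P
    · simp [hc]
    · simp [hc]
  have h2 : ∑ c ∈ S, g c =
      ∑ c ∈ S, ((if c ≠ P then g c else 0) + (if c = P then g c else 0)) :=
    Finset.sum_congr rfl h1
  rw [Finset.sum_add_distrib, Finset.sum_ite_eq'] at h2
  rw [h2]
  congr 1
  split_ifs with hPS
  · rfl
  · rw [hP hPS]

open Classical in
/-- the product of the denominators -/
theorem lcg_prod_denominators (S : Finset (Place Qbar F)) (P : Place Qbar F) (x π : F)
    (n : Place Qbar F → ℕ) (hP : P ∉ S → n P = 0) :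
    ∏ c ∈ S, (if c = P then x * π else x) ^ n c = x ^ (∑ c ∈ S, n c) * π ^ n P := by
  have h1 : ∀ c ∈ S, (if c = P then x * π else x) ^ n c =
      x ^ n c * (if c = P then π ^ n c else 1) := by
    intro c _
    by_cases hc : c = P
    · simp [hc, mul_pow]
    · simp [hc]
  rw [Finset.prod_congr rfl h1, Finset.prod_mul_distrib, Finset.prod_pow_eq_pow_sum,
    Finset.prod_ite_eq']
  congr 1
  split_ifs with hPS
  · rfl
  · rw [hP hPS, pow_zero]

end quotient

/-! ### Part 7: the theorem -/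

section main

variable {P₀ : Place Qbar F} {e r : ℕ} {φ : Fin (r + 1) → F}

/-- **L6 (LC ≥)**: the lower half of the local decomposition theorem. -/
theorem localDecompGe (𝔸 : AbsSys) (h : IsRRField Qbar F) (he : 4 * genusFF Qbar F + 1 ≤ e)
    (hφ : IsEmbBasis P₀ e φ) {j : ℕ} (hj : 1 ≤ j) {d : ℕ}
    (b : Module.Basis (Fin (d + 1)) Qbar (secSpace P₀ e j)) :
    LocalDecompGe 𝔸 h P₀ e φ j b := by
  classical
  have he1 : 2 * genusFF Qbar F + 1 ≤ e := by omega
  have he2 : 2 * genusFF Qbar F ≤ e := by omega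
  have he3 : 3 * genusFF Qbar F ≤ e := by omega
  have hepos : 1 ≤ e := by omega
  obtain ⟨K, hK⟩ : ∃ K, K + j = j * e :=
    ⟨j * e - j, by have : j ≤ j * e := Nat.le_mul_of_pos_right j hepos; omega⟩
  have hN1 : 1 ≤ j * e := Nat.mul_pos hj hepos
  obtain ⟨dN, ⟨BN⟩⟩ := lcg_exists_basis h P₀ e (j * e)
  obtain ⟨dK, ⟨BK⟩⟩ := lcg_exists_basis h P₀ e K
  obtain ⟨Γ, hΓ⟩ := lcg_chain_finset 𝔸 h hφ (j * e) hN1 BN
  obtain ⟨γ', hγ'⟩ := gaussNorm_of_mul 𝔸 b BK BN (fun f hf f' hf' => by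
    have := gauss_secSpace_mul_mem P₀ e j K hf hf'
    rwa [Nat.add_comm, hK] at this)
  obtain ⟨γ'', hγ''⟩ := gauss_log_secSize_zero_le 𝔸 h he3 hφ K BK
  refine ⟨Γ + γ' + γ'', fun v f hf hf0 P π hπ m hm => ?_⟩
  have hπ0 : π ≠ 0 := by
    rintro rfl
    rw [P.ord_zero] at hπ
    exact zero_ne_one hπ
  have hp0 : φ (pivot φ P) ≠ 0 := hφ.ne_zero _
  -- the zero divisor and the multiplicities
  have hZnn : ∀ c, 0 ≤ zdiv h P₀ e j f c := fun c => zdiv_nonneg h P₀ e j hf hf0 c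
  obtain ⟨n, hnZ⟩ : ∃ n : Place Qbar F → ℕ, ∀ c, (n c : ℤ) = zdiv h P₀ e j f c :=
    ⟨fun c => (zdiv h P₀ e j f c).toNat, fun c => Int.toNat_of_nonneg (hZnn c)⟩
  have hnP : n P = m := by
    have := hnZ P
    rw [← hm] at this
    exact_mod_cast this
  have hnS : ∀ c, c ∉ (zdiv h P₀ e j f).support → n c = 0 := by
    intro c hc
    have := hnZ c
    rw [Finsupp.notMem_support_iff.mp hc] at this
    exact_mod_cast this
  have hsum : ∑ c ∈ (zdiv h P₀ e j f).support, n c = j * e := by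
    have h1 := lcg_degree_zdiv (P₀ := P₀) (e := e) h j f
    rw [degree_eq_sum h] at h1
    have h2 : ((∑ c ∈ (zdiv h P₀ e j f).support, n c : ℕ) : ℤ) = ((j * e : ℕ) : ℤ) := by
      rw [← h1, Nat.cast_sum]
      exact Finset.sum_congr rfl fun c _ => hnZ c
    exact_mod_cast h2
  -- the linear forms
  obtain ⟨l, hl⟩ := lcg_exists_forms 𝔸 v h hφ he1 P hπ
  have hlne : ∀ c, l c ≠ 0 := fun c => (hl c).1.2
  have hGne : ∏ c ∈ (zdiv h P₀ e j f).support, l c ^ n c ≠ 0 :=
    Finset.prod_ne_zero_iff.mpr fun c _ => pow_ne_zero _ (hlne c)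
  have hk1mem : (∏ c ∈ (zdiv h P₀ e j f).support, l c ^ n c) / f ∈ secSpace P₀ e K :=
    lcg_quot_mem h hf0 l (fun c => ⟨(hl c).1, (hl c).2.2.1⟩) n hnZ (j * e) K hsum hK
  have hk1ne : (∏ c ∈ (zdiv h P₀ e j f).support, l c ^ n c) / f ≠ 0 := div_ne_zero hGne hf0
  have hfk : f * ((∏ c ∈ (zdiv h P₀ e j f).support, l c ^ n c) / f) =
      ∏ c ∈ (zdiv h P₀ e j f).support, l c ^ n c := mul_div_cancel₀ _ hf0
  -- the factorisation of the normalised product
  have hwne : ∀ c : Place Qbar F,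
      (if c = P then φ (pivot φ P) * π else φ (pivot φ P)) ≠ 0 := by
    intro c
    split_ifs
    · exact mul_ne_zero hp0 hπ0
    · exact hp0
  have hfact : ∏ c ∈ (zdiv h P₀ e j f).support,
        (l c / (if c = P then φ (pivot φ P) * π else φ (pivot φ P))) ^ n c =
      (f / (φ (pivot φ P) ^ j * π ^ m)) *
        (((∏ c ∈ (zdiv h P₀ e j f).support, l c ^ n c) / f) / φ (pivot φ P) ^ K) := by
    have h1 : ∀ c ∈ (zdiv h P₀ e j f).support,
        (l c / (if c = P then φ (pivot φ P) * π else φ (pivot φ P))) ^ n c =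
          l c ^ n c / (if c = P then φ (pivot φ P) * π else φ (pivot φ P)) ^ n c :=
      fun c _ => div_pow _ _ _
    rw [Finset.prod_congr rfl h1, Finset.prod_div_distrib,
      lcg_prod_denominators _ P _ π n (hnS P), hsum, hnP, ← hK, pow_add]
    field_simp
  have hune : ∀ c : Place Qbar F,
      l c / (if c = P then φ (pivot φ P) * π else φ (pivot φ P)) ≠ 0 :=
    fun c => div_ne_zero (hlne c) (hwne c)
  have hu0 : ∀ c : Place Qbar F,
      P.ord (l c / (if c = P then φ (pivot φ P) * π else φ (pivot φ P))) = 0 :=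
    fun c => (hl c).2.2.2.1
  have hordprod : P.ord (∏ c ∈ (zdiv h P₀ e j f).support,
      (l c / (if c = P then φ (pivot φ P) * π else φ (pivot φ P))) ^ n c) = 0 := by
    rw [lcg_ord_prod P _ (fun c => l c / (if c = P then φ (pivot φ P) * π else φ (pivot φ P)))
      n (fun c _ => hune c)]
    exact Finset.sum_eq_zero fun c _ => by rw [hu0 c, mul_zero]
  have hordf := hφ.ord_lead h he2 j P hπ hf0 m hm
  have hfne' : f / (φ (pivot φ P) ^ j * π ^ m) ≠ 0 :=
    div_ne_zero hf0 (mul_ne_zero (pow_ne_zero _ hp0) (pow_ne_zero _ hπ0))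
  have hkne' : ((∏ c ∈ (zdiv h P₀ e j f).support, l c ^ n c) / f) / φ (pivot φ P) ^ K ≠ 0 :=
    div_ne_zero hk1ne (pow_ne_zero _ hp0)
  have hordk : P.ord (((∏ c ∈ (zdiv h P₀ e j f).support, l c ^ n c) / f) /
      φ (pivot φ P) ^ K) = 0 := by
    have := hordprod
    rw [hfact, P.ord_mul hfne' hkne', hordf, zero_add] at this
    exact this
  -- the values at `P`
  have hval := (lcg_ev_prod h P (zdiv h P₀ e j f).support
    (fun c => l c / (if c = P then φ (pivot φ P) * π else φ (pivot φ P))) n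
    (fun c _ => (hu0 c).ge)).2
  beta_reduce at hval
  rw [hfact] at hval
  have hmul : val P ((f / (φ (pivot φ P) ^ j * π ^ m)) *
      (((∏ c ∈ (zdiv h P₀ e j f).support, l c ^ n c) / f) / φ (pivot φ P) ^ K)) =
      val P (f / (φ (pivot φ P) ^ j * π ^ m)) *
        val P (((∏ c ∈ (zdiv h P₀ e j f).support, l c ^ n c) / f) / φ (pivot φ P) ^ K) :=
    Pts.ev_mul h P hordf.ge hordk.ge
  have hLF : 0 < 𝔸.abv v (val P (f / (φ (pivot φ P) ^ j * π ^ m))) :=
    (𝔸.abv v).pos (Pts.ev_ne_zero_of_ord_eq_zero h P hfne' hordf)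
  have hLK : 0 < 𝔸.abv v (val P (((∏ c ∈ (zdiv h P₀ e j f).support, l c ^ n c) / f) /
      φ (pivot φ P) ^ K)) :=
    (𝔸.abv v).pos (Pts.ev_ne_zero_of_ord_eq_zero h P hkne' hordk)
  have hXpos : ∀ c : Place Qbar F, 0 < (if c = P then
      theta 𝔸 v φ P π * vnorm 𝔸 v (coord φ P) ^ 2 else wnorm 𝔸 v (coord φ P) (coord φ c)) := by
    intro c
    rw [← (hl c).2.2.2.2]
    exact (𝔸.abv v).pos (Pts.ev_ne_zero_of_ord_eq_zero h P (hune c) (hu0 c))
  have habs : ∏ c ∈ (zdiv h P₀ e j f).support, (if c = P then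
      theta 𝔸 v φ P π * vnorm 𝔸 v (coord φ P) ^ 2 else wnorm 𝔸 v (coord φ P) (coord φ c)) ^ n c =
      𝔸.abv v (val P (f / (φ (pivot φ P) ^ j * π ^ m))) *
        𝔸.abv v (val P (((∏ c ∈ (zdiv h P₀ e j f).support, l c ^ n c) / f) /
          φ (pivot φ P) ^ K)) := by
    rw [← map_mul, ← hmul, hval, AbsoluteValue.map_prod]
    refine Finset.prod_congr rfl fun c _ => ?_
    rw [AbsoluteValue.map_pow, (hl c).2.2.2.2]
  have hlog1 : ∑ c ∈ (zdiv h P₀ e j f).support, (n c : ℝ) * Real.log (if c = P then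
      theta 𝔸 v φ P π * vnorm 𝔸 v (coord φ P) ^ 2 else wnorm 𝔸 v (coord φ P) (coord φ c)) =
      Real.log (𝔸.abv v (val P (f / (φ (pivot φ P) ^ j * π ^ m)))) +
        Real.log (𝔸.abv v (val P (((∏ c ∈ (zdiv h P₀ e j f).support, l c ^ n c) / f) /
          φ (pivot φ P) ^ K))) := by
    rw [← Real.log_mul hLF.ne' hLK.ne', ← habs,
      Real.log_prod (fun c _ => (pow_pos (hXpos c) _).ne')]
    exact Finset.sum_congr rfl fun c _ => (Real.log_pow _ _).symm
  -- abbreviations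
  have hA := hφ.vnorm_coord_pos 𝔸 v P
  have hθ := hφ.theta_pos 𝔸 v h he1 P hπ
  -- splitting the sums
  have hs1 := lcg_sum_split (zdiv h P₀ e j f).support P (fun c => (n c : ℝ) * Real.log
      (if c = P then theta 𝔸 v φ P π * vnorm 𝔸 v (coord φ P) ^ 2
        else wnorm 𝔸 v (coord φ P) (coord φ c))) (fun hP => by
      rw [hnS P hP, Nat.cast_zero, zero_mul])
  have hs2 := lcg_sum_split (zdiv h P₀ e j f).support P (fun c => (n c : ℝ) * Real.log
      (vnorm 𝔸 v (coord φ c))) (fun hP => by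
      rw [hnS P hP, Nat.cast_zero, zero_mul])
  have hs3 := lcg_sum_split (zdiv h P₀ e j f).support P (fun c => (n c : ℝ)) (fun hP => by
      rw [hnS P hP, Nat.cast_zero])
  beta_reduce at hs1 hs2 hs3
  rw [if_pos rfl, hnP, Real.log_mul hθ.ne' (pow_pos hA 2).ne', Real.log_pow] at hs1
  rw [hnP] at hs2 hs3
  have hs1' : ∑ c ∈ (zdiv h P₀ e j f).support.filter (fun c => c ≠ P), (n c : ℝ) * Real.log
      (if c = P then theta 𝔸 v φ P π * vnorm 𝔸 v (coord φ P) ^ 2
        else wnorm 𝔸 v (coord φ P) (coord φ c)) =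
      ∑ c ∈ (zdiv h P₀ e j f).support.filter (fun c => c ≠ P), (n c : ℝ) *
        Real.log (wnorm 𝔸 v (coord φ P) (coord φ c)) :=
    Finset.sum_congr rfl fun c hc => by rw [if_neg (Finset.mem_filter.mp hc).2]
  rw [hs1'] at hs1
  push_cast at hs1
  -- the sum of the local heights
  have hgsum : gsum 𝔸 v φ P (zdiv h P₀ e j f) =
      Real.log (vnorm 𝔸 v (coord φ P)) *
        ∑ c ∈ (zdiv h P₀ e j f).support.filter (fun c => c ≠ P), (n c : ℝ)
      + ∑ c ∈ (zdiv h P₀ e j f).support.filter (fun c => c ≠ P), (n c : ℝ) *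
          Real.log (vnorm 𝔸 v (coord φ c))
      - ∑ c ∈ (zdiv h P₀ e j f).support.filter (fun c => c ≠ P), (n c : ℝ) *
          Real.log (wnorm 𝔸 v (coord φ P) (coord φ c)) := by
    unfold gsum
    rw [Finset.mul_sum, ← Finset.sum_add_distrib, ← Finset.sum_sub_distrib]
    refine Finset.sum_congr rfl fun c hc => ?_
    have hcP : c ≠ P := (Finset.mem_filter.mp hc).2
    have hw := hφ.wnorm_coord_pos 𝔸 v h he1 (Ne.symm hcP)
    have hC := hφ.vnorm_coord_pos 𝔸 v c
    have hcast : ((zdiv h P₀ e j f c : ℤ) : ℝ) = (n c : ℝ) := by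
      rw [← hnZ c]
      simp
    unfold gloc chord
    rw [hcast, Real.log_div hw.ne' (mul_pos hA hC).ne', Real.log_mul hA.ne' hC.ne']
    ring
  -- the sizes
  have hsecf : Real.log (secSize 𝔸 v φ j P π m f) =
      Real.log (𝔸.abv v (val P (f / (φ (pivot φ P) ^ j * π ^ m)))) -
        j * Real.log (vnorm 𝔸 v (coord φ P)) := by
    unfold secSize
    rw [Real.log_div hLF.ne' (pow_pos hA j).ne', Real.log_pow]
  have hseck : secSize 𝔸 v φ K P π 0 ((∏ c ∈ (zdiv h P₀ e j f).support, l c ^ n c) / f) =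
      𝔸.abv v (val P (((∏ c ∈ (zdiv h P₀ e j f).support, l c ^ n c) / f) /
          φ (pivot φ P) ^ K)) / vnorm 𝔸 v (coord φ P) ^ K := by
    unfold secSize
    rw [pow_zero, mul_one]
  have hseckpos : 0 < secSize 𝔸 v φ K P π 0
      ((∏ c ∈ (zdiv h P₀ e j f).support, l c ^ n c) / f) := by
    rw [hseck]
    exact div_pos hLK (pow_pos hA K)
  have hE2 := hγ'' v _ hk1mem hk1ne P π hseckpos
  rw [hseck, Real.log_div hLK.ne' (pow_pos hA K).ne', Real.log_pow] at hE2
  have hE3 := hγ' v f _ hf hf0 hk1mem hk1ne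
  rw [hfk, abs_le] at hE3
  have hE4 := hΓ v (zdiv h P₀ e j f).support l n hsum (fun c _ => (hl c).1)
  have hE5 : ∑ c ∈ (zdiv h P₀ e j f).support,
      (n c : ℝ) * Real.log (cnorm 𝔸 v (lcgBasis hφ) (l c)) ≤
      ∑ c ∈ (zdiv h P₀ e j f).support, (n c : ℝ) * Real.log (vnorm 𝔸 v (coord φ c)) :=
    Finset.sum_le_sum fun c _ => mul_le_mul_of_nonneg_left
      (Real.log_le_log (gauss_cnorm_pos 𝔸 v (lcgBasis hφ) (hl c).1.1 (hl c).1.2) (hl c).2.1)
      (Nat.cast_nonneg _)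
  -- the multiplicities
  have hcastsum : ((∑ c ∈ (zdiv h P₀ e j f).support, n c : ℕ) : ℝ) = (j : ℝ) * (e : ℝ) := by
    rw [hsum]
    push_cast
    ring
  rw [Nat.cast_sum] at hcastsum
  have hKj : (K : ℝ) + (j : ℝ) = (j : ℝ) * (e : ℝ) := by exact_mod_cast hK
  have hprodA : (K : ℝ) * Real.log (vnorm 𝔸 v (coord φ P)) +
      (j : ℝ) * Real.log (vnorm 𝔸 v (coord φ P)) =
      Real.log (vnorm 𝔸 v (coord φ P)) *
        ∑ c ∈ (zdiv h P₀ e j f).support.filter (fun c => c ≠ P), (n c : ℝ)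
      + (m : ℝ) * Real.log (vnorm 𝔸 v (coord φ P)) := by
    rw [← add_mul, hKj, ← hcastsum, hs3]
    ring
  simp only [MConst.add_apply]
  rw [hsecf, hgsum]
  linarith [hE3.1, hE3.2]

end main

end Fermat.Agent.S17
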