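import Mathlib
import Fermat.Agent.S17.H.Curve
import Fermat.Agent.S17.H.NST
import Fermat.Agent.S17.H.Closed
import Fermat.Agent.S17.H.ClosedDVR

set_option autoImplicit false

/-!
# S17, package H, seat L4 (WF1): comparison of two families with the same polar divisor

`weilCompare_of_closed`: for two families `u`, `w` of nonzero functions with the same polar divisor
(`SamePolar u w`), `log max_i |(u_i/s)(P)|_v - log max_i |(w_i/s)(P)|_v` is `M`-bounded
(`WeilCompare 𝔸 u w`), given L2 (CLOSED) for the concatenated families (`ClosedImage`).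

`weilCompare` : the unconditional statement (L2 = `Closed.closed_image_of_placesExhaust` of helper5
with `Closed.exists_place_eq`).

Proof: the points `[(u_i/s)(P) : (w_i/s)(P)]` lie on the closed set `Y = V(𝒢)`, `𝒢` the homogeneous
relations of `(u, w)`; by L2 every point of `Y` is of this form, so by `SamePolar` the coordinates of
the `u`-part have no common zero on `Y`; NST (`nst₁`) gives `max_i |x_i|_v ≥ exp(-γ_v) ‖(x,y)‖_v`.
-/

noncomputable section
open AlgebraicCurve MvPolynomial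
namespace Fermat.Agent.S17

variable {F : Type*} [Field F] [Algebra Qbar F]

namespace WF1

/-- order of a quotient -/
theorem ord_div' (P : Place Qbar F) {a s : F} (ha : a ≠ 0) (hs : s ≠ 0) :
    P.ord (a / s) = P.ord a - P.ord s := by
  rw [div_eq_mul_inv, P.ord_mul ha (inv_ne_zero hs), P.ord_inv]
  ring

/-- scaling of the value of a homogeneous polynomial -/
theorem aeval_scale {σ : Type*} [Fintype σ] {G : MvPolynomial σ Qbar} {e : ℕ}
    (hG : G.IsHomogeneous e) (c : F) (z : σ → F) :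
    aeval (fun i => c * z i) G = c ^ e * aeval z G := by
  rw [aeval_def, aeval_def, eval₂_eq', eval₂_eq', Finset.mul_sum]
  refine Finset.sum_congr rfl fun m hm => ?_
  have hdeg : ∑ i, m i = e := by
    have h1 := hG.degree_eq_sum_deg_support hm
    rw [h1]
    exact (Finset.sum_subset (Finset.subset_univ _) fun s _ hs => by simpa using hs).symm
  have h2 : ∏ i, (c * z i) ^ m i = c ^ e * ∏ i, z i ^ m i := by
    simp only [mul_pow]
    rw [Finset.prod_mul_distrib, Finset.prod_pow_eq_pow_sum, hdeg]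
  rw [h2]
  ring

/-- the value at `P` of a polynomial expression in functions regular at `P` -/
theorem ev_aeval_mv (h : Fermat.Agent.RR.IsRRField Qbar F) {σ : Type*} (P : Place Qbar F)
    (z : σ → F) (hz : ∀ i, 0 ≤ P.ord (z i)) (G : MvPolynomial σ Qbar) :
    Pts.ev P (aeval z G) = eval (fun i => Pts.ev P (z i)) G := by
  have hzm : ∀ i, z i ∈ P.toValuationSubring := fun i =>
    Fermat.Agent.S24Res.mem_of_ord_nonneg P (hz i)
  let z' : σ → P.toValuationSubring := fun i => ⟨z i, hzm i⟩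
  have h1 : aeval z G = ((aeval z' G : P.toValuationSubring) : F) :=
    (MvPolynomial.comp_aeval_apply z' (IsScalarTower.toAlgHom Qbar P.toValuationSubring F) G).symm
  rw [h1, ← Pts.evHom_apply h, MvPolynomial.comp_aeval_apply]
  rfl

/-- concatenation of two families, indexed by `Fin (N + 1)`, `N = n + 1 + n'` -/
def cat {n n' : ℕ} (u : Fin (n + 1) → F) (w : Fin (n' + 1) → F) : Fin (n + 1 + n' + 1) → F :=
  @Fin.append (n + 1) (n' + 1) F u w

/-- index of the first part -/
def inl {n : ℕ} (n' : ℕ) (i : Fin (n + 1)) : Fin (n + 1 + n' + 1) :=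
  @Fin.castAdd (n + 1) (n' + 1) i

/-- index of the second part -/
def inr (n : ℕ) {n' : ℕ} (i : Fin (n' + 1)) : Fin (n + 1 + n' + 1) :=
  (Fin.natAdd (n + 1) i : Fin (n + 1 + (n' + 1)))

omit [Field F] [Algebra Qbar F] in
theorem cat_inl {n n' : ℕ} (u : Fin (n + 1) → F) (w : Fin (n' + 1) → F) (i : Fin (n + 1)) :
    cat u w (inl n' i) = u i :=
  @Fin.append_left (n + 1) (n' + 1) F u w i

omit [Field F] [Algebra Qbar F] in
theorem cat_inr {n n' : ℕ} (u : Fin (n + 1) → F) (w : Fin (n' + 1) → F) (i : Fin (n' + 1)) :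
    cat u w (inr n i) = w i :=
  @Fin.append_right (n + 1) (n' + 1) F u w i

theorem cat_cases {n n' : ℕ} {motive : Fin (n + 1 + n' + 1) → Prop}
    (hl : ∀ i : Fin (n + 1), motive (inl n' i)) (hr : ∀ i : Fin (n' + 1), motive (inr n i))
    (k : Fin (n + 1 + n' + 1)) : motive k :=
  @Fin.addCases (n + 1) (n' + 1) motive hl hr k

/-- **L2 (CLOSED)** as a `Prop`: a nonzero vector killed by all homogeneous relations of the
family `z` is proportional to the coordinate vector of a place. -/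
def ClosedImage {n : ℕ} (z : Fin (n + 1) → F) : Prop :=
  ∀ y : Fin (n + 1) → Qbar, y ≠ 0 →
    (∀ G : MvPolynomial (Fin (n + 1)) Qbar, (∃ e, G.IsHomogeneous e) → aeval z G = 0 →
      eval y G = 0) →
    ∃ (P : Place Qbar F) (i₀ : Fin (n + 1)) (c : Qbar), z i₀ ≠ 0 ∧
      (∀ i, 0 ≤ P.ord (z i / z i₀)) ∧ ∀ i, y i = c * val P (z i / z i₀)

theorem samePolar_symm {n n' : ℕ} {u : Fin (n + 1) → F} {w : Fin (n' + 1) → F}
    (huw : SamePolar u w) : SamePolar w u :=
  ⟨huw.2.1, huw.1, fun P => ⟨(huw.2.2 P).2, (huw.2.2 P).1⟩⟩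

theorem samePolar_ord_le {n n' : ℕ} {u : Fin (n + 1) → F} {w : Fin (n' + 1) → F}
    (huw : SamePolar u w) {P : Place Qbar F} {s : F} (hs : ∀ i, P.ord s ≤ P.ord (u i))
    (i' : Fin (n' + 1)) : P.ord s ≤ P.ord (w i') := by
  obtain ⟨i, hi⟩ := (huw.2.2 P).2 i'
  exact (hs i).trans hi

theorem samePolar_exists_ord_eq {n n' : ℕ} {u : Fin (n + 1) → F} {w : Fin (n' + 1) → F}
    (huw : SamePolar u w) {P : Place Qbar F} {s : F} (hs : ∀ i, P.ord s ≤ P.ord (u i))
    (hs' : ∃ i, P.ord s = P.ord (u i)) : ∃ i', P.ord s = P.ord (w i') := by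
  obtain ⟨i, hi⟩ := hs'
  obtain ⟨i', hi'⟩ := (huw.2.2 P).1 i
  exact ⟨i', le_antisymm (samePolar_ord_le huw hs i') (hi'.trans hi.ge)⟩

/-- positivity of the sup-norm of the values of a family at a place, normalised by `s` -/
theorem vnorm_val_pos (h : Fermat.Agent.RR.IsRRField Qbar F) (𝔸 : AbsSys) (v : 𝔸.ι) {n : ℕ}
    (u : Fin (n + 1) → F) (hu : ∀ i, u i ≠ 0) (P : Place Qbar F) {s : F} (hs0 : s ≠ 0)
    (hs' : ∃ i, P.ord s = P.ord (u i)) :
    0 < vnorm 𝔸 v fun i => val P (u i / s) := by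
  obtain ⟨i, hi⟩ := hs'
  have h1 : P.ord (u i / s) = 0 := by rw [ord_div' P (hu i) hs0, hi, sub_self]
  have h2 : val P (u i / s) ≠ 0 :=
    Pts.ev_ne_zero_of_ord_eq_zero h P (div_ne_zero (hu i) hs0) h1
  exact lt_of_lt_of_le ((𝔸.abv v).pos h2) (abv_le_vnorm 𝔸 v (fun i => val P (u i / s)) i)

/-- one half of `WeilCompare`, assuming L2 for the concatenated family -/
theorem weilCompare_le (h : Fermat.Agent.RR.IsRRField Qbar F) (𝔸 : AbsSys) {n n' : ℕ}
    (u : Fin (n + 1) → F) (w : Fin (n' + 1) → F) (huw : SamePolar u w)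
    (hcl : ClosedImage (cat u w)) :
    ∃ γ : MConst 𝔸, ∀ (v : 𝔸.ι) (P : Place Qbar F) (s : F),
      (∀ i, P.ord s ≤ P.ord (u i)) → (∃ i, P.ord s = P.ord (u i)) →
      Real.log (vnorm 𝔸 v fun i => val P (w i / s))
        ≤ Real.log (vnorm 𝔸 v fun i => val P (u i / s)) + γ v := by
  classical
  set z : Fin (n + 1 + n' + 1) → F := cat u w with hz
  have hzl : ∀ i : Fin (n + 1), z (inl n' i) = u i := fun i => cat_inl u w i
  have hzr : ∀ i : Fin (n' + 1), z (inr n i) = w i := fun i => cat_inr u w i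
  have hz0 : ∀ k, z k ≠ 0 := fun k => by
    refine cat_cases (motive := fun k => z k ≠ 0) (fun i => ?_) (fun i => ?_) k
    · rw [hzl]; exact huw.1 i
    · rw [hzr]; exact huw.2.1 i
  -- the relations
  let 𝒢 : Set (MvPolynomial (Fin (n + 1 + n' + 1)) Qbar) :=
    {G | (∃ e, G.IsHomogeneous e) ∧ aeval z G = 0}
  -- the forms: the coordinates of the `u`-part
  let Fm : Fin (n + 1) → MvPolynomial (Fin (n + 1 + n' + 1)) Qbar := fun j =>
    X (inl n' j)
  have hFm : ∀ j, (Fm j).IsHomogeneous 1 := fun j => isHomogeneous_X _ _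
  have hnz : ∀ y : Fin (n + 1 + n' + 1) → Qbar, y ≠ 0 → (∀ G ∈ 𝒢, eval y G = 0) →
      ∃ j, eval y (Fm j) ≠ 0 := by
    intro y hy hY
    obtain ⟨P, i₀, c, hi₀, hord, hyc⟩ := hcl y hy fun G hG hG0 => hY G ⟨hG, hG0⟩
    have hc : c ≠ 0 := by
      rintro rfl
      apply hy
      funext i
      rw [hyc i, zero_mul]
      rfl
    -- an index of the `u`-part with minimal order
    have key : ∃ j : Fin (n + 1), P.ord (u j / z i₀) = 0 := by
      refine cat_cases (motive := fun k => z k ≠ 0 → (∀ i, 0 ≤ P.ord (z i / z k)) →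
        ∃ j : Fin (n + 1), P.ord (u j / z k) = 0) (fun i hi _ => ?_) (fun i' hi' ho => ?_)
        i₀ hi₀ hord
      · refine ⟨i, ?_⟩
        rw [hzl, div_self (huw.1 i), P.ord_one]
      · obtain ⟨j, hj⟩ := (huw.2.2 P).2 i'
        refine ⟨j, ?_⟩
        have h1 := ho (inl n' j)
        rw [hzl] at h1
        rw [hzr] at h1 ⊢
        rw [ord_div' P (huw.1 j) (huw.2.1 i')] at h1 ⊢
        omega
    obtain ⟨j, hj⟩ := key
    refine ⟨j, ?_⟩
    show eval y (X (inl n' j)) ≠ 0
    rw [eval_X, hyc, hzl]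
    exact mul_ne_zero hc
      (Pts.ev_ne_zero_of_ord_eq_zero h P (div_ne_zero (huw.1 j) hi₀) hj)
  obtain ⟨γ, hγ⟩ := nst₁ 𝔸 1 Fm hFm 𝒢 (fun G hG => hG.1) hnz
  refine ⟨γ, fun v P s hs hs' => ?_⟩
  rcases eq_or_ne s 0 with rfl | hs0
  · -- junk case
    have h1 : (vnorm 𝔸 v fun i => val P (w i / 0)) = 0 := by
      simp [vnorm, val]
    have h2 : (vnorm 𝔸 v fun i => val P (u i / 0)) = 0 := by
      simp [vnorm, val]
    rw [h1, h2]
    simpa using γ.nonneg v
  -- the point
  let y : Fin (n + 1 + n' + 1) → Qbar := fun k => val P (z k / s)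
  have hyl : ∀ i : Fin (n + 1), y (inl n' i) = val P (u i / s) := fun i => by
    show val P (z (inl n' i) / s) = _
    rw [hzl]
  have hyr : ∀ i : Fin (n' + 1), y (inr n i) = val P (w i / s) := fun i => by
    show val P (z (inr n i) / s) = _
    rw [hzr]
  have hzs : ∀ k, 0 ≤ P.ord (z k / s) := fun k => by
    rw [ord_div' P (hz0 k) hs0]
    refine cat_cases (motive := fun k => 0 ≤ P.ord (z k) - P.ord s) (fun i => ?_)
      (fun i => ?_) k
    · rw [hzl]; have := hs i; omega
    · rw [hzr]; have := samePolar_ord_le huw hs i; omega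
  have hupos := vnorm_val_pos h 𝔸 v u huw.1 P hs0 hs'
  have hwpos := vnorm_val_pos h 𝔸 v w huw.2.1 P hs0 (samePolar_exists_ord_eq huw hs hs')
  have hy0 : y ≠ 0 := by
    obtain ⟨i, hi⟩ := hs'
    intro h0
    have h1 : P.ord (u i / s) = 0 := by rw [ord_div' P (huw.1 i) hs0, hi, sub_self]
    have h2 := Pts.ev_ne_zero_of_ord_eq_zero h P (div_ne_zero (huw.1 i) hs0) h1
    apply h2
    have h3 := congrFun h0 (inl n' i)
    rw [hyl] at h3
    exact h3
  have hyY : ∀ G ∈ 𝒢, eval y G = 0 := by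
    rintro G ⟨⟨e, hGe⟩, hG0⟩
    have h1 : eval y G = Pts.ev P (aeval (fun k => z k / s) G) :=
      (ev_aeval_mv h P (fun k => z k / s) hzs G).symm
    have h2 : (fun k => z k / s) = fun k => s⁻¹ * z k := by
      funext k
      rw [div_eq_mul_inv, mul_comm]
    rw [h1, h2, aeval_scale hGe, hG0, mul_zero, Pts.ev_zero]
  obtain ⟨j, hj⟩ := hγ v y hy0 hyY
  have hj1 : eval y (Fm j) = val P (u j / s) := by
    show eval y (X (inl n' j)) = _
    rw [eval_X, hyl]
  rw [hj1, pow_one] at hj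
  -- compare the norms
  have hwy : (vnorm 𝔸 v fun i => val P (w i / s)) ≤ vnorm 𝔸 v y := by
    apply Finset.sup'_le
    intro i _
    have := abv_le_vnorm 𝔸 v y (inr n i)
    rwa [hyr] at this
  have huj : 𝔸.abv v (val P (u j / s)) ≤ vnorm 𝔸 v fun i => val P (u i / s) :=
    abv_le_vnorm 𝔸 v (fun i => val P (u i / s)) j
  have hmain : Real.exp (-(γ v)) * (vnorm 𝔸 v fun i => val P (w i / s))
      ≤ vnorm 𝔸 v fun i => val P (u i / s) :=
    le_trans (le_trans (mul_le_mul_of_nonneg_left hwy (Real.exp_pos _).le) hj) huj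
  have hlog := Real.log_le_log (mul_pos (Real.exp_pos _) hwpos) hmain
  rw [Real.log_mul (Real.exp_pos _).ne' hwpos.ne', Real.log_exp] at hlog
  linarith

/-- **L4 (WF1)**, assuming L2 for the two concatenated families. -/
theorem weilCompare_of_closed (h : Fermat.Agent.RR.IsRRField Qbar F) (𝔸 : AbsSys) {n n' : ℕ}
    (u : Fin (n + 1) → F) (w : Fin (n' + 1) → F) (huw : SamePolar u w)
    (hcl : ClosedImage (cat u w))
    (hcl' : ClosedImage (cat w u)) :
    WeilCompare 𝔸 u w := by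
  obtain ⟨γ, hγ⟩ := weilCompare_le h 𝔸 u w huw hcl
  obtain ⟨γ', hγ'⟩ := weilCompare_le h 𝔸 w u (samePolar_symm huw) hcl'
  refine ⟨γ + γ', fun v P s hs hs' => ?_⟩
  have h1 := hγ v P s hs hs'
  have h2 := hγ' v P s (samePolar_ord_le huw hs) (samePolar_exists_ord_eq huw hs hs')
  have h3 := γ.nonneg v
  have h4 := γ'.nonneg v
  rw [MConst.add_apply, abs_le]
  constructor <;> linarith

/-- L2 (CLOSED) in the shape used here. -/
theorem closedImage (h : Fermat.Agent.RR.IsRRField Qbar F) {n : ℕ} (z : Fin (n + 1) → F) :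
    ClosedImage z := fun y hy hrel =>
  Closed.closed_image_of_placesExhaust h (fun O hO hK => Closed.exists_place_eq h O hO hK)
    z y hy hrel

end WF1

/-- **L4 (WF1).** Two families of nonzero functions with the same polar divisor have comparable
sup-norms at every point, up to an `M`-constant. -/
theorem weilCompare (h : Fermat.Agent.RR.IsRRField Qbar F) (𝔸 : AbsSys) {n n' : ℕ}
    (u : Fin (n + 1) → F) (w : Fin (n' + 1) → F) (huw : SamePolar u w) : WeilCompare 𝔸 u w :=
  WF1.weilCompare_of_closed h 𝔸 u w huw (WF1.closedImage h _) (WF1.closedImage h _)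

end Fermat.Agent.S17
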