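import Mathlib
import Fermat.Agent.S17.H.Closed
import Fermat.Agent.S17.H.ClosedDVR
import Fermat.Agent.S17.H.L7.Bridge

set_option autoImplicit false
set_option linter.unusedSectionVars false
set_option linter.unusedVariables false

/-!
# S17, package H, seat L7: the `≤` half of the local decomposition

* `closedImage_of_isRRField` : L2 (CLOSED) in the form `WF1.ClosedImage z`, for every family `z`
  (from `Closed.closed_image_of_placesExhaust` and the (DVR) lemma `Closed.exists_place_eq`).
* `localDecompLe` : **L7**, `LocalDecompLe 𝔸 h P₀ e φ j b` for every embedding basis `φ` of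
  `L(e P₀)` with `3 g + 1 ≤ e`, every `j` and every basis `b` of `L(j e P₀)`.
-/

noncomputable section

open AlgebraicCurve MvPolynomial

namespace Fermat.Agent.S17

open Fermat.Agent.RR

variable {F : Type*} [Field F] [Algebra Qbar F]

/-- **L2 (CLOSED)**: the image of the curve under any family of functions is Zariski closed. -/
theorem closedImage_of_isRRField (h : IsRRField Qbar F) {n : ℕ} (z : Fin (n + 1) → F) :
    WF1.ClosedImage z := fun y hy hrel =>
  Closed.closed_image_of_placesExhaust h (fun O hO hK => Closed.exists_place_eq h O hO hK)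
    z y hy hrel

/-- **L7**: the `≤` half of the local decomposition of the size of a section. -/
theorem localDecompLe (𝔸 : AbsSys) (h : IsRRField Qbar F) {P₀ : Place Qbar F} {e r : ℕ}
    {φ : Fin (r + 1) → F} (hφ : IsEmbBasis P₀ e φ) (he : 3 * genusFF Qbar F + 1 ≤ e)
    {j d : ℕ} (b : Module.Basis (Fin (d + 1)) Qbar (secSpace P₀ e j)) :
    LocalDecompLe 𝔸 h P₀ e φ j b :=
  L7.localDecompLe_of_closedImage 𝔸 h hφ (closedImage_of_isRRField h φ) he b

end Fermat.Agent.S17
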