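import Mathlib
import Fermat.Agent.S17.H.ImmCurve

set_option autoImplicit false
set_option linter.unusedSectionVars false
set_option linter.style.longLine false

/-!
# S17, package H: the triangle inequality for the chordal distance

For vectors `x y z` over `ℚ̄` and a place `v`:

* `wnorm_triangle`          : `‖y‖ ‖x ∧ z‖ ≤ 2 ‖x‖ ‖y ∧ z‖ + ‖z‖ ‖x ∧ y‖`;
* `wnorm_triangle_nonarch`  : `‖y‖ ‖x ∧ z‖ ≤ max (‖x‖ ‖y ∧ z‖) (‖z‖ ‖x ∧ y‖)` (`v` ultrametric);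
* `IsEmbBasis.chord_triangle` : `δ_v(P,R) ≤ exp (2 archLogTwo v) max (δ_v(P,Q)) (δ_v(Q,R))`
  (constant `1` at the ultrametric places, `4` at the others);
* `IsEmbBasis.gloc_triangle`  : `min (g_v(P,Q)) (g_v(Q,R)) - 2 archLogTwo v ≤ g_v(P,R)`
  for pairwise distinct `P, Q, R`.

All come from the identity
`y_k (x_i z_j - x_j z_i) = x_i (y_k z_j - y_j z_k) - x_j (y_k z_i - y_i z_k) + z_k (x_i y_j - x_j y_i)`.
-/

noncomputable section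

open AlgebraicCurve Fermat.Agent.RR

namespace Fermat.Agent.S17

variable (𝔸 : AbsSys) (v : 𝔸.ι)

theorem chordTri_wnorm_symm {r : ℕ} (x y : Fin (r + 1) → Qbar) : wnorm 𝔸 v x y = wnorm 𝔸 v y x := by
  have key : ∀ x y : Fin (r + 1) → Qbar, wnorm 𝔸 v x y ≤ wnorm 𝔸 v y x := by
    intro x y
    refine Finset.sup'_le _ _ fun p _ => ?_
    have h1 : x p.1 * y p.2 - x p.2 * y p.1 = y p.2 * x p.1 - y p.1 * x p.2 := by ring
    rw [h1]
    exact abv_minor_le_wnorm 𝔸 v y x p.2 p.1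
  exact le_antisymm (key x y) (key y x)

/-- the three-term bound for one minor -/
theorem chordTri_minor {r : ℕ} (x y z : Fin (r + 1) → Qbar) (i j k : Fin (r + 1)) :
    y k * (x i * z j - x j * z i) =
      x i * (y k * z j - y j * z k) - x j * (y k * z i - y i * z k)
        + z k * (x i * y j - x j * y i) := by
  ring

theorem wnorm_triangle {r : ℕ} (x y z : Fin (r + 1) → Qbar) :
    vnorm 𝔸 v y * wnorm 𝔸 v x z ≤
      2 * (vnorm 𝔸 v x * wnorm 𝔸 v y z) + vnorm 𝔸 v z * wnorm 𝔸 v x y := by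
  obtain ⟨k, hk⟩ := exists_abv_eq_vnorm 𝔸 v y
  obtain ⟨p, -, hp⟩ := Finset.exists_mem_eq_sup' Finset.univ_nonempty
    fun p : Fin (r + 1) × Fin (r + 1) => 𝔸.abv v (x p.1 * z p.2 - x p.2 * z p.1)
  have hw : wnorm 𝔸 v x z = 𝔸.abv v (x p.1 * z p.2 - x p.2 * z p.1) := hp
  rw [← hk, hw, ← map_mul, chordTri_minor x y z p.1 p.2 k]
  have hyz := wnorm_nonneg 𝔸 v y z
  have hxy := wnorm_nonneg 𝔸 v x y
  have t1 : 𝔸.abv v (x p.1 * (y k * z p.2 - y p.2 * z k)) ≤ vnorm 𝔸 v x * wnorm 𝔸 v y z := by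
    rw [map_mul]
    exact mul_le_mul (abv_le_vnorm 𝔸 v x _) (abv_minor_le_wnorm 𝔸 v y z k p.2)
      ((𝔸.abv v).nonneg _) (vnorm_nonneg 𝔸 v x)
  have t2 : 𝔸.abv v (x p.2 * (y k * z p.1 - y p.1 * z k)) ≤ vnorm 𝔸 v x * wnorm 𝔸 v y z := by
    rw [map_mul]
    exact mul_le_mul (abv_le_vnorm 𝔸 v x _) (abv_minor_le_wnorm 𝔸 v y z k p.1)
      ((𝔸.abv v).nonneg _) (vnorm_nonneg 𝔸 v x)
  have t3 : 𝔸.abv v (z k * (x p.1 * y p.2 - x p.2 * y p.1)) ≤ vnorm 𝔸 v z * wnorm 𝔸 v x y := by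
    rw [map_mul]
    exact mul_le_mul (abv_le_vnorm 𝔸 v z _) (abv_minor_le_wnorm 𝔸 v x y p.1 p.2)
      ((𝔸.abv v).nonneg _) (vnorm_nonneg 𝔸 v z)
  have a1 := (𝔸.abv v).add_le
    (x p.1 * (y k * z p.2 - y p.2 * z k) - x p.2 * (y k * z p.1 - y p.1 * z k))
    (z k * (x p.1 * y p.2 - x p.2 * y p.1))
  have a2 := (𝔸.abv v).add_le (x p.1 * (y k * z p.2 - y p.2 * z k))
    (-(x p.2 * (y k * z p.1 - y p.1 * z k)))
  rw [← sub_eq_add_neg, (𝔸.abv v).map_neg] at a2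
  linarith

theorem wnorm_triangle_nonarch {r : ℕ} (hv : v ∉ 𝔸.arch) (x y z : Fin (r + 1) → Qbar) :
    vnorm 𝔸 v y * wnorm 𝔸 v x z ≤
      max (vnorm 𝔸 v x * wnorm 𝔸 v y z) (vnorm 𝔸 v z * wnorm 𝔸 v x y) := by
  have hna := 𝔸.nonarch v hv
  obtain ⟨k, hk⟩ := exists_abv_eq_vnorm 𝔸 v y
  obtain ⟨p, -, hp⟩ := Finset.exists_mem_eq_sup' Finset.univ_nonempty
    fun p : Fin (r + 1) × Fin (r + 1) => 𝔸.abv v (x p.1 * z p.2 - x p.2 * z p.1)
  have hw : wnorm 𝔸 v x z = 𝔸.abv v (x p.1 * z p.2 - x p.2 * z p.1) := hp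
  rw [← hk, hw, ← map_mul, chordTri_minor x y z p.1 p.2 k]
  have t1 : 𝔸.abv v (x p.1 * (y k * z p.2 - y p.2 * z k)) ≤ vnorm 𝔸 v x * wnorm 𝔸 v y z := by
    rw [map_mul]
    exact mul_le_mul (abv_le_vnorm 𝔸 v x _) (abv_minor_le_wnorm 𝔸 v y z k p.2)
      ((𝔸.abv v).nonneg _) (vnorm_nonneg 𝔸 v x)
  have t2 : 𝔸.abv v (x p.2 * (y k * z p.1 - y p.1 * z k)) ≤ vnorm 𝔸 v x * wnorm 𝔸 v y z := by
    rw [map_mul]
    exact mul_le_mul (abv_le_vnorm 𝔸 v x _) (abv_minor_le_wnorm 𝔸 v y z k p.1)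
      ((𝔸.abv v).nonneg _) (vnorm_nonneg 𝔸 v x)
  have t3 : 𝔸.abv v (z k * (x p.1 * y p.2 - x p.2 * y p.1)) ≤ vnorm 𝔸 v z * wnorm 𝔸 v x y := by
    rw [map_mul]
    exact mul_le_mul (abv_le_vnorm 𝔸 v z _) (abv_minor_le_wnorm 𝔸 v x y p.1 p.2)
      ((𝔸.abv v).nonneg _) (vnorm_nonneg 𝔸 v z)
  have a1 := hna
    (x p.1 * (y k * z p.2 - y p.2 * z k) - x p.2 * (y k * z p.1 - y p.1 * z k))
    (z k * (x p.1 * y p.2 - x p.2 * y p.1))
  have a2 := hna (x p.1 * (y k * z p.2 - y p.2 * z k))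
    (-(x p.2 * (y k * z p.1 - y p.1 * z k)))
  rw [← sub_eq_add_neg, (𝔸.abv v).map_neg] at a2
  refine le_trans a1 (max_le (le_trans a2 (max_le ?_ ?_)) ?_)
  · exact le_trans t1 (le_max_left _ _)
  · exact le_trans t2 (le_max_left _ _)
  · exact le_trans t3 (le_max_right _ _)

/-- both cases: `‖y‖ ‖x ∧ z‖ ≤ exp (2 archLogTwo v) max (‖x‖ ‖y ∧ z‖) (‖z‖ ‖x ∧ y‖)`. -/
theorem wnorm_triangle_max {r : ℕ} (x y z : Fin (r + 1) → Qbar) :
    vnorm 𝔸 v y * wnorm 𝔸 v x z ≤ Real.exp (2 * archLogTwo 𝔸 v) *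
      max (vnorm 𝔸 v x * wnorm 𝔸 v y z) (vnorm 𝔸 v z * wnorm 𝔸 v x y) := by
  by_cases hv : v ∈ 𝔸.arch
  · have h4 : Real.exp (2 * archLogTwo 𝔸 v) = 4 := by
      rw [archLogTwo_apply_of_mem 𝔸 hv, show (2 : ℝ) * Real.log 2 = Real.log 2 + Real.log 2 by ring,
        Real.exp_add, Real.exp_log (by norm_num)]
      norm_num
    rw [h4]
    have h1 := wnorm_triangle 𝔸 v x y z
    have h2 := le_max_left (vnorm 𝔸 v x * wnorm 𝔸 v y z) (vnorm 𝔸 v z * wnorm 𝔸 v x y)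
    have h3 := le_max_right (vnorm 𝔸 v x * wnorm 𝔸 v y z) (vnorm 𝔸 v z * wnorm 𝔸 v x y)
    have h5 : 0 ≤ vnorm 𝔸 v x * wnorm 𝔸 v y z :=
      mul_nonneg (vnorm_nonneg 𝔸 v x) (wnorm_nonneg 𝔸 v y z)
    linarith
  · rw [archLogTwo_apply_of_not_mem 𝔸 hv, mul_zero, Real.exp_zero, one_mul]
    exact wnorm_triangle_nonarch 𝔸 v hv x y z

section emb

variable {F : Type*} [Field F] [Algebra Qbar F]
variable {P₀ : Place Qbar F} {e r : ℕ} {φ : Fin (r + 1) → F}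

/-- **the triangle inequality for the chordal distance** -/
theorem IsEmbBasis.chord_triangle (hφ : IsEmbBasis P₀ e φ) (P Q R : Place Qbar F) :
    chord 𝔸 v φ P R ≤ Real.exp (2 * archLogTwo 𝔸 v) *
      max (chord 𝔸 v φ P Q) (chord 𝔸 v φ Q R) := by
  have hP := hφ.vnorm_coord_pos 𝔸 v P
  have hQ := hφ.vnorm_coord_pos 𝔸 v Q
  have hR := hφ.vnorm_coord_pos 𝔸 v R
  have key := wnorm_triangle_max 𝔸 v (coord φ P) (coord φ Q) (coord φ R)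
  have hE := Real.exp_pos (2 * archLogTwo 𝔸 v)
  have hden : 0 < vnorm 𝔸 v (coord φ P) * vnorm 𝔸 v (coord φ Q) * vnorm 𝔸 v (coord φ R) :=
    mul_pos (mul_pos hP hQ) hR
  -- the two terms of the maximum
  have e1 : vnorm 𝔸 v (coord φ P) * wnorm 𝔸 v (coord φ Q) (coord φ R) =
      chord 𝔸 v φ Q R *
        (vnorm 𝔸 v (coord φ P) * vnorm 𝔸 v (coord φ Q) * vnorm 𝔸 v (coord φ R)) := by
    unfold chord
    field_simp
  have e2 : vnorm 𝔸 v (coord φ R) * wnorm 𝔸 v (coord φ P) (coord φ Q) =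
      chord 𝔸 v φ P Q *
        (vnorm 𝔸 v (coord φ P) * vnorm 𝔸 v (coord φ Q) * vnorm 𝔸 v (coord φ R)) := by
    unfold chord
    field_simp
  have e3 : vnorm 𝔸 v (coord φ Q) * wnorm 𝔸 v (coord φ P) (coord φ R) =
      chord 𝔸 v φ P R *
        (vnorm 𝔸 v (coord φ P) * vnorm 𝔸 v (coord φ Q) * vnorm 𝔸 v (coord φ R)) := by
    unfold chord
    field_simp
  rw [e1, e2, e3, ← max_mul_of_nonneg _ _ hden.le] at key
  have key' : chord 𝔸 v φ P R *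
      (vnorm 𝔸 v (coord φ P) * vnorm 𝔸 v (coord φ Q) * vnorm 𝔸 v (coord φ R)) ≤
      (Real.exp (2 * archLogTwo 𝔸 v) * max (chord 𝔸 v φ Q R) (chord 𝔸 v φ P Q)) *
        (vnorm 𝔸 v (coord φ P) * vnorm 𝔸 v (coord φ Q) * vnorm 𝔸 v (coord φ R)) := by
    linarith [key]
  have := le_of_mul_le_mul_right key' hden
  rwa [max_comm] at this

/-- **the triangle inequality for the local diagonal heights** -/
theorem IsEmbBasis.gloc_triangle (hφ : IsEmbBasis P₀ e φ) (h : IsRRField Qbar F)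
    (he : 2 * genusFF Qbar F + 1 ≤ e) {P Q R : Place Qbar F} (hPQ : P ≠ Q) (hQR : Q ≠ R)
    (hPR : P ≠ R) :
    min (gloc 𝔸 v φ P Q) (gloc 𝔸 v φ Q R) - 2 * archLogTwo 𝔸 v ≤ gloc 𝔸 v φ P R := by
  have h1 := hφ.chord_pos 𝔸 v h he hPQ
  have h2 := hφ.chord_pos 𝔸 v h he hQR
  have h3 := hφ.chord_pos 𝔸 v h he hPR
  have key := hφ.chord_triangle 𝔸 v P Q R
  have hE := Real.exp_pos (2 * archLogTwo 𝔸 v)
  unfold gloc
  rcases le_total (chord 𝔸 v φ P Q) (chord 𝔸 v φ Q R) with hle | hle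
  · rw [max_eq_right hle] at key
    have l1 := Real.log_le_log h3 key
    rw [Real.log_mul hE.ne' h2.ne', Real.log_exp] at l1
    have := min_le_right (-Real.log (chord 𝔸 v φ P Q)) (-Real.log (chord 𝔸 v φ Q R))
    linarith
  · rw [max_eq_left hle] at key
    have l1 := Real.log_le_log h3 key
    rw [Real.log_mul hE.ne' h1.ne', Real.log_exp] at l1
    have := min_le_left (-Real.log (chord 𝔸 v φ P Q)) (-Real.log (chord 𝔸 v φ Q R))
    linarith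

end emb

end Fermat.Agent.S17
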