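/-
S17 (Mordell–Weil for `J₀(N)`), final assembly (architect helper28).

`mw_fg N : AddGroup.FG (MW N)` from
* package W  : `S17W.weakMW N`                     (weak Mordell–Weil, sub-architect helper70),
* SETUP      : `nonempty_hSetup N`,
* seat GA    : `Pairing.pairingThm S bas hLD`       (the height pairing),
* seat GB    : `Pos.positivityThm S hg`            (positivity, sub-architect helper99),
* seat GC    : `northcottThm S`                    (Northcott).
-/
import Fermat.Agent.S17.Assembly
import Fermat.Agent.S17.W.Final
import Fermat.Agent.S17.H.Setup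
import Fermat.Agent.S17.H.Northcott
import Fermat.Agent.S17.H.Pairing.Final
import Fermat.Agent.S17.H.Pos.Final

set_option autoImplicit false

noncomputable section

open AlgebraicCurve ModularCurve Fermat.Agent.RR

namespace Fermat.Agent.S17

/-- **Mordell–Weil for `J₀(N)`** (every level `N ≥ 1`). -/
theorem mw_fg (N : ℕ) [NeZero N] : AddGroup.FG (MW N) :=
  fg_of_packages N (fun _ => Fermat.Agent.S17W.weakMW N) (fun hg => by
    obtain ⟨S⟩ := nonempty_hSetup N
    exact ⟨S, Pairing.pairingThm S (Pos.embBasis S) (Pos.localDecomp S),
      Pos.positivityThm S hg, northcottThm S⟩)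

end Fermat.Agent.S17
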