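import Mathlib
import Fermat.Agent.S17.H.Setup.Main

/-!
# S17 / package H, seat SETUP (helper19): `nonempty_hSetup`

The fixed data of package H exist for every `N ≠ 0`:
`P₀ = Setup.cuspPlace N` (the cusp `∞`, Galois-fixed), `𝔸 = absSys`, `e = 20 g + 10`,
`φ` = a Galois-fixed basis of `L(e P₀)` with `φ 0 = 1`.
Details and the chosen setup `Setup.hSetup N` are in `Setup/Main.lean`, the cusp in
`Setup/Cusp.lean`.
-/

set_option autoImplicit false

namespace Fermat.Agent.S17

/-- **SETUP.** -/
theorem nonempty_hSetup (N : ℕ) [NeZero N] : Nonempty (HSetup N) :=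
  Setup.nonempty_hSetup N

end Fermat.Agent.S17
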